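import Mathlib
import Fermat.Prelude.Def_GaloisRep_Flat
import Fermat.Prelude.Def_GaloisRep_CompletionBridge

/-!
# S56, brick LF (flat local bound): vocabulary and the top statement

Statement-level file (helper168, LF architect).

* `FlatLocal p X act` : the additive group `X` with the action `act` of
  `Gal(ℚ̄_p/ℚ_p)` is the group of `ℚ̄_p`-points of a finite free cocommutative Hopf algebra over
  `ℤ_(p)` (the local form of the frozen `GaloisRepAdic.IsFlatAt`).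
* `liftAct r d` : the action on `k² × k²` of the lift `r + ε d` of `r` to `k[ε]`.
* `Inn r`, `Comm0 r` : inner derivations and the trace-zero commutant of `r`.
* `LFTopStatement` : the flat local bound `dim_k C / (C ∩ Inn) ≤ 1 + dim_k H⁰(ad⁰)`.
* `HSpace` : the space of Kummer-bounded equivariant homomorphisms `G_K → k` (LF6c/LF8).
-/

set_option autoImplicit false

open Polynomial

namespace Fermat.Agent.S56.Flat

/-- `Gal(ℚ̄_p/ℚ_p)`. -/
abbrev Gp (p : ℕ) [Fact p.Prime] : Type := PadicAlgCl p ≃ₐ[ℚ_[p]] PadicAlgCl p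

/-- The additive group `X` with the action `act` of `Gal(ℚ̄_p/ℚ_p)` is, equivariantly, the group
of `ℚ̄_p`-points of a finite free cocommutative Hopf algebra over `ℤ_(p)`. -/
def FlatLocal (p : ℕ) [Fact p.Prime] (X : Type) [AddCommGroup X] (act : Gp p → X → X) : Prop :=
  ∃ (H : Type) (_ : CommRing H) (_ : HopfAlgebra (GaloisRep.ratLocalizedAt p) H),
    Module.Finite (GaloisRep.ratLocalizedAt p) H ∧
    Module.Free (GaloisRep.ratLocalizedAt p) H ∧
    Coalgebra.IsCocomm (GaloisRep.ratLocalizedAt p) H ∧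
    ∃ e : WithConv (H →ₐ[GaloisRep.ratLocalizedAt p] PadicAlgCl p) ≃ X,
      (∀ f g : WithConv (H →ₐ[GaloisRep.ratLocalizedAt p] PadicAlgCl p), e (f * g) = e f + e g) ∧
      ∀ (τ : Gp p) (f g : WithConv (H →ₐ[GaloisRep.ratLocalizedAt p] PadicAlgCl p)),
        (∀ h : H, g.ofConv h = τ (f.ofConv h)) → e g = act τ (e f)

section Lift

variable {p : ℕ} [Fact p.Prime] {k : Type} [Field k]

/-- The action of `r + ε d` on `k² × k² = k[ε]²`: `(v, w) ↦ (r v, r w + d v)`. -/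
def liftAct (r d : Gp p → Matrix (Fin 2) (Fin 2) k) (τ : Gp p) :
    (Fin 2 → k) × (Fin 2 → k) → (Fin 2 → k) × (Fin 2 → k) :=
  fun vw => ((r τ).mulVec vw.1, (r τ).mulVec vw.2 + (d τ).mulVec vw.1)

/-- Inner derivations `σ ↦ X * r σ - r σ * X`. -/
def Inn (r : Gp p → Matrix (Fin 2) (Fin 2) k) : Submodule k (Gp p → Matrix (Fin 2) (Fin 2) k) where
  carrier := {d | ∃ X : Matrix (Fin 2) (Fin 2) k, ∀ σ, d σ = X * r σ - r σ * X}
  add_mem' := by
    rintro d d' ⟨X, hX⟩ ⟨X', hX'⟩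
    refine ⟨X + X', fun σ => ?_⟩
    rw [Pi.add_apply, hX, hX', add_mul, mul_add]
    abel
  zero_mem' := ⟨0, fun σ => by simp⟩
  smul_mem' := by
    rintro c d ⟨X, hX⟩
    refine ⟨c • X, fun σ => ?_⟩
    rw [Pi.smul_apply, hX, smul_sub, Matrix.smul_mul, Matrix.mul_smul]

/-- The trace-zero commutant of `r` (`H⁰` of the adjoint representation). -/
def Comm0 (r : Gp p → Matrix (Fin 2) (Fin 2) k) : Submodule k (Matrix (Fin 2) (Fin 2) k) where
  carrier := {X | X.trace = 0 ∧ ∀ τ, r τ * X = X * r τ}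
  add_mem' := by
    rintro X Y ⟨hX, hX'⟩ ⟨hY, hY'⟩
    refine ⟨by rw [Matrix.trace_add, hX, hY, add_zero], fun τ => ?_⟩
    rw [mul_add, add_mul, hX', hY']
  zero_mem' := ⟨by simp, fun τ => by simp⟩
  smul_mem' := by
    rintro c X ⟨hX, hX'⟩
    refine ⟨by rw [Matrix.trace_smul, hX, smul_zero], fun τ => ?_⟩
    rw [Matrix.mul_smul, Matrix.smul_mul, hX']

end Lift

/-- **LF-top (the flat local bound).**  `k` a finite field of characteristic `p ≠ 2`,
`r : Gal(ℚ̄_p/ℚ_p) → GL₂(k)` of finite level with cyclotomic determinant and split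
characteristic polynomials; `C` a `k`-space of trace-zero derivations of finite level all of whose
non-inner elements `d` have a flat lift `r + ε d`.  Then
`dim_k C / (C ∩ Inn) ≤ 1 + dim_k {X | tr X = 0, X commutes with r}`. -/
def LFTopStatement : Prop :=
  ∀ (p : ℕ) [Fact p.Prime], p ≠ 2 →
  ∀ (k : Type) [Field k] [Finite k] [CharP k p] (r : Gp p →* Matrix (Fin 2) (Fin 2) k),
    (∃ L : IntermediateField ℚ_[p] (PadicAlgCl p), FiniteDimensional ℚ_[p] L ∧
      ∀ τ : Gp p, (∀ x ∈ L, τ x = x) → r τ = 1) →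
    (∀ (τ : Gp p) (a : ℕ), (∀ μ : PadicAlgCl p, μ ^ p = 1 → τ μ = μ ^ a) →
      (r τ).det = (a : k)) →
    (∀ τ : Gp p, ∃ α β : k, (r τ).charpoly = (X - C α) * (X - C β)) →
    ∀ Cs : Submodule k (Gp p → Matrix (Fin 2) (Fin 2) k),
      (∀ d ∈ Cs, ∀ σ τ : Gp p, d (σ * τ) = d σ * r τ + r σ * d τ) →
      (∀ d ∈ Cs, ∀ σ : Gp p, (d σ * r σ⁻¹).trace = 0) →
      (∀ d ∈ Cs, ∃ L : IntermediateField ℚ_[p] (PadicAlgCl p), FiniteDimensional ℚ_[p] L ∧
        ∀ τ : Gp p, (∀ x ∈ L, τ x = x) → d τ = 0) →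
      (∀ d ∈ Cs, d ∉ Inn (p := p) r → FlatLocal p ((Fin 2 → k) × (Fin 2 → k)) (liftAct r d)) →
      Module.finrank k (↥Cs ⧸ (Inn (p := p) r).comap Cs.subtype) ≤
        1 + Module.finrank k (Comm0 (p := p) r)

section HSpace

variable (p : ℕ) [Fact p.Prime] (k : Type) [Field k]

/-- **Kummer-bounded equivariant homomorphisms.**  `F0 ≤ K` finite extensions of `ℚ_p` in `ℚ̄_p`,
`ζ` a `p`-th root of unity, `χ` a function on `Gal(ℚ̄_p/ℚ_p)`.  `HSpace p k F0 K ζ hζ χ` is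
the `k`-space of functions `φ : G_K → k` which are additive, satisfy
`φ (σ g σ⁻¹) = χ σ * φ g` for `σ ∈ G_{F0}`, and such that for every additive `ℓ : k → 𝔽_p` the
character `ℓ ∘ φ` is the Kummer character of a `p`-th root `θ` of an element of `K` which is
`≡ 1` modulo `p` (`‖θ ^ p - 1‖ ≤ ‖p‖`: "level at least `e`"). -/
def HSpace (F0 K : IntermediateField ℚ_[p] (PadicAlgCl p)) (ζ : PadicAlgCl p) (hζ : ζ ^ p = 1)
    (χ : Gp p → k) : Submodule k (K.fixingSubgroup → k) where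
  carrier := {φ | (∀ g h : K.fixingSubgroup, φ (g * h) = φ g + φ h) ∧
    (∀ σ : Gp p, σ ∈ F0.fixingSubgroup → ∀ g g' : K.fixingSubgroup,
      (g' : Gp p) = σ * g * σ⁻¹ → φ g' = χ σ * φ g) ∧
    ∀ ℓ : k →+ ZMod p, ∃ θ : PadicAlgCl p, θ ^ p ∈ K ∧ ‖θ ^ p - 1‖ ≤ ‖(p : PadicAlgCl p)‖ ∧
      ∀ g : K.fixingSubgroup, (g : Gp p) θ = ζ ^ (ℓ (φ g)).val * θ}
  add_mem' := by
    rintro φ φ' ⟨h1, h2, h3⟩ ⟨h1', h2', h3'⟩
    refine ⟨fun g h => ?_, fun σ hσ g g' hg => ?_, fun ℓ => ?_⟩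
    · simp only [Pi.add_apply, h1, h1']; ring
    · simp only [Pi.add_apply, h2 σ hσ g g' hg, h2' σ hσ g g' hg]; ring
    · obtain ⟨θ, hθK, hθn, hθ⟩ := h3 ℓ
      obtain ⟨θ', hθK', hθn', hθ'⟩ := h3' ℓ
      refine ⟨θ * θ', ?_, ?_, fun g => ?_⟩
      · rw [mul_pow]; exact mul_mem hθK hθK'
      · have hp1 : ‖(p : PadicAlgCl p)‖ ≤ 1 := IsUltrametricDist.norm_natCast_le_one _ p
        have e : (θ * θ') ^ p - 1 = (θ ^ p - 1) * (θ' ^ p - 1) + ((θ ^ p - 1) + (θ' ^ p - 1)) := by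
          ring
        rw [e]
        refine (IsUltrametricDist.norm_add_le_max _ _).trans (max_le ?_ ?_)
        · rw [norm_mul]
          calc ‖θ ^ p - 1‖ * ‖θ' ^ p - 1‖ ≤ ‖(p : PadicAlgCl p)‖ * 1 :=
                mul_le_mul hθn (hθn'.trans hp1) (norm_nonneg _) (norm_nonneg _)
            _ = ‖(p : PadicAlgCl p)‖ := mul_one _
        · exact (IsUltrametricDist.norm_add_le_max _ _).trans (max_le hθn hθn')
      · rw [map_mul, hθ g, hθ' g, Pi.add_apply, map_add, ZMod.val_add, ← pow_eq_pow_mod _ hζ,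
          pow_add]
        ring
  zero_mem' := by
    refine ⟨fun g h => by simp, fun σ _ g g' _ => by simp, fun ℓ => ⟨1, ?_, ?_, fun g => ?_⟩⟩
    · rw [one_pow]; exact one_mem K
    · simp
    · simp
  smul_mem' := by
    rintro c φ ⟨h1, h2, h3⟩
    refine ⟨fun g h => ?_, fun σ hσ g g' hg => ?_, fun ℓ => ?_⟩
    · simp only [Pi.smul_apply, smul_eq_mul, h1, mul_add]
    · simp only [Pi.smul_apply, smul_eq_mul, h2 σ hσ g g' hg]; ring
    · obtain ⟨θ, hθK, hθn, hθ⟩ := h3 (ℓ.comp (AddMonoidHom.mulLeft c))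
      exact ⟨θ, hθK, hθn, fun g => by simpa using hθ g⟩

end HSpace

end Fermat.Agent.S56.Flat
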