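import Mathlib
import Fermat.Agent.CFT.Local.UnramPadic
import Fermat.Agent.S56.Flat.Defs

/-!
# S56, brick LF: the count of Kummer-bounded equivariant homomorphisms, finite form

Statement-only file (helper168, LF architect).  `CntFinStatement` is `CntStatement` of
`Flat/LocalBricks.lean` with the conclusion strengthened by finite-dimensionality of `HSpace`
(a bare `finrank` bound says nothing about an infinite-dimensional space).  This is the exit of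
record of row C3 (field half).
-/

set_option autoImplicit false

open scoped NNReal NormedField Valued
open IsLocalRing Polynomial
open Fermat.Agent.CFT.Local.NormedLocal Fermat.Agent.CFT.Local.PadicExt
open Fermat.Agent.CFT.Local.UnramPadic

namespace Fermat.Agent.S56.Flat

open Classical in
/-- **CNT, finite form.**  `Fb ≤ F0 ≤ K` finite, `K` stable under `Γ := G_{Fb}`, `ζ_p ∈ K`,
`ϖ` a uniformiser of `K` with `|ϖ| ^ (e0 (p-1)) = |p|`; `ξ χ = ω̄` on `Γ`; `τ0 ∈ Γ` trivial on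
the residue field of `K` with `τ0 ϖ ≡ z ϖ`, `z ∈ 𝒪[F0]`; `φ ∈ Γ` the `p ^ a`-Frobenius on the
residue field of `K` (`p ^ a = |𝓀[Fb]|`).  Then `HSpace p k Fb K ζ _ χ` is finite-dimensional of
dimension at most `[χ = 1 on Γ] + #{(n, j) : 1 ≤ n ≤ e0, p ∤ n, j < a',
(ρ0 z) ^ ((p e0 - n) p ^ j) = ξ τ0}`. -/
def CntFinStatement : Prop :=
  ∀ (p : ℕ) [Fact p.Prime], p ≠ 2 →
  ∀ (k : Type) [Field k] [Finite k] [CharP k p]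
    (Fb F0 K : IntermediateField ℚ_[p] (PadicAlgCl p)) [FiniteDimensional ℚ_[p] Fb]
    [FiniteDimensional ℚ_[p] F0] [FiniteDimensional ℚ_[p] K],
    Fb ≤ F0 → F0 ≤ K → (∀ σ ∈ Fb.fixingSubgroup, ∀ x ∈ K, σ x ∈ K) →
    ∀ (ζ : PadicAlgCl p) (hζ : IsPrimitiveRoot ζ p), ζ ∈ K →
    ∀ (a a' e0 : ℕ) (ϖ : PadicAlgCl p), Nat.card 𝓀[Fb] = p ^ a → Nat.card 𝓀[F0] = p ^ a' →
      ϖ ∈ K → ‖ϖ‖ < 1 → (∀ x ∈ K, ‖x‖ < 1 → ‖x‖ ≤ ‖ϖ‖) →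
      ‖ϖ‖ ^ (e0 * (p - 1)) = ‖(p : PadicAlgCl p)‖ →
    ∀ (ρ0 : 𝒪[F0] →+* k) (χ ξ : Gp p → kˣ),
      (∀ σ ∈ Fb.fixingSubgroup, ∀ τ ∈ Fb.fixingSubgroup, ξ (σ * τ) = ξ σ * ξ τ) →
      (∀ σ ∈ Fb.fixingSubgroup, ∀ n : ℕ, σ ζ = ζ ^ n → ((ξ σ : kˣ) : k) * (χ σ : kˣ) = n) →
      ∀ (τ0 φ : Gp p) (z : 𝒪[F0]), τ0 ∈ Fb.fixingSubgroup → φ ∈ Fb.fixingSubgroup →
        (∀ x ∈ K, ‖x‖ ≤ 1 → ‖τ0 x - x‖ < 1) →
        (∀ x ∈ K, ‖x‖ ≤ 1 → ‖φ x - x ^ (p ^ a)‖ < 1) →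
        ‖τ0 ϖ - ((z : F0) : PadicAlgCl p) * ϖ‖ < ‖ϖ‖ →
        Module.Finite k (HSpace p k Fb K ζ hζ.pow_eq_one (fun σ => ((χ σ : kˣ) : k))) ∧
        Module.finrank k (HSpace p k Fb K ζ hζ.pow_eq_one (fun σ => ((χ σ : kˣ) : k))) ≤
          (if ∀ σ ∈ Fb.fixingSubgroup, χ σ = 1 then 1 else 0) +
            Nat.card {nj : ℕ × ℕ // 1 ≤ nj.1 ∧ nj.1 ≤ e0 ∧ ¬ p ∣ nj.1 ∧ nj.2 < a' ∧
              ρ0 z ^ ((p * e0 - nj.1) * p ^ nj.2) = ((ξ τ0 : kˣ) : k)}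

end Fermat.Agent.S56.Flat
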