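import Mathlib

/-!
# S56 / LF row B1 (generic core): totally ramified extensions of DVRs are monogenic

`A → B` a finite injective local homomorphism of discrete valuation rings inducing a surjection on
residue fields (so `B / A` is "totally ramified"), `Θ` a uniformiser of `B`.  Then

* `adjoin_eq_top`      : `B = A[Θ]`;
* `coeff_minpoly_mem`  : the minimal polynomial of `Θ` over `A` is Eisenstein-shaped (all lower
                         coefficients in `𝔪_A`);
* `exists_lift`        : ring homs out of `B` are given by a ring hom out of `A` and a root of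
                         the minimal polynomial;
* `exists_eq_aeval`    : every element of `B` is `U(Θ)` with `deg U < deg minpoly`.

Mathlib only; no valuations, no conjugates.
-/

set_option autoImplicit false

namespace Fermat.Agent.S56.Flat.TRGen

open IsLocalRing Polynomial

variable {A B : Type*} [CommRing A] [IsDomain A] [IsDiscreteValuationRing A]
  [CommRing B] [IsDomain B] [IsDiscreteValuationRing B] [Algebra A B]

omit [IsDomain A] [IsDiscreteValuationRing A] in
/-- Successive approximation: `B = A[Θ] + Θ ^ n B` for every `n`. -/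
theorem exists_add_pow_mul
    (hres : Function.Surjective (IsLocalRing.residue B ∘ algebraMap A B))
    (Θ : B) (hΘ : Irreducible Θ) (n : ℕ) (b : B) :
    ∃ b' ∈ Algebra.adjoin A {Θ}, ∃ c : B, b = b' + Θ ^ n * c := by
  induction n with
  | zero => exact ⟨0, zero_mem _, b, by simp⟩
  | succ n ih =>
    obtain ⟨b', hb', c, hc⟩ := ih
    obtain ⟨a, ha⟩ := hres (IsLocalRing.residue B c)
    have h1 : c - algebraMap A B a ∈ maximalIdeal B := by
      rw [← residue_eq_zero_iff, map_sub]
      simp only [Function.comp_apply] at ha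
      rw [ha, sub_self]
    rw [hΘ.maximalIdeal_eq, Ideal.mem_span_singleton'] at h1
    obtain ⟨c', hc'⟩ := h1
    refine ⟨b' + Θ ^ n * algebraMap A B a, ?_, c', ?_⟩
    · exact add_mem hb' (mul_mem (pow_mem (Algebra.self_mem_adjoin_singleton A Θ) n)
        (Subalgebra.algebraMap_mem _ a))
    · have h2 : c = algebraMap A B a + c' * Θ := by rw [hc']; ring
      rw [hc, h2]
      ring

variable [Module.Finite A B]

/-- **TR (i)**: a totally ramified finite extension of DVRs is generated by a uniformiser. -/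
theorem adjoin_eq_top (hinj : Function.Injective (algebraMap A B))
    (hres : Function.Surjective (IsLocalRing.residue B ∘ algebraMap A B))
    (Θ : B) (hΘ : Irreducible Θ) : Algebra.adjoin A {Θ} = ⊤ := by
  obtain ⟨ϖ, hϖ⟩ := IsDiscreteValuationRing.exists_irreducible A
  have hne : algebraMap A B ϖ ≠ 0 := fun h => hϖ.ne_zero (hinj (h.trans (map_zero _).symm))
  obtain ⟨e, u, hu⟩ := IsDiscreteValuationRing.eq_unit_mul_pow_irreducible hne hΘ
  have hle : (⊤ : Submodule A B) ≤
      Subalgebra.toSubmodule (Algebra.adjoin A {Θ}) ⊔ maximalIdeal A • ⊤ := by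
    intro b _
    obtain ⟨b', hb', c, rfl⟩ := exists_add_pow_mul hres Θ hΘ e b
    refine Submodule.add_mem_sup hb' ?_
    have h1 : Θ ^ e * c = ϖ • ((↑u⁻¹ : B) * c) := by
      rw [Algebra.smul_def, hu]
      have h2 : (u : B) * Θ ^ e * ((↑u⁻¹ : B) * c) = ((u : B) * (↑u⁻¹ : B)) * (Θ ^ e * c) := by
        ring
      rw [h2, Units.mul_inv, one_mul]
    rw [h1]
    refine Submodule.smul_mem_smul ?_ Submodule.mem_top
    rw [hϖ.maximalIdeal_eq]
    exact Ideal.mem_span_singleton_self ϖ
  have h := Submodule.le_of_le_smul_of_le_jacobson_bot (Module.Finite.fg_top)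
    (IsLocalRing.jacobson_eq_maximalIdeal (⊥ : Ideal A) bot_ne_top).ge hle
  exact Algebra.eq_top_iff.mpr fun b => h Submodule.mem_top

/-- Every element of `B` is a polynomial in `Θ`. -/
theorem exists_aeval_eq (hinj : Function.Injective (algebraMap A B))
    (hres : Function.Surjective (IsLocalRing.residue B ∘ algebraMap A B))
    (Θ : B) (hΘ : Irreducible Θ) (b : B) : ∃ P : A[X], aeval Θ P = b := by
  have h : b ∈ Algebra.adjoin A {Θ} := by
    rw [adjoin_eq_top hinj hres Θ hΘ]
    exact Algebra.mem_top
  rw [Algebra.adjoin_singleton_eq_range_aeval] at h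
  exact h

/-- **TR (iv)**: normal form `b = U(Θ)` with `deg U < deg (minpoly A Θ)`. -/
theorem exists_eq_aeval (hinj : Function.Injective (algebraMap A B))
    (hres : Function.Surjective (IsLocalRing.residue B ∘ algebraMap A B))
    (Θ : B) (hΘ : Irreducible Θ) (b : B) :
    ∃ U : A[X], U.natDegree < (minpoly A Θ).natDegree ∧ aeval Θ U = b := by
  obtain ⟨P, hP⟩ := exists_aeval_eq hinj hres Θ hΘ b
  have hint : IsIntegral A Θ := IsIntegral.of_finite A Θ
  have hmon := minpoly.monic hint
  have hne1 : minpoly A Θ ≠ 1 := minpoly.ne_one A Θ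
  refine ⟨P %ₘ minpoly A Θ, natDegree_modByMonic_lt P hmon hne1, ?_⟩
  have h := congrArg (aeval Θ) (modByMonic_add_div P (minpoly A Θ))
  rw [map_add, map_mul, minpoly.aeval, zero_mul, add_zero] at h
  rw [h, hP]

/-- A polynomial relation modulo `𝔪_A B` lifts to a divisibility of reductions: the reduction of
the minimal polynomial of `Θ` divides `X ^ e` where `Θ ^ e ∈ 𝔪_A B`. -/
theorem map_minpoly_dvd_X_pow (hinj : Function.Injective (algebraMap A B))
    (hres : Function.Surjective (IsLocalRing.residue B ∘ algebraMap A B))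
    (Θ : B) (hΘ : Irreducible Θ) :
    ∃ e : ℕ, (minpoly A Θ).map (IsLocalRing.residue A) ∣ (X : (ResidueField A)[X]) ^ e := by
  obtain ⟨ϖ, hϖ⟩ := IsDiscreteValuationRing.exists_irreducible A
  have hne : algebraMap A B ϖ ≠ 0 := fun h => hϖ.ne_zero (hinj (h.trans (map_zero _).symm))
  obtain ⟨e, u, hu⟩ := IsDiscreteValuationRing.eq_unit_mul_pow_irreducible hne hΘ
  obtain ⟨Q, hQ⟩ := exists_aeval_eq hinj hres Θ hΘ (↑u⁻¹ : B)
  have hint : IsIntegral A Θ := IsIntegral.of_finite A Θ
  have : Module.IsTorsionFree A B := Module.isTorsionFree_iff_algebraMap_injective.mpr hinj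
  have h0 : aeval Θ (X ^ e - C ϖ * Q) = 0 := by
    rw [map_sub, map_pow, aeval_X, map_mul, aeval_C, hQ, hu]
    have h2 : (u : B) * Θ ^ e * (↑u⁻¹ : B) = ((u : B) * (↑u⁻¹ : B)) * Θ ^ e := by ring
    rw [h2, Units.mul_inv, one_mul, sub_self]
  obtain ⟨q, hq⟩ := minpoly.isIntegrallyClosed_dvd hint h0
  refine ⟨e, q.map (IsLocalRing.residue A), ?_⟩
  have h3 := congrArg (Polynomial.map (IsLocalRing.residue A)) hq
  rw [Polynomial.map_sub, Polynomial.map_pow, Polynomial.map_X, Polynomial.map_mul,
    Polynomial.map_C, Polynomial.map_mul] at h3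
  have h4 : IsLocalRing.residue A ϖ = 0 := by
    rw [residue_eq_zero_iff, hϖ.maximalIdeal_eq]
    exact Ideal.mem_span_singleton_self ϖ
  rw [h4, map_zero, zero_mul, sub_zero] at h3
  exact h3

/-- The reduction of the minimal polynomial of a uniformiser is a power of `X`. -/
theorem map_minpoly_eq_X_pow (hinj : Function.Injective (algebraMap A B))
    (hres : Function.Surjective (IsLocalRing.residue B ∘ algebraMap A B))
    (Θ : B) (hΘ : Irreducible Θ) :
    (minpoly A Θ).map (IsLocalRing.residue A) = X ^ (minpoly A Θ).natDegree := by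
  obtain ⟨e, he⟩ := map_minpoly_dvd_X_pow hinj hres Θ hΘ
  have hint : IsIntegral A Θ := IsIntegral.of_finite A Θ
  have hmon := minpoly.monic hint
  obtain ⟨i, -, hi⟩ := (dvd_prime_pow Polynomial.prime_X e).mp he
  have h1 : (minpoly A Θ).map (IsLocalRing.residue A) = X ^ i :=
    eq_of_monic_of_associated (hmon.map _) (monic_X_pow i) hi
  have h2 := congrArg natDegree h1
  rw [hmon.natDegree_map, natDegree_X_pow] at h2
  rw [h1, h2]

/-- **TR (ii)**: the minimal polynomial of a uniformiser of a totally ramified extension has all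
its lower coefficients in the maximal ideal (Eisenstein shape). -/
theorem coeff_minpoly_mem (hinj : Function.Injective (algebraMap A B))
    (hres : Function.Surjective (IsLocalRing.residue B ∘ algebraMap A B))
    (Θ : B) (hΘ : Irreducible Θ) (i : ℕ) (hi : i < (minpoly A Θ).natDegree) :
    (minpoly A Θ).coeff i ∈ maximalIdeal A := by
  have h := congrArg (fun P : (ResidueField A)[X] => P.coeff i)
    (map_minpoly_eq_X_pow hinj hres Θ hΘ)
  simp only [coeff_map, coeff_X_pow, if_neg hi.ne] at h
  exact (residue_eq_zero_iff _).mp h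

/-- **TR (iii)**: ring homomorphisms out of `B = A[Θ]`: a ring hom `i` out of `A` and a root `a`
of the minimal polynomial of `Θ` (transported by `i`) give a ring hom `B → T` extending `i` with
`Θ ↦ a`. -/
theorem exists_lift (hinj : Function.Injective (algebraMap A B))
    (hres : Function.Surjective (IsLocalRing.residue B ∘ algebraMap A B))
    (Θ : B) (hΘ : Irreducible Θ) {T : Type*} [CommRing T] (i : A →+* T) (a : T)
    (ha : eval₂ i a (minpoly A Θ) = 0) :
    ∃ ψ : B →+* T, (∀ x : A, ψ (algebraMap A B x) = i x) ∧ ψ Θ = a ∧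
      ∀ P : A[X], ψ (aeval Θ P) = eval₂ i a P := by
  have hint : IsIntegral A Θ := IsIntegral.of_finite A Θ
  have : Module.IsTorsionFree A B := Module.isTorsionFree_iff_algebraMap_injective.mpr hinj
  have hsurj : Function.Surjective ((aeval Θ : A[X] →ₐ[A] B) : A[X] →+* B) :=
    fun b => exists_aeval_eq hinj hres Θ hΘ b
  have hker : RingHom.ker ((aeval Θ : A[X] →ₐ[A] B) : A[X] →+* B) ≤
      RingHom.ker (eval₂RingHom i a) := by
    intro P hP
    rw [RingHom.mem_ker] at hP ⊢
    obtain ⟨q, rfl⟩ := minpoly.isIntegrallyClosed_dvd hint hP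
    rw [coe_eval₂RingHom, eval₂_mul, ha, zero_mul]
  let ψ : B →+* T := RingHom.liftOfSurjective _ hsurj ⟨eval₂RingHom i a, hker⟩
  have hψ : ∀ P : A[X], ψ (aeval Θ P) = eval₂ i a P := fun P =>
    RingHom.liftOfSurjective_comp_apply _ hsurj ⟨eval₂RingHom i a, hker⟩ P
  refine ⟨ψ, fun x => ?_, ?_, hψ⟩
  · have h := hψ (C x)
    rwa [aeval_C, eval₂_C] at h
  · have h := hψ X
    rwa [aeval_X, eval₂_X] at h

end Fermat.Agent.S56.Flat.TRGen
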