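import Mathlib
import Fermat.Agent.CFT.Local.UnramPadic
import Fermat.Agent.S56.Flat.TRGen

/-!
# S56 / LF row B1 (instance): totally ramified extensions of local fields are monogenic

Instances of `Fermat.Agent.S56.Flat.TRGen` in the landed `CFT/Local` vocabulary:

* `section Normed`: `K → L` a finite separable normed extension of local fields
  (`NormedLocal` binders) with `Nat.card 𝓀[L] = Nat.card 𝓀[K]`;
* `section Padic`: `E ≤ L` finite extensions of `ℚ_[q]` inside `PadicAlgCl q`, for the inclusion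
  algebra `letI := PadicExt.normedAlgebraOfLE h`.

For a uniformiser `Θ` of `𝒪[L]`: `𝒪[L] = 𝒪[K][Θ]`, the minimal polynomial of `Θ` over `𝒪[K]` has
all lower coefficients in `𝓂[K]`, ring homs out of `𝒪[L]` are given by a ring hom out of `𝒪[K]`
and a root of that polynomial, and every element is `U(Θ)` with `deg U < deg minpoly`.
-/

set_option autoImplicit false

namespace Fermat.Agent.S56.Flat.TR

open scoped NNReal NormedField Valued
open IsLocalRing Polynomial
open Fermat.Agent.CFT.Local.NormedLocal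

section Normed

variable (K : Type*) [NontriviallyNormedField K] [IsUltrametricDist K]
variable (L : Type*) [NontriviallyNormedField L] [IsUltrametricDist L] [NormedAlgebra K L]
variable [ProperSpace K] [FiniteDimensional K L] [Algebra.IsSeparable K L]

/-- Equal residue cardinalities: the residue field of `L` is generated by `𝒪[K]`. -/
theorem residue_comp_surjective (hcard : Nat.card 𝓀[L] = Nat.card 𝓀[K]) :
    Function.Surjective (IsLocalRing.residue 𝒪[L] ∘ algebraMap 𝒪[K] 𝒪[L]) := by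
  have : ProperSpace L := FiniteDimensional.proper K L
  have hinj : Function.Injective (ResidueField.map (algebraMap 𝒪[K] 𝒪[L])) :=
    RingHom.injective _
  have hbij := (Nat.bijective_iff_injective_and_card _).mpr ⟨hinj, hcard.symm⟩
  intro y
  obtain ⟨x, rfl⟩ := hbij.2 y
  obtain ⟨a, rfl⟩ := IsLocalRing.residue_surjective x
  exact ⟨a, rfl⟩

/-- **TR (i)**, normed form. -/
theorem adjoin_eq_top (hcard : Nat.card 𝓀[L] = Nat.card 𝓀[K]) (Θ : 𝒪[L]) (hΘ : Irreducible Θ) :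
    Algebra.adjoin 𝒪[K] {Θ} = ⊤ := by
  have : ProperSpace L := FiniteDimensional.proper K L
  have := finite_integer K L
  exact TRGen.adjoin_eq_top (FaithfulSMul.algebraMap_injective 𝒪[K] 𝒪[L])
    (residue_comp_surjective K L hcard) Θ hΘ

/-- **TR (ii)**, normed form. -/
theorem coeff_minpoly_mem (hcard : Nat.card 𝓀[L] = Nat.card 𝓀[K]) (Θ : 𝒪[L])
    (hΘ : Irreducible Θ) (i : ℕ) (hi : i < (minpoly 𝒪[K] Θ).natDegree) :
    (minpoly 𝒪[K] Θ).coeff i ∈ 𝓂[K] := by
  have : ProperSpace L := FiniteDimensional.proper K L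
  have := finite_integer K L
  exact TRGen.coeff_minpoly_mem (FaithfulSMul.algebraMap_injective 𝒪[K] 𝒪[L])
    (residue_comp_surjective K L hcard) Θ hΘ i hi

/-- **TR (iii)**, normed form. -/
theorem exists_lift (hcard : Nat.card 𝓀[L] = Nat.card 𝓀[K]) (Θ : 𝒪[L]) (hΘ : Irreducible Θ)
    {T : Type*} [CommRing T] (i : 𝒪[K] →+* T) (a : T)
    (ha : eval₂ i a (minpoly 𝒪[K] Θ) = 0) :
    ∃ ψ : 𝒪[L] →+* T, (∀ x : 𝒪[K], ψ (algebraMap 𝒪[K] 𝒪[L] x) = i x) ∧ ψ Θ = a ∧
      ∀ P : 𝒪[K][X], ψ (aeval Θ P) = eval₂ i a P := by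
  have : ProperSpace L := FiniteDimensional.proper K L
  have := finite_integer K L
  exact TRGen.exists_lift (FaithfulSMul.algebraMap_injective 𝒪[K] 𝒪[L])
    (residue_comp_surjective K L hcard) Θ hΘ i a ha

/-- **TR (iv)**, normed form. -/
theorem exists_eq_aeval (hcard : Nat.card 𝓀[L] = Nat.card 𝓀[K]) (Θ : 𝒪[L]) (hΘ : Irreducible Θ)
    (b : 𝒪[L]) :
    ∃ U : 𝒪[K][X], U.natDegree < (minpoly 𝒪[K] Θ).natDegree ∧ aeval Θ U = b := by
  have : ProperSpace L := FiniteDimensional.proper K L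
  have := finite_integer K L
  exact TRGen.exists_eq_aeval (FaithfulSMul.algebraMap_injective 𝒪[K] 𝒪[L])
    (residue_comp_surjective K L hcard) Θ hΘ b

end Normed

section Padic

open Fermat.Agent.CFT.Local.PadicExt Fermat.Agent.CFT.Local.UnramPadic

variable {q : ℕ} [Fact q.Prime]
variable {E L : IntermediateField ℚ_[q] (PadicAlgCl q)} [FiniteDimensional ℚ_[q] E]
  [FiniteDimensional ℚ_[q] L] (h : E ≤ L)

/-- **TR (i)** for `E ≤ L` inside `PadicAlgCl q`. -/
theorem adjoin_eq_top_of_le (hcard : Nat.card 𝓀[L] = Nat.card 𝓀[E]) (Θ : 𝒪[L])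
    (hΘ : Irreducible Θ) :
    letI := normedAlgebraOfLE h
    Algebra.adjoin 𝒪[E] {Θ} = ⊤ := by
  letI := normedAlgebraOfLE h
  haveI := finiteDimensional_of_le h
  exact adjoin_eq_top E L hcard Θ hΘ

/-- **TR (ii)** for `E ≤ L` inside `PadicAlgCl q`. -/
theorem coeff_minpoly_mem_of_le (hcard : Nat.card 𝓀[L] = Nat.card 𝓀[E]) (Θ : 𝒪[L])
    (hΘ : Irreducible Θ) :
    letI := normedAlgebraOfLE h
    ∀ i : ℕ, i < (minpoly 𝒪[E] Θ).natDegree → (minpoly 𝒪[E] Θ).coeff i ∈ 𝓂[E] := by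
  letI := normedAlgebraOfLE h
  haveI := finiteDimensional_of_le h
  exact fun i hi => coeff_minpoly_mem E L hcard Θ hΘ i hi

/-- **TR (iii)** for `E ≤ L` inside `PadicAlgCl q`. -/
theorem exists_lift_of_le (hcard : Nat.card 𝓀[L] = Nat.card 𝓀[E]) (Θ : 𝒪[L])
    (hΘ : Irreducible Θ) {T : Type*} [CommRing T] (i : 𝒪[E] →+* T) (a : T) :
    letI := normedAlgebraOfLE h
    eval₂ i a (minpoly 𝒪[E] Θ) = 0 →
    ∃ ψ : 𝒪[L] →+* T, (∀ x : 𝒪[E], ψ (algebraMap 𝒪[E] 𝒪[L] x) = i x) ∧ ψ Θ = a ∧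
      ∀ P : 𝒪[E][X], ψ (aeval Θ P) = eval₂ i a P := by
  letI := normedAlgebraOfLE h
  haveI := finiteDimensional_of_le h
  exact fun ha => exists_lift E L hcard Θ hΘ i a ha

/-- **TR (iv)** for `E ≤ L` inside `PadicAlgCl q`. -/
theorem exists_eq_aeval_of_le (hcard : Nat.card 𝓀[L] = Nat.card 𝓀[E]) (Θ : 𝒪[L])
    (hΘ : Irreducible Θ) (b : 𝒪[L]) :
    letI := normedAlgebraOfLE h
    ∃ U : 𝒪[E][X], U.natDegree < (minpoly 𝒪[E] Θ).natDegree ∧ aeval Θ U = b := by
  letI := normedAlgebraOfLE h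
  haveI := finiteDimensional_of_le h
  exact exists_eq_aeval E L hcard Θ hΘ b

end Padic

end Fermat.Agent.S56.Flat.TR
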