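import Mathlib
import Fermat.Agent.S56.Flat.TR

/-!
# S56 / LF row B1, extras on top of `Flat/TR` (helper118)

Setting of `Fermat.Agent.S56.Flat.TR`: `K → L` a finite separable normed extension of local fields
(`NormedLocal` binders), `hcard : Nat.card 𝓀[L] = Nat.card 𝓀[K]` (totally ramified), `Θ : 𝒪[L]` a
uniformiser.  On top of TR (i)-(iv) (`Flat/TR`, helper86):

* `inertiaDeg_eq_one`, `ramificationIdx_eq_finrank` : `f = 1`, `e = [L : K]`;
* `norm_eq_pow_finrank`, `exists_pow_finrank_eq_mul` : `‖ϖ‖ = ‖Θ‖ ^ [L : K]`, `Θ ^ [L : K] = ϖ * w`;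
* `natDegree_minpoly` : `(minpoly 𝒪[K] Θ).natDegree = [L : K]`;
* `coeff_minpoly_mem_of_mem` : for ANY non-unit `Θ` of `𝒪[L]` (no ramification hypothesis) the lower
  coefficients of `minpoly 𝒪[K] Θ` lie in `𝓂[K]`;
* `coeff_zero_minpoly_notMem`, `isEisensteinAt_minpoly` : the minimal polynomial of a uniformiser
  of a totally ramified extension is Eisenstein (Mathlib's `Polynomial.IsEisensteinAt`);
* `section Padic` : the same for `E ≤ L` finite inside `PadicAlgCl q`
  (`letI := PadicExt.normedAlgebraOfLE h`), suffix `_of_le`.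
-/

set_option autoImplicit false

noncomputable section

namespace Fermat.Agent.S56.Flat.TRExtras

open scoped NNReal NormedField Valued
open IsLocalRing Polynomial
open Fermat.Agent.CFT.Local.NormedLocal
open Fermat.Agent.S56.Flat

section Normed

variable {K L : Type*} [NontriviallyNormedField K] [IsUltrametricDist K]
  [NontriviallyNormedField L] [IsUltrametricDist L] [NormedAlgebra K L]

lemma norm_lt_one_of_mem_maximalIdeal {x : 𝒪[L]} (hx : x ∈ 𝓂[L]) : ‖x‖ < 1 := by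
  rw [IsLocalRing.mem_maximalIdeal, mem_nonunits_iff, Valued.integer.isUnit_iff_norm_eq_one] at hx
  exact lt_of_le_of_ne (Valued.integer.norm_le_one x) hx


variable [ProperSpace K] [FiniteDimensional K L] [Algebra.IsSeparable K L]

/-- Totally ramified: the residue degree is one. -/
theorem inertiaDeg_eq_one (hcard : Nat.card 𝓀[L] = Nat.card 𝓀[K]) :
    (𝓂[L]).inertiaDeg 𝒪[K] = 1 := by
  have h := card_residueField_eq_pow K L
  rw [hcard] at h
  have h1 : 1 < Nat.card 𝓀[K] := Finite.one_lt_card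
  have h2 : Nat.card 𝓀[K] ^ 1 = Nat.card 𝓀[K] ^ (𝓂[L]).inertiaDeg 𝒪[K] := by
    rw [pow_one]
    exact h
  exact (Nat.pow_right_injective h1 h2).symm

/-- Totally ramified: the ramification index is the degree. -/
theorem ramificationIdx_eq_finrank (hcard : Nat.card 𝓀[L] = Nat.card 𝓀[K]) :
    (𝓂[L]).ramificationIdx 𝒪[K] = Module.finrank K L := by
  have h := ramificationIdx_mul_inertiaDeg K L
  rwa [inertiaDeg_eq_one hcard, mul_one] at h

variable {Θ : 𝒪[L]}

/-- Totally ramified: a uniformiser of `K` has the norm of the `[L : K]`-th power of a uniformiser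
of `L`. -/
theorem norm_eq_pow_finrank (hcard : Nat.card 𝓀[L] = Nat.card 𝓀[K]) {ϖ : 𝒪[K]}
    (hϖ : Irreducible ϖ) (hΘ : Irreducible Θ) :
    ‖(ϖ : K)‖ = ‖(Θ : L)‖ ^ Module.finrank K L := by
  have : ProperSpace L := FiniteDimensional.proper K L
  rw [norm_irreducible_eq_pow hϖ hΘ, ramificationIdx_eq_finrank hcard]

/-- Totally ramified: `Θ ^ [L : K]` is a uniformiser of `K` times an integer of `L`. -/
theorem exists_pow_finrank_eq_mul (hcard : Nat.card 𝓀[L] = Nat.card 𝓀[K]) {ϖ : 𝒪[K]}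
    (hϖ : Irreducible ϖ) (hΘ : Irreducible Θ) :
    ∃ w : 𝒪[L], Θ ^ Module.finrank K L = algebraMap 𝒪[K] 𝒪[L] ϖ * w := by
  have : ProperSpace L := FiniteDimensional.proper K L
  have hnorm : ‖(ϖ : K)‖ = ‖(Θ : L)‖ ^ Module.finrank K L := by
    rw [norm_irreducible_eq_pow hϖ hΘ, ramificationIdx_eq_finrank hcard]
  have hϖ0 : algebraMap K L (ϖ : K) ≠ 0 := by
    rw [Ne, map_eq_zero]
    exact fun h => hϖ.ne_zero (Subtype.ext h)
  have hΘpos : 0 < ‖(Θ : L)‖ := Valued.integer.norm_irreducible_pos hΘ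
  refine ⟨⟨(Θ : L) ^ Module.finrank K L / algebraMap K L (ϖ : K), ?_⟩, ?_⟩
  · rw [Valued.integer.mem_iff, norm_div, norm_pow, norm_algebraMap', hnorm]
    exact le_of_eq (div_self (pow_ne_zero _ hΘpos.ne'))
  · apply Subtype.ext
    show (Θ : L) ^ Module.finrank K L =
      algebraMap K L (ϖ : K) * ((Θ : L) ^ Module.finrank K L / algebraMap K L (ϖ : K))
    field_simp

/-- Totally ramified: the minimal polynomial of a uniformiser has degree `[L : K]`. -/
theorem natDegree_minpoly (hcard : Nat.card 𝓀[L] = Nat.card 𝓀[K]) (hΘ : Irreducible Θ) :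
    (minpoly 𝒪[K] Θ).natDegree = Module.finrank K L := by
  have : ProperSpace L := FiniteDimensional.proper K L
  have := finite_integer K L
  have hint : IsIntegral 𝒪[K] Θ := Algebra.IsIntegral.isIntegral Θ
  have h1 := (Algebra.adjoin.powerBasis' hint).finrank
  rw [Algebra.adjoin.powerBasis'_dim] at h1
  rw [← h1, ← finrank_integer K L]
  exact ((Subalgebra.equivOfEq _ _ (TR.adjoin_eq_top K L hcard Θ hΘ)).trans
    Subalgebra.topEquiv).toLinearEquiv.finrank_eq

/-- **(TR (ii))**, general form: the lower coefficients of the minimal polynomial of a non-unit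
integer of `L` lie in the maximal ideal of `𝒪[K]` (no ramification hypothesis). -/
theorem coeff_minpoly_mem_of_mem (hΘ : Θ ∈ 𝓂[L]) (i : ℕ)
    (hi : i < (minpoly 𝒪[K] Θ).natDegree) : (minpoly 𝒪[K] Θ).coeff i ∈ 𝓂[K] := by
  have : ProperSpace L := FiniteDimensional.proper K L
  have := finite_integer K L
  have hint : IsIntegral 𝒪[K] Θ := Algebra.IsIntegral.isIntegral Θ
  have hmin : minpoly K (Θ : L) = (minpoly 𝒪[K] Θ).map (algebraMap 𝒪[K] K) :=
    minpoly.isIntegrallyClosed_eq_field_fractions K L hint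
  have hmon : (minpoly 𝒪[K] Θ).Monic := minpoly.monic hint
  have hdeg : (minpoly K (Θ : L)).natDegree = (minpoly 𝒪[K] Θ).natDegree := by
    rw [hmin, hmon.natDegree_map]
  have hi' : i < (minpoly K (Θ : L)).natDegree := by
    rw [hdeg]
    exact hi
  have hsv : spectralValue (minpoly K (Θ : L)) < 1 := by
    have h := NormedAlgebra.norm_eq_spectralNorm K (Θ : L)
    rw [spectralNorm] at h
    rw [← h]
    exact norm_lt_one_of_mem_maximalIdeal hΘ
  have hterm : spectralValueTerms (minpoly K (Θ : L)) i ≤ spectralValue (minpoly K (Θ : L)) :=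
    le_ciSup (spectralValueTerms_bddAbove _) i
  rw [spectralValueTerms_of_lt_natDegree _ hi'] at hterm
  have hlt : ‖(minpoly K (Θ : L)).coeff i‖ < 1 := by
    by_contra hge
    rw [not_lt] at hge
    have hexp : (0 : ℝ) ≤ 1 / ((minpoly K (Θ : L)).natDegree - i : ℝ) :=
      div_nonneg zero_le_one (sub_nonneg.mpr (by exact_mod_cast hi'.le))
    have := Real.one_le_rpow hge hexp
    linarith
  rw [hmin, Polynomial.coeff_map] at hlt
  rw [IsLocalRing.mem_maximalIdeal, mem_nonunits_iff, Valued.integer.isUnit_iff_norm_eq_one]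
  exact hlt.ne

/-- Totally ramified: the constant coefficient of the minimal polynomial of a uniformiser of `L`
is a uniformiser of `K` (it is not in `𝓂[K] ^ 2`). -/
theorem coeff_zero_minpoly_notMem (hcard : Nat.card 𝓀[L] = Nat.card 𝓀[K]) (hΘ : Irreducible Θ) :
    (minpoly 𝒪[K] Θ).coeff 0 ∉ 𝓂[K] ^ 2 := by
  have : ProperSpace L := FiniteDimensional.proper K L
  have := finite_integer K L
  intro h0
  obtain ⟨ϖ, hϖ⟩ := IsDiscreteValuationRing.exists_irreducible 𝒪[K]
  have hint : IsIntegral 𝒪[K] Θ := Algebra.IsIntegral.isIntegral Θ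
  have hmon : (minpoly 𝒪[K] Θ).Monic := minpoly.monic hint
  have hdeg : (minpoly 𝒪[K] Θ).natDegree = Module.finrank K L := natDegree_minpoly hcard hΘ
  have hn1 : 1 ≤ Module.finrank K L := Module.finrank_pos
  have hnorm : ‖(ϖ : K)‖ = ‖(Θ : L)‖ ^ Module.finrank K L := by
    rw [norm_irreducible_eq_pow hϖ hΘ, ramificationIdx_eq_finrank hcard]
  have hΘpos : 0 < ‖(Θ : L)‖ := Valued.integer.norm_irreducible_pos hΘ
  have hΘlt : ‖(Θ : L)‖ < 1 := Valued.integer.norm_irreducible_lt_one hΘ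
  -- the equation of `Θ`, read in `L`
  have hrel : ∑ i ∈ Finset.range ((minpoly 𝒪[K] Θ).natDegree + 1),
      algebraMap K L (((minpoly 𝒪[K] Θ).coeff i : 𝒪[K]) : K) * (Θ : L) ^ i = 0 := by
    have h := minpoly.aeval 𝒪[K] Θ
    rw [Polynomial.aeval_eq_sum_range] at h
    have h' := congrArg (algebraMap 𝒪[L] L) h
    rw [map_sum, map_zero] at h'
    rw [← h']
    refine Finset.sum_congr rfl fun i _ => ?_
    rw [Algebra.smul_def, map_mul, map_pow]
    rfl
  rw [Finset.sum_range_succ, hmon.coeff_natDegree] at hrel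
  have hΘN : (Θ : L) ^ (minpoly 𝒪[K] Θ).natDegree =
      -∑ i ∈ Finset.range (minpoly 𝒪[K] Θ).natDegree,
        algebraMap K L (((minpoly 𝒪[K] Θ).coeff i : 𝒪[K]) : K) * (Θ : L) ^ i := by
    rw [eq_neg_iff_add_eq_zero, add_comm]
    have h1 : algebraMap K L (((1 : 𝒪[K]) : 𝒪[K]) : K) = 1 := by
      rw [OneMemClass.coe_one, map_one]
    rw [h1, one_mul] at hrel
    exact hrel
  have hbound : ∀ i ∈ Finset.range (minpoly 𝒪[K] Θ).natDegree,
      ‖algebraMap K L (((minpoly 𝒪[K] Θ).coeff i : 𝒪[K]) : K) * (Θ : L) ^ i‖ ≤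
        ‖(Θ : L)‖ ^ ((minpoly 𝒪[K] Θ).natDegree + 1) := by
    intro i hi
    rw [Finset.mem_range] at hi
    rw [norm_mul, norm_algebraMap', norm_pow]
    rcases Nat.eq_zero_or_pos i with rfl | hipos
    · have hc0 : ‖(((minpoly 𝒪[K] Θ).coeff 0 : 𝒪[K]) : K)‖ ≤ ‖(ϖ : K)‖ ^ 2 := by
        have hmem : (minpoly 𝒪[K] Θ).coeff 0 ∈ ((𝓂[K] ^ 2 : Ideal 𝒪[K]) : Set 𝒪[K]) := h0
        rw [hϖ.maximalIdeal_pow_eq_closedBall_pow 2, mem_closedBall_zero_iff] at hmem
        exact hmem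
      rw [pow_zero, mul_one]
      calc ‖(((minpoly 𝒪[K] Θ).coeff 0 : 𝒪[K]) : K)‖ ≤ ‖(ϖ : K)‖ ^ 2 := hc0
        _ = ‖(Θ : L)‖ ^ (Module.finrank K L * 2) := by rw [hnorm, pow_mul]
        _ ≤ ‖(Θ : L)‖ ^ ((minpoly 𝒪[K] Θ).natDegree + 1) :=
            pow_le_pow_of_le_one hΘpos.le hΘlt.le (by rw [hdeg]; omega)
    · have hci : ‖(((minpoly 𝒪[K] Θ).coeff i : 𝒪[K]) : K)‖ ≤ ‖(ϖ : K)‖ := by
        have hmem : (minpoly 𝒪[K] Θ).coeff i ∈ ((𝓂[K] : Ideal 𝒪[K]) : Set 𝒪[K]) :=
          TR.coeff_minpoly_mem K L hcard Θ hΘ i hi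
        rw [hϖ.maximalIdeal_eq_closedBall, mem_closedBall_zero_iff] at hmem
        exact hmem
      calc ‖(((minpoly 𝒪[K] Θ).coeff i : 𝒪[K]) : K)‖ * ‖(Θ : L)‖ ^ i
          ≤ ‖(ϖ : K)‖ * ‖(Θ : L)‖ ^ 1 :=
            mul_le_mul hci (pow_le_pow_of_le_one hΘpos.le hΘlt.le hipos)
              (pow_nonneg hΘpos.le _) (norm_nonneg _)
        _ = ‖(Θ : L)‖ ^ ((minpoly 𝒪[K] Θ).natDegree + 1) := by
            rw [hnorm, hdeg, pow_one, pow_succ]
  have hsum := IsUltrametricDist.norm_sum_le_of_forall_le_of_nonneg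
    (pow_nonneg hΘpos.le ((minpoly 𝒪[K] Θ).natDegree + 1)) hbound
  have hle : ‖(Θ : L)‖ ^ (minpoly 𝒪[K] Θ).natDegree ≤
      ‖(Θ : L)‖ ^ ((minpoly 𝒪[K] Θ).natDegree + 1) := by
    rw [← norm_pow, hΘN, norm_neg]
    exact hsum
  have hlt : ‖(Θ : L)‖ ^ ((minpoly 𝒪[K] Θ).natDegree + 1) <
      ‖(Θ : L)‖ ^ (minpoly 𝒪[K] Θ).natDegree := by
    rw [pow_succ]
    exact mul_lt_of_lt_one_right (pow_pos hΘpos _) hΘlt
  exact absurd hle (not_le.mpr hlt)

/-- **(TR (ii))**, Mathlib form: the minimal polynomial of a uniformiser of a totally ramified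
extension is Eisenstein. -/
theorem isEisensteinAt_minpoly (hcard : Nat.card 𝓀[L] = Nat.card 𝓀[K]) (hΘ : Irreducible Θ) :
    (minpoly 𝒪[K] Θ).IsEisensteinAt 𝓂[K] := by
  have : ProperSpace L := FiniteDimensional.proper K L
  have := finite_integer K L
  have hint : IsIntegral 𝒪[K] Θ := Algebra.IsIntegral.isIntegral Θ
  refine ⟨?_, fun {i} hi => TR.coeff_minpoly_mem K L hcard Θ hΘ i hi,
    coeff_zero_minpoly_notMem hcard hΘ⟩
  rw [(minpoly.monic hint).leadingCoeff]
  exact (Ideal.ne_top_iff_one _).mp (IsLocalRing.maximalIdeal.isMaximal 𝒪[K]).ne_top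

end Normed

section Padic

open Fermat.Agent.CFT.Local.PadicExt Fermat.Agent.CFT.Local.UnramPadic

variable {q : ℕ} [Fact q.Prime]
variable {E L : IntermediateField ℚ_[q] (PadicAlgCl q)} [FiniteDimensional ℚ_[q] E]
  [FiniteDimensional ℚ_[q] L] (h : E ≤ L)

/-- `e = [L : E]` for `E ≤ L` totally ramified inside `PadicAlgCl q`. -/
theorem ramificationIdx_eq_finrank_of_le (hcard : Nat.card 𝓀[L] = Nat.card 𝓀[E]) :
    letI := normedAlgebraOfLE h
    (𝓂[L]).ramificationIdx 𝒪[E] = Module.finrank E L := by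
  let _ := normedAlgebraOfLE h
  have := finiteDimensional_of_le h
  exact ramificationIdx_eq_finrank hcard

/-- `‖ϖ_E‖ = ‖Θ‖ ^ [L : E]` for `E ≤ L` totally ramified inside `PadicAlgCl q`. -/
theorem norm_eq_pow_finrank_of_le (hcard : Nat.card 𝓀[L] = Nat.card 𝓀[E]) {ϖ : 𝒪[E]}
    (hϖ : Irreducible ϖ) {Θ : 𝒪[L]} (hΘ : Irreducible Θ) :
    letI := normedAlgebraOfLE h
    ‖(ϖ : E)‖ = ‖(Θ : L)‖ ^ Module.finrank E L := by
  let _ := normedAlgebraOfLE h
  have := finiteDimensional_of_le h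
  exact norm_eq_pow_finrank hcard hϖ hΘ

/-- The minimal polynomial of a uniformiser has degree `[L : E]`, for `E ≤ L` totally ramified
inside `PadicAlgCl q`. -/
theorem natDegree_minpoly_of_le (hcard : Nat.card 𝓀[L] = Nat.card 𝓀[E]) {Θ : 𝒪[L]}
    (hΘ : Irreducible Θ) :
    letI := normedAlgebraOfLE h
    (minpoly 𝒪[E] Θ).natDegree = Module.finrank E L := by
  let _ := normedAlgebraOfLE h
  have := finiteDimensional_of_le h
  exact natDegree_minpoly hcard hΘ

/-- Degrees over `ℚ_[q]`: `[E : ℚ_q] * deg (minpoly 𝒪[E] Θ) = [L : ℚ_q]`. -/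
theorem finrank_mul_natDegree_minpoly_of_le (hcard : Nat.card 𝓀[L] = Nat.card 𝓀[E]) {Θ : 𝒪[L]}
    (hΘ : Irreducible Θ) :
    letI := normedAlgebraOfLE h
    Module.finrank ℚ_[q] E * (minpoly 𝒪[E] Θ).natDegree = Module.finrank ℚ_[q] L := by
  let _ := normedAlgebraOfLE h
  have := finiteDimensional_of_le h
  rw [natDegree_minpoly hcard hΘ]
  exact finrank_mul_finrank_of_le h

/-- The lower coefficients of the minimal polynomial of a non-unit of `𝒪[L]` lie in `𝓂[E]`
(no ramification hypothesis), for `E ≤ L` inside `PadicAlgCl q`. -/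
theorem coeff_minpoly_mem_of_mem_of_le {Θ : 𝒪[L]} (hΘ : Θ ∈ 𝓂[L]) :
    letI := normedAlgebraOfLE h
    ∀ i : ℕ, i < (minpoly 𝒪[E] Θ).natDegree → (minpoly 𝒪[E] Θ).coeff i ∈ 𝓂[E] := by
  let _ := normedAlgebraOfLE h
  have := finiteDimensional_of_le h
  exact fun i hi => coeff_minpoly_mem_of_mem hΘ i hi

/-- The minimal polynomial of a uniformiser is Eisenstein, for `E ≤ L` totally ramified inside
`PadicAlgCl q`. -/
theorem isEisensteinAt_minpoly_of_le (hcard : Nat.card 𝓀[L] = Nat.card 𝓀[E]) {Θ : 𝒪[L]}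
    (hΘ : Irreducible Θ) :
    letI := normedAlgebraOfLE h
    (minpoly 𝒪[E] Θ).IsEisensteinAt 𝓂[E] := by
  let _ := normedAlgebraOfLE h
  have := finiteDimensional_of_le h
  exact isEisensteinAt_minpoly hcard hΘ

end Padic

end Fermat.Agent.S56.Flat.TRExtras
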