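/-
S56 / brick LF, row T-ADAPTER (helper216, own-risk): from the FROZEN flatness condition to points
in `PadicAlgCl p` with the action of the LOCAL Galois group.

The frozen `GaloisRepAdic.IsFlatAt p` hands, for every ideal `I` with `A ⧸ I` finite, a finite flat
commutative cocommutative Hopf algebra `H` over `ℤ_(p) = GaloisRep.ratLocalizedAt p` together with
a `Gal(ℚ̄/ℚ)`-equivariant bijection between its `ℚ̄`-points and `V ⧸ I V`.  The local rows of brick
LF work with the points in `ℚ̄_p = PadicAlgCl p` and with `G_p = Gal(ℚ̄_p/ℚ_p)` acting through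
`localGaloisToGlobal p`.  This file supplies the passage:

* `pointsHom`, `pointsEquiv` : composition with `padicEmbedding p` is an isomorphism of convolution
  monoids `H(ℚ̄) ≃* H(ℚ̄_p)` (every point of the finite `ℤ_(p)`-algebra `H` in `ℚ̄_p` has values
  integral over `ℤ_(p)`, hence algebraic over `ℚ`, hence in the range of `padicEmbedding p`);
* `symm_galois` : it turns the action of `τ : G_p` on `H(ℚ̄_p)` into the action of
  `localGaloisToGlobal p τ` on `H(ℚ̄)`;
* `free_of_finite_flat` : a finite flat `ℤ_(p)`-module is free;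
* `finite_algHom` : a finite algebra has finitely many points in a domain;
* `exists_local_points` : the frozen `IsFlatAt` restated with `ℚ̄_p`-points, `Module.Free`, and
  equivariance for `G_p`.
-/
import Mathlib
import Fermat.Prelude.Def_GaloisRep_Flat
import Fermat.Prelude.Def_GaloisRep_CompletionBridge
import Fermat.Agent.S19.HopfOrder.Zl

set_option autoImplicit false

noncomputable section

namespace Fermat.Agent.S56.Flat.Adapter

open GaloisRep WithConv

variable (p : ℕ) [Fact p.Prime]

set_option quotPrecheck false in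
local notation "R0" => ↥(ratLocalizedAt p)
local notation "Qb" => AlgebraicClosure ℚ
local notation "Qpb" => PadicAlgCl p
local notation "Gp" => (PadicAlgCl p ≃ₐ[ℚ_[p]] PadicAlgCl p)

/-- The `p`-adic embedding `ℚ̄ → ℚ̄_p` as a homomorphism of `ℤ_(p)`-algebras. -/
def emb : Qb →ₐ[R0] Qpb := (padicEmbedding p).restrictScalars R0

theorem emb_apply (x : Qb) : emb p x = padicEmbedding p x := rfl

theorem padicEmbedding_injective : Function.Injective (padicEmbedding p) :=
  (padicEmbedding p).toRingHom.injective

/-- An element of `ℚ̄_p` that is algebraic over `ℚ` lies in the range of the `p`-adic embedding. -/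
theorem mem_range_of_isIntegral {x : Qpb} (hx : IsIntegral ℚ x) :
    ∃ a : Qb, padicEmbedding p a = x := by
  have hsp : ((minpoly ℚ x).map (algebraMap ℚ Qb)).Splits := IsAlgClosed.splits _
  have hne : (minpoly ℚ x).map (algebraMap ℚ Qb) ≠ 0 :=
    Polynomial.map_ne_zero (minpoly.ne_zero hx)
  have hroot :
      (((minpoly ℚ x).map (algebraMap ℚ Qb)).map (padicEmbedding p).toRingHom).IsRoot x := by
    have hcomp : (padicEmbedding p).toRingHom.comp (algebraMap ℚ Qb) = algebraMap ℚ Qpb :=
      (padicEmbedding p).comp_algebraMap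
    rw [Polynomial.map_map, hcomp, Polynomial.IsRoot.def, Polynomial.eval_map_algebraMap]
    exact minpoly.aeval ℚ x
  obtain ⟨a, ha⟩ := RingHom.mem_range.mp (hsp.mem_range_of_isRoot hne hroot)
  exact ⟨a, ha⟩

/-- A finite algebra over a commutative ring has only finitely many algebra homomorphisms to a
domain: a homomorphism is determined by its values on a finite spanning set, and each value is a
root of a fixed monic polynomial. -/
theorem finite_algHom (R : Type*) [CommRing R] (H : Type*) [CommRing H] [Algebra R H]
    [Module.Finite R H] (L : Type*) [CommRing L] [IsDomain L] [Algebra R L] :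
    Finite (H →ₐ[R] L) := by
  classical
  obtain ⟨s, hs⟩ := (Module.Finite.fg_top : (⊤ : Submodule R H).FG)
  have hint : ∀ x : H, ∃ P : Polynomial R, P.Monic ∧ Polynomial.aeval x P = 0 := fun x => by
    obtain ⟨P, hP, hPe⟩ := (Algebra.IsIntegral.isIntegral (R := R) x)
    exact ⟨P, hP, by rw [Polynomial.aeval_def]; exact hPe⟩
  choose P hPm hPe using hint
  let T : (↥s) → Finset L := fun x => ((P x.1).map (algebraMap R L)).roots.toFinset
  let F : (H →ₐ[R] L) → (∀ x : ↥s, ↥(T x)) := fun g x => ⟨g x.1, by
    have hne : (P x.1).map (algebraMap R L) ≠ 0 := ((hPm x.1).map _).ne_zero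
    rw [Multiset.mem_toFinset, Polynomial.mem_roots hne, Polynomial.IsRoot.def,
      Polynomial.eval_map_algebraMap, Polynomial.aeval_algHom_apply, hPe, map_zero]⟩
  have hF : Function.Injective F := by
    intro g g' hgg'
    have hon : Set.EqOn (g.toLinearMap) (g'.toLinearMap) (s : Set H) := by
      intro x hx
      have := congrArg (fun G : (∀ x : ↥s, ↥(T x)) => ((G ⟨x, hx⟩ : ↥(T ⟨x, hx⟩)) : L)) hgg'
      exact this
    have hlin : g.toLinearMap = g'.toLinearMap := LinearMap.ext_on hs hon
    ext x
    exact LinearMap.congr_fun hlin x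
  exact Finite.of_injective F hF

section Points

variable (H : Type) [CommRing H] [Bialgebra (ratLocalizedAt p) H]

/-- Composition with the `p`-adic embedding, on the convolution monoids of points. -/
def pointsHom : WithConv (H →ₐ[R0] Qb) →* WithConv (H →ₐ[R0] Qpb) where
  toFun f := toConv ((emb p).comp f.ofConv)
  map_one' := by
    apply WithConv.ext
    ext h
    exact (emb p).commutes (Coalgebra.counit h)
  map_mul' f g := WithConv.ext (AlgHom.comp_convMul_distrib (emb p) f g)

theorem pointsHom_apply (f : WithConv (H →ₐ[R0] Qb)) (h : H) :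
    (pointsHom p H f).ofConv h = padicEmbedding p (f.ofConv h) := rfl

theorem pointsHom_injective : Function.Injective (pointsHom p H) := by
  intro f g hfg
  apply WithConv.ext
  ext h
  apply padicEmbedding_injective p
  exact congrArg (fun F : WithConv (H →ₐ[R0] Qpb) => F.ofConv h) hfg

variable [Module.Finite (ratLocalizedAt p) H]

/-- The values of a `ℚ̄_p`-point of a finite `ℤ_(p)`-algebra are integral over `ℤ_(p)`. -/
theorem isIntegral_point (g : H →ₐ[R0] Qpb) (h : H) : IsIntegral R0 (g h) := by
  obtain ⟨P, hP, hPe⟩ := (Algebra.IsIntegral.isIntegral (R := R0) h)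
  refine ⟨P, hP, ?_⟩
  rw [← Polynomial.aeval_def, Polynomial.aeval_algHom_apply, Polynomial.aeval_def, hPe, map_zero]

/-- The values of a `ℚ̄_p`-point of a finite `ℤ_(p)`-algebra are algebraic over `ℚ`. -/
theorem isIntegral_rat_point (g : H →ₐ[R0] Qpb) (h : H) : IsIntegral ℚ (g h) :=
  (isIntegral_point p H g h).tower_top

theorem pointsHom_surjective : Function.Surjective (pointsHom p H) := by
  intro g
  have hex : ∀ h : H, ∃ a : Qb, padicEmbedding p a = g.ofConv h := fun h =>
    mem_range_of_isIntegral p (isIntegral_rat_point p H g.ofConv h)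
  choose φ hφ using hex
  have hinj := padicEmbedding_injective p
  let f0 : H →ₐ[R0] Qb :=
    { toFun := φ
      map_one' := hinj (by rw [hφ, map_one, map_one])
      map_mul' := fun x y => hinj (by rw [hφ, map_mul, map_mul, hφ, hφ])
      map_zero' := hinj (by rw [hφ, map_zero, map_zero])
      map_add' := fun x y => hinj (by rw [hφ, map_add, map_add, hφ, hφ])
      commutes' := fun r => hinj (by
        rw [hφ, AlgHom.commutes]
        exact ((emb p).commutes r).symm) }
  refine ⟨toConv f0, ?_⟩
  apply WithConv.ext
  ext h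
  exact hφ h

/-- **Points in `ℚ̄` and in `ℚ̄_p` agree**, as convolution monoids. -/
def pointsEquiv : WithConv (H →ₐ[R0] Qb) ≃* WithConv (H →ₐ[R0] Qpb) :=
  MulEquiv.ofBijective (pointsHom p H) ⟨pointsHom_injective p H, pointsHom_surjective p H⟩

theorem pointsEquiv_apply (f : WithConv (H →ₐ[R0] Qb)) (h : H) :
    (pointsEquiv p H f).ofConv h = padicEmbedding p (f.ofConv h) := rfl

theorem padicEmbedding_symm_apply (g : WithConv (H →ₐ[R0] Qpb)) (h : H) :
    padicEmbedding p (((pointsEquiv p H).symm g).ofConv h) = g.ofConv h := by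
  have h1 := pointsEquiv_apply p H ((pointsEquiv p H).symm g) h
  rw [MulEquiv.apply_symm_apply] at h1
  exact h1.symm

/-- The action of `τ : G_p` on `ℚ̄_p`-points corresponds to the action of `localGaloisToGlobal p τ`
on `ℚ̄`-points. -/
theorem symm_galois (τ : Gp) (f g : WithConv (H →ₐ[R0] Qpb))
    (hfg : ∀ h : H, g.ofConv h = τ (f.ofConv h)) (h : H) :
    ((pointsEquiv p H).symm g).ofConv h =
      localGaloisToGlobal p τ (((pointsEquiv p H).symm f).ofConv h) := by
  apply padicEmbedding_injective p
  rw [padicEmbedding_localGaloisToGlobal, padicEmbedding_symm_apply, padicEmbedding_symm_apply,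
    hfg]

/-- The `ℚ̄_p`-points of a finite `ℤ_(p)`-bialgebra form a finite set. -/
instance finite_points : Finite (WithConv (H →ₐ[R0] Qpb)) :=
  haveI : Finite (H →ₐ[R0] Qpb) := finite_algHom R0 H Qpb
  Finite.of_injective (fun f : WithConv (H →ₐ[R0] Qpb) => f.ofConv) WithConv.ofConv_injective

end Points

omit [Fact p.Prime] in
/-- A finite flat `ℤ_(p)`-module is free (`ℤ_(p)` is a principal ideal domain). -/
theorem free_of_finite_flat (M : Type*) [AddCommGroup M] [Module (ratLocalizedAt p) M]
    [Module.Finite (ratLocalizedAt p) M] [Module.Flat (ratLocalizedAt p) M] :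
    Module.Free (ratLocalizedAt p) M :=
  haveI : IsPrincipalIdealRing R0 := Fermat.Agent.S19.HopfOrder.isPrincipalIdealRing_Zl p
  inferInstance

/-- **The adapter.**  The frozen flatness condition, restated with points in `ℚ̄_p`, with the
Hopf algebra free over `ℤ_(p)`, and with equivariance for the local Galois group `G_p` acting on
`V ⧸ I V` through `localGaloisToGlobal p`. -/
theorem exists_local_points {A : Type} [CommRing A] [IsLocalRing A] (ρ : GaloisRepAdic A)
    (hflat : ρ.IsFlatAt p) (I : Ideal A) (hI : Finite (A ⧸ I)) :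
    ∃ (H : Type) (_ : CommRing H) (_ : HopfAlgebra R0 H),
      Module.Finite R0 H ∧ Module.Free R0 H ∧ Coalgebra.IsCocomm R0 H ∧
      ∃ e : WithConv (H →ₐ[R0] Qpb) ≃ (ρ.V ⧸ (I • (⊤ : Submodule A ρ.V))),
        (∀ f g : WithConv (H →ₐ[R0] Qpb), e (f * g) = e f + e g) ∧
        ∀ (τ : Gp) (f g : WithConv (H →ₐ[R0] Qpb)),
          (∀ h : H, g.ofConv h = τ (f.ofConv h)) →
            e g = ρ.levelAction I (localGaloisToGlobal p τ) (e f) := by
  obtain ⟨H, iCR, iHopf, hfin, hflatH, hcocomm, e, hmul, hgal⟩ := hflat.2 I hI
  have := hfin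
  have := hflatH
  refine ⟨H, iCR, iHopf, hfin, free_of_finite_flat p H, hcocomm,
    (pointsEquiv p H).symm.toEquiv.trans e, ?_, ?_⟩
  · intro f g
    show e ((pointsEquiv p H).symm (f * g)) =
      e ((pointsEquiv p H).symm f) + e ((pointsEquiv p H).symm g)
    rw [map_mul, hmul]
  · intro τ f g hfg
    show e ((pointsEquiv p H).symm g) =
      ρ.levelAction I (localGaloisToGlobal p τ) (e ((pointsEquiv p H).symm f))
    exact hgal (localGaloisToGlobal p τ) _ _ (symm_galois p H τ f g hfg)

end Fermat.Agent.S56.Flat.Adapter
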