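/-
S56 / brick LF (helper216, own-risk): basics on the `ℚ̄_p`-points of a finite `ℤ_(p)`-algebra `H`
that the local rows use (companion of `Flat/Adapter.lean`).

* `norm_algebraMap_le_one`, `norm_le_one_of_isIntegral`, `norm_point_le_one` : the coordinates
  `g h` of a point `g : H →ₐ[ℤ_(p)] ℚ̄_p` have norm `≤ 1` (`point_mem_padicIntegers` for the
  Prelude's `padicIntegers p`);
* `galPoint`, `galConv` : the action of `G_p = Gal(ℚ̄_p/ℚ_p)` on points (`galConv` on the
  convolution monoid, by monoid homomorphisms, `galConv_one`, `galConv_mul`);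
* `coordSet`, `coordField` : the field `L'` generated over `ℚ_p` by all coordinates of all points;
  `coord_mem`, `coordField_le`, `map_coordField` (`G_p`-stable), `finiteDimensional_coordField`,
  `normal_coordField`, `isGalois_coordField`.
-/
import Mathlib
import Fermat.Agent.S56.Flat.Adapter

set_option autoImplicit false

noncomputable section

namespace Fermat.Agent.S56.Flat.Coord

open GaloisRep WithConv Fermat.Agent.S56.Flat.Adapter
open scoped NNReal

variable (p : ℕ) [Fact p.Prime]

set_option quotPrecheck false in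
local notation "R0" => ↥(ratLocalizedAt p)
local notation "Qpb" => PadicAlgCl p
local notation "Gp" => (PadicAlgCl p ≃ₐ[ℚ_[p]] PadicAlgCl p)

/-- The image of `ℤ_(p)` in `ℚ̄_p` is the image of the rationals of `ℚ_p`. -/
theorem algebraMap_eq (r : ratLocalizedAt p) :
    algebraMap (ratLocalizedAt p) Qpb r = algebraMap ℚ_[p] Qpb (((r : ℚ)) : ℚ_[p]) := by
  rw [map_ratCast, IsScalarTower.algebraMap_apply (ratLocalizedAt p) ℚ Qpb, eq_ratCast]
  rfl

/-- Elements of `ℤ_(p)` have norm at most one in `ℚ̄_p`. -/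
theorem norm_algebraMap_le_one (r : ratLocalizedAt p) :
    ‖algebraMap (ratLocalizedAt p) Qpb r‖ ≤ 1 := by
  rw [algebraMap_eq, norm_algebraMap']
  apply Padic.norm_rat_le_one
  have hc : (r : ℚ).den.Coprime p := r.2
  exact ((Nat.Prime.coprime_iff_not_dvd (Fact.out : p.Prime)).mp hc.symm)

/-- An element of `ℚ̄_p` that is integral over `ℤ_(p)` has norm at most one. -/
theorem norm_le_one_of_isIntegral {x : Qpb} (hx : IsIntegral (ratLocalizedAt p) x) : ‖x‖ ≤ 1 := by
  let O : Subring Qpb := (Valued.v : Valuation Qpb ℝ≥0).integer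
  have hmem : ∀ r : ratLocalizedAt p, algebraMap (ratLocalizedAt p) Qpb r ∈ O := fun r => by
    have h1 : ‖algebraMap (ratLocalizedAt p) Qpb r‖₊ ≤ 1 := by
      exact_mod_cast norm_algebraMap_le_one p r
    exact h1
  let φ : (ratLocalizedAt p) →+* O := (algebraMap (ratLocalizedAt p) Qpb).codRestrict O hmem
  have h2 : IsIntegral O x :=
    IsIntegral.map_of_comp_eq φ (RingHom.id Qpb) (by ext r; rfl) hx
  have h3 : ‖x‖₊ ≤ 1 :=
    (Valuation.integer.integers (Valued.v : Valuation Qpb ℝ≥0)).isIntegral_iff_v_le_one.mp h2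
  exact_mod_cast h3

section Points

variable (H : Type) [CommRing H] [Algebra (ratLocalizedAt p) H]

/-- The action of `τ : G_p` on a point. -/
def galPoint (τ : Gp) (g : H →ₐ[R0] Qpb) : H →ₐ[R0] Qpb :=
  ((τ : Qpb →ₐ[ℚ_[p]] Qpb).restrictScalars R0).comp g

theorem galPoint_apply (τ : Gp) (g : H →ₐ[R0] Qpb) (h : H) : galPoint p H τ g h = τ (g h) := rfl

theorem galPoint_one (g : H →ₐ[R0] Qpb) : galPoint p H 1 g = g := by
  ext h
  rfl

theorem galPoint_mul (σ τ : Gp) (g : H →ₐ[R0] Qpb) :
    galPoint p H (σ * τ) g = galPoint p H σ (galPoint p H τ g) := by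
  ext h
  rfl

/-- The set of all coordinates `g h` of all `ℚ̄_p`-points `g` of `H`. -/
def coordSet : Set Qpb := {x | ∃ (g : H →ₐ[R0] Qpb) (h : H), g h = x}

/-- The coordinate field `L'`: generated over `ℚ_p` by all coordinates of all points. -/
def coordField : IntermediateField ℚ_[p] Qpb := IntermediateField.adjoin ℚ_[p] (coordSet p H)

theorem coord_mem (g : H →ₐ[R0] Qpb) (h : H) : g h ∈ coordField p H :=
  IntermediateField.subset_adjoin _ _ ⟨g, h, rfl⟩

theorem coordField_le {E : IntermediateField ℚ_[p] Qpb}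
    (hE : ∀ (g : H →ₐ[R0] Qpb) (h : H), g h ∈ E) : coordField p H ≤ E :=
  IntermediateField.adjoin_le_iff.mpr (by rintro x ⟨g, h, rfl⟩; exact hE g h)

theorem image_coordSet_subset (τ : Gp) :
    (τ : Qpb →ₐ[ℚ_[p]] Qpb) '' coordSet p H ⊆ coordSet p H := by
  rintro _ ⟨x, ⟨g, h, rfl⟩, rfl⟩
  exact ⟨galPoint p H τ g, h, rfl⟩

/-- The coordinate field is stable under `G_p`. -/
theorem map_coordField_le (τ : Gp) :
    (coordField p H).map (τ : Qpb →ₐ[ℚ_[p]] Qpb) ≤ coordField p H := by
  rw [coordField, IntermediateField.adjoin_map]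
  exact IntermediateField.adjoin.mono _ _ _ (image_coordSet_subset p H τ)

/-- The coordinate field is normal over `ℚ_p`. -/
theorem normal_coordField : Normal ℚ_[p] (coordField p H) := by
  have : IsAlgClosure ℚ_[p] Qpb := AlgebraicClosure.instIsAlgClosure ℚ_[p]
  have : Normal ℚ_[p] Qpb := IsAlgClosure.normal ℚ_[p] Qpb
  exact IntermediateField.normal_iff_forall_map_le'.mpr (fun τ => map_coordField_le p H τ)

theorem map_coordField (τ : Gp) :
    (coordField p H).map (τ : Qpb →ₐ[ℚ_[p]] Qpb) = coordField p H := by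
  have : IsAlgClosure ℚ_[p] Qpb := AlgebraicClosure.instIsAlgClosure ℚ_[p]
  have : Normal ℚ_[p] Qpb := IsAlgClosure.normal ℚ_[p] Qpb
  exact IntermediateField.normal_iff_forall_map_eq'.mp (normal_coordField p H) τ

/-- `τ x ∈ L'` for `x ∈ L'`. -/
theorem galois_mem_coordField (τ : Gp) {x : Qpb} (hx : x ∈ coordField p H) :
    τ x ∈ coordField p H :=
  map_coordField_le p H τ ⟨x, hx, rfl⟩

theorem isGalois_coordField : IsGalois ℚ_[p] (coordField p H) :=
  haveI := normal_coordField p H
  ⟨⟩

variable [Module.Finite (ratLocalizedAt p) H]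

/-- The coordinates of a point are integral over `ℤ_(p)`. -/
theorem isIntegral_coord (g : H →ₐ[R0] Qpb) (h : H) : IsIntegral (ratLocalizedAt p) (g h) := by
  obtain ⟨P, hP, hPe⟩ := (Algebra.IsIntegral.isIntegral (R := ratLocalizedAt p) h)
  refine ⟨P, hP, ?_⟩
  rw [← Polynomial.aeval_def, Polynomial.aeval_algHom_apply, Polynomial.aeval_def, hPe, map_zero]

/-- The coordinates of a point have norm at most one. -/
theorem norm_point_le_one (g : H →ₐ[R0] Qpb) (h : H) : ‖g h‖ ≤ 1 :=
  norm_le_one_of_isIntegral p (isIntegral_coord p H g h)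

/-- The coordinates of a point lie in the Prelude's `padicIntegers p`. -/
theorem point_mem_padicIntegers (g : H →ₐ[R0] Qpb) (h : H) : g h ∈ padicIntegers p := by
  rw [mem_padicIntegers_iff]
  exact_mod_cast norm_point_le_one p H g h

/-- The coordinate field is finite over `ℚ_p`. -/
theorem finiteDimensional_coordField : FiniteDimensional ℚ_[p] (coordField p H) := by
  classical
  obtain ⟨s, hs⟩ := (Module.Finite.fg_top : (⊤ : Submodule (ratLocalizedAt p) H).FG)
  have : Finite (H →ₐ[R0] Qpb) := finite_algHom (ratLocalizedAt p) H Qpb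
  let T : Set Qpb := Set.range (fun x : (H →ₐ[R0] Qpb) × (↥s) => x.1 x.2.1)
  have : Finite T := Set.finite_range _
  have hfd : FiniteDimensional ℚ_[p] (IntermediateField.adjoin ℚ_[p] T) :=
    IntermediateField.finiteDimensional_adjoin (fun x _ => Algebra.IsIntegral.isIntegral x)
  have hle : coordField p H ≤ IntermediateField.adjoin ℚ_[p] T := by
    apply coordField_le
    intro g h
    let M : Submodule (ratLocalizedAt p) H :=
      Submodule.comap g.toLinearMap (Subalgebra.toSubmodule
        ((IntermediateField.adjoin ℚ_[p] T).toSubalgebra.restrictScalars (ratLocalizedAt p)))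
    have hsM : Submodule.span (ratLocalizedAt p) (s : Set H) ≤ M := by
      apply Submodule.span_le.mpr
      intro x hx
      exact IntermediateField.subset_adjoin _ _ ⟨(g, ⟨x, hx⟩), rfl⟩
    have hh : h ∈ Submodule.span (ratLocalizedAt p) (s : Set H) := by
      rw [hs]
      exact Submodule.mem_top
    exact hsM hh
  exact Module.Finite.of_injective (IntermediateField.inclusion hle).toLinearMap
    (IntermediateField.inclusion hle).injective

end Points

section Conv

variable (H : Type) [CommRing H] [Bialgebra (ratLocalizedAt p) H]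

/-- The action of `τ : G_p` on the convolution monoid of points, as a monoid homomorphism. -/
def galConv (τ : Gp) : WithConv (H →ₐ[R0] Qpb) →* WithConv (H →ₐ[R0] Qpb) where
  toFun f := toConv (galPoint p H τ f.ofConv)
  map_one' := by
    apply WithConv.ext
    ext h
    exact ((τ : Qpb →ₐ[ℚ_[p]] Qpb).restrictScalars R0).commutes (Coalgebra.counit h)
  map_mul' f g := WithConv.ext
    (AlgHom.comp_convMul_distrib ((τ : Qpb →ₐ[ℚ_[p]] Qpb).restrictScalars R0) f g)

theorem galConv_apply (τ : Gp) (f : WithConv (H →ₐ[R0] Qpb)) (h : H) :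
    (galConv p H τ f).ofConv h = τ (f.ofConv h) := rfl

theorem galConv_one (f : WithConv (H →ₐ[R0] Qpb)) : galConv p H 1 f = f := by
  apply WithConv.ext
  ext h
  rfl

theorem galConv_mul (σ τ : Gp) (f : WithConv (H →ₐ[R0] Qpb)) :
    galConv p H (σ * τ) f = galConv p H σ (galConv p H τ f) := by
  apply WithConv.ext
  ext h
  rfl

/-- A point `g` with `g h = τ (f h)` for all `h` is `galConv τ f`. -/
theorem eq_galConv (τ : Gp) (f g : WithConv (H →ₐ[R0] Qpb))
    (hfg : ∀ h : H, g.ofConv h = τ (f.ofConv h)) : g = galConv p H τ f := by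
  apply WithConv.ext
  ext h
  exact hfg h

end Conv

end Fermat.Agent.S56.Flat.Coord
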