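import Mathlib

/-!
# S56, brick LF (flat local bound): the Mathlib-only rows, statement level

Statement-only file (helper168, LF architect).  Every `Prop` below is a row of the LF design
(`notes/helper168/S56_LF_design.md`, sec. A and LF6a).  A row is closed by a theorem
`theorem xStatement : XStatement` in its own file importing this one.

* `LF1Statement`   rigidity: `(1 + π y) ^ p = 1 → y = 0`.
* `RootStatement`  `1 + p π c` is a `p`-th power of some `1 + π Y` in an adically complete ring.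
* `LF2Statement`   unique lifting of `p`-torsion points of a finite free cocommutative Hopf
                   algebra from `S ⧸ (p π)` to `S`.
* `LF3qStatement`  quotient rigidity (translation operators on the lattice of invariants).
* `SemiCountStatement`  a count of semilinear additive maps between finite fields.
-/

set_option autoImplicit false

namespace Fermat.Agent.S56.Flat

/-- **LF1 (rigidity).**  `π ^ (p - 1) = p θ`, all `1 + π a + θ b` units, `p π` a non-zero-divisor:
then `(1 + π y) ^ p = 1` forces `y = 0`. -/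
def LF1Statement : Prop :=
  ∀ (p : ℕ) [Fact p.Prime] (R : Type) [CommRing R] (π θ : R),
    π ^ (p - 1) = (p : R) * θ →
    (∀ a b : R, IsUnit (1 + π * a + θ * b)) →
    (∀ y : R, (p : R) * π * y = 0 → y = 0) →
    ∀ y : R, (1 + π * y) ^ p = 1 → y = 0

/-- **ROOT.**  In an `I`-adically complete ring with `π, θ ∈ I`, `π ^ (p - 1) = p θ`, every
`1 + p π c` is `(1 + π Y) ^ p`. -/
def RootStatement : Prop :=
  ∀ (p : ℕ) [Fact p.Prime] (R : Type) [CommRing R] (I : Ideal R) [IsAdicComplete I R] (π θ : R),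
    π ∈ I → θ ∈ I → π ^ (p - 1) = (p : R) * θ →
    ∀ c : R, ∃ Y : R, (1 + π * Y) ^ p = 1 + (p : R) * π * c

/-- **LF2 (lifting of `p`-torsion points).**  `H` a finite free cocommutative Hopf algebra over
`R0`, `S` an `I`-adically complete `R0`-algebra, `π, θ ∈ I`, `π ^ (p - 1) = p θ`, `p π` a
non-zero-divisor of `S`.  A point `g0` of `H` in `S ⧸ (p π)` with `g0 ^ p = 1` has a unique lift
`g` to `S` with `g ^ p = 1` which agrees with `g0` modulo `π`. -/
def LF2Statement : Prop :=
  ∀ (p : ℕ) [Fact p.Prime] (R0 : Type) [CommRing R0] (H : Type) [CommRing H] [HopfAlgebra R0 H]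
    [Module.Finite R0 H] [Module.Free R0 H] [Coalgebra.IsCocomm R0 H]
    (S : Type) [CommRing S] [Algebra R0 S] (I : Ideal S) [IsAdicComplete I S] (π θ : S),
    π ∈ I → θ ∈ I → π ^ (p - 1) = (p : S) * θ →
    (∀ y : S, (p : S) * π * y = 0 → y = 0) →
    ∀ g0 : WithConv (H →ₐ[R0] S ⧸ Ideal.span {(p : S) * π}), g0 ^ p = 1 →
      ∃! g : WithConv (H →ₐ[R0] S), g ^ p = 1 ∧
        ∀ (h : H) (s : S), Ideal.Quotient.mk (Ideal.span {(p : S) * π}) s = g0.ofConv h →
          g.ofConv h - s ∈ Ideal.span {π}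

/-- **LF3q (quotient rigidity).**  `A` a domain of characteristic zero, `p`-adically separated,
with a group `Γ` of ring automorphisms; `𝔪` an ideal whose `Γ`-fixed elements are `p` times
`Γ`-fixed elements.  `N` a finite `Γ`-stable submonoid of the points of `H` in `A` (the points form a commutative
monoid in Mathlib; they are a group through the antipode), and `x` a point with `x ^ p = 1`,
`x ≡ 1` modulo `𝔪`, and `τ x ∈ x N` for every `τ : Γ`.  Then `x ∈ N`. -/
def LF3qStatement : Prop :=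
  ∀ (p : ℕ) [Fact p.Prime], p ≠ 2 →
  ∀ (R0 : Type) [CommRing R0] (H : Type) [CommRing H] [HopfAlgebra R0 H]
    [Module.Finite R0 H] [Module.Free R0 H] [Coalgebra.IsCocomm R0 H]
    (A : Type) [CommRing A] [IsDomain A] [CharZero A] [Algebra R0 A]
    (Γ : Type) [Group Γ] [MulSemiringAction Γ A] [SMulCommClass Γ R0 A] (𝔪 : Ideal A),
    (∀ a : A, (∀ n : ℕ, (p : A) ^ n ∣ a) → a = 0) →
    (∀ a ∈ 𝔪, (∀ τ : Γ, τ • a = a) → ∃ b : A, (∀ τ : Γ, τ • b = b) ∧ a = (p : A) * b) →
    ∀ (N : Submonoid (WithConv (H →ₐ[R0] A))) [Finite N] (x : WithConv (H →ₐ[R0] A)),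
      x ^ p = 1 →
      (∀ h : H, x.ofConv h - algebraMap R0 A (Coalgebra.counit h) ∈ 𝔪) →
      (∀ τ : Γ, ∀ n ∈ N, ∃ n' ∈ N, ∀ h : H, n'.ofConv h = τ • n.ofConv h) →
      (∀ τ : Γ, ∃ n ∈ N, ∀ h : H, τ • x.ofConv h = (x * n).ofConv h) →
      x ∈ N

/-- **LF6a (SemiCount).**  `k`, `κ` finite fields of characteristic `p`, `F` a finite field with
`p ^ a` elements embedded in both.  The additive maps `h : k → κ` with `h (s x) = t h x` and
`h (s' x) = c0 (h x) ^ (p ^ a)` are at most `|k| ^ #{j < a | ι t ^ (p ^ j) = s}`. -/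
def SemiCountStatement : Prop :=
  ∀ (p : ℕ) [Fact p.Prime] (k κ F : Type) [Field k] [Field κ] [Field F]
    [Finite k] [Finite κ] [Finite F] [CharP k p] [CharP κ p] [CharP F p]
    (a : ℕ), Nat.card F = p ^ a →
    ∀ (ι : F →+* k) (ι' : F →+* κ) (s s' : k) (t : F) (c0 : κ), s' ≠ 0 → c0 ≠ 0 →
      Nat.card {h : k →+ κ // (∀ x, h (s * x) = ι' t * h x) ∧
          ∀ x, h (s' * x) = c0 * h x ^ (p ^ a)} ≤
        Nat.card k ^ Nat.card {j : Fin a // ι t ^ (p ^ (j : ℕ)) = s}

end Fermat.Agent.S56.Flat
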