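import Mathlib
import Fermat.Agent.CFT.Local.UnramPadic
import Fermat.Agent.S56.Flat.Defs

/-!
# S56, brick LF (flat local bound): the stage-2 rows, statement level

Statement-only file (helper168, LF architect).  Vocabulary of `Flat/Defs.lean`; finite extensions
of `ℚ_p` are `IntermediateField ℚ_[p] (PadicAlgCl p)`, everything is read through the norm of
`PadicAlgCl p` (no residue fields, no quotient groups in the concrete statements).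

* `IsInertial`, `IsWildOn` : inertia and (finite-level) wild inertia, by the norm.
* `SemiCountPlusStatement` : SemiCount with the tame parameter in a larger finite field.
* `CntAbsStatement`  : the count of equivariant maps into `U^(e) / p`-th powers on an abstract
                       complete DVR with a group action (Mathlib only).
* `CntStatement`     : `finrank_k (HSpace …) ≤` the explicit count (Kummer dictionary + CntAbs).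
* `FlatRigidStatement` : the two rigidity consequences of flatness used for `p = 3`.
* `LGWildStatement`, `LGKeyStatement`, `LGFrobStatement` : local Galois basics.
* `LRStatement`, `LIStatement` : the explicit tame fields of the reducible / induced case.
* `ShapeStatement`   : `r` has a stable line or is induced from the unramified quadratic field.
-/

set_option autoImplicit false

open scoped NNReal NormedField Valued
open IsLocalRing Polynomial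
open Fermat.Agent.CFT.Local.NormedLocal Fermat.Agent.CFT.Local.PadicExt
open Fermat.Agent.CFT.Local.UnramPadic

namespace Fermat.Agent.S56.Flat

/-- `τ` acts trivially on the residue field of `ℚ̄_p`. -/
def IsInertial (p : ℕ) [Fact p.Prime] (τ : Gp p) : Prop :=
  ∀ x : PadicAlgCl p, ‖x‖ ≤ 1 → ‖τ x - x‖ < 1

/-- `τ` is inertial and acts trivially on `M^× / (1 + 𝔪_M)` (wild on `M`). -/
def IsWildOn (p : ℕ) [Fact p.Prime] (M : IntermediateField ℚ_[p] (PadicAlgCl p)) (τ : Gp p) :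
    Prop :=
  IsInertial p τ ∧ ∀ x ∈ M, x ≠ 0 → ‖τ x - x‖ < ‖x‖

/-- **SemiCount+.**  As `SemiCountStatement`, with the tame parameter `t` in a finite field `F`
of `p ^ a'` elements (`a ∣ a'`) embedded in `k` and `κ`, the second relation still with
`p ^ a`. -/
def SemiCountPlusStatement : Prop :=
  ∀ (p : ℕ) [Fact p.Prime] (k κ F : Type) [Field k] [Field κ] [Field F]
    [Finite k] [Finite κ] [Finite F] [CharP k p] [CharP κ p] [CharP F p]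
    (a a' : ℕ), a ∣ a' → Nat.card F = p ^ a' →
    ∀ (ι : F →+* k) (ι' : F →+* κ) (s s' : k) (t : F) (c0 : κ), s' ≠ 0 → c0 ≠ 0 →
      Nat.card {h : k →+ κ // (∀ x, h (s * x) = ι' t * h x) ∧
          ∀ x, h (s' * x) = c0 * h x ^ (p ^ a)} ≤
        Nat.card k ^ Nat.card {j : Fin a' // ι t ^ (p ^ (j : ℕ)) = s}

open Classical in
/-- **CNT-abs.**  `O` a complete DVR with finite residue field of characteristic `p`,
`p = ϖ ^ (e0 (p - 1)) υ`, `ζ ∈ O` a primitive `p`-th root of unity, `D` a group of ring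
automorphisms of `O`, `ξ : D →* kˣ`.  `τ0 ∈ D` is trivial on the residue field with
`τ0 ϖ ≡ z ϖ` modulo `𝔪²`, `z` reducing into the subfield `F` (`p ^ a'` elements, embedded in `k`
by `ι`); `φ ∈ D` is the `p ^ a`-Frobenius on the residue field.  Then every family of maps
`h : k → Oˣ`, with values `≡ 1` modulo `p`, additive and `ξ`-equivariant modulo `p`-th powers,
pairwise distinct modulo `p`-th powers, has at most `|k| ^ N` members. -/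
def CntAbsStatement : Prop :=
  ∀ (p : ℕ) [Fact p.Prime], p ≠ 2 →
  ∀ (O : Type) [CommRing O] [IsDomain O] [IsDiscreteValuationRing O]
    [IsAdicComplete (maximalIdeal O) O] [Finite (ResidueField O)]
    (D : Type) [Group D] [MulSemiringAction D O]
    (k : Type) [Field k] [Finite k] [CharP k p]
    (F : Type) [Field F] [Finite F] (a a' : ℕ), a ∣ a' → Nat.card F = p ^ a' →
    ∀ (ι : F →+* k) (ι' : F →+* ResidueField O) (ϖ : O), Irreducible ϖ →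
    ∀ (e0 : ℕ) (υ : Oˣ), 0 < e0 → (p : O) = ϖ ^ (e0 * (p - 1)) * υ →
    ∀ ζ : O, IsPrimitiveRoot ζ p →
    ∀ (ξ : D →* kˣ) (τ0 φ : D) (t : F) (z : O),
      (∀ x : O, τ0 • x - x ∈ maximalIdeal O) →
      (∀ x : O, φ • x - x ^ (p ^ a) ∈ maximalIdeal O) →
      residue O z = ι' t → τ0 • ϖ - z * ϖ ∈ maximalIdeal O ^ 2 →
      ∀ T : Finset (k → Oˣ),
        (∀ h ∈ T, (∀ x, ((h x : Oˣ) : O) - 1 ∈ Ideal.span {(p : O)}) ∧
          (∀ x y, ∃ w : Oˣ, h (x + y) = h x * h y * w ^ p) ∧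
          ∀ (σ : D) (x : k), ∃ w : Oˣ,
            ((h (((ξ σ : kˣ) : k) * x) : Oˣ) : O) = σ • ((h x : Oˣ) : O) * (w : O) ^ p) →
        (∀ h ∈ T, ∀ h' ∈ T, (∀ x, ∃ w : Oˣ, h x = h' x * w ^ p) → h = h') →
        T.card ≤ Nat.card k ^
          ((if ∀ (σ : D) (n : ℕ), σ • ζ = ζ ^ n → ((ξ σ : kˣ) : k) = n then 1 else 0) +
            Nat.card {nj : ℕ × ℕ // 1 ≤ nj.1 ∧ nj.1 ≤ e0 ∧ ¬ p ∣ nj.1 ∧ nj.2 < a' ∧
              ι t ^ ((p * e0 - nj.1) * p ^ nj.2) = ((ξ τ0 : kˣ) : k)})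

open Classical in
/-- **CNT (the count of Kummer-bounded equivariant homomorphisms).**  `Fb ≤ F0 ≤ K` finite,
`K` stable under `Γ := G_{Fb}`, `ζ_p ∈ K`, `ϖ` a uniformiser of `K` with `|ϖ| ^ (e0 (p-1)) = |p|`;
`ξ χ = ω̄` on `Γ`; `τ0 ∈ Γ` trivial on the residue field of `K` with `τ0 ϖ ≡ z ϖ`, `z ∈ 𝒪[F0]`;
`φ ∈ Γ` the `p ^ a`-Frobenius on the residue field of `K` (`p ^ a = |𝓀[Fb]|`). -/
def CntStatement : Prop :=
  ∀ (p : ℕ) [Fact p.Prime], p ≠ 2 →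
  ∀ (k : Type) [Field k] [Finite k] [CharP k p]
    (Fb F0 K : IntermediateField ℚ_[p] (PadicAlgCl p)) [FiniteDimensional ℚ_[p] Fb]
    [FiniteDimensional ℚ_[p] F0] [FiniteDimensional ℚ_[p] K],
    Fb ≤ F0 → F0 ≤ K → (∀ σ ∈ Fb.fixingSubgroup, ∀ x ∈ K, σ x ∈ K) →
    ∀ (ζ : PadicAlgCl p) (hζ : IsPrimitiveRoot ζ p), ζ ∈ K →
    ∀ (a a' e0 : ℕ) (ϖ : PadicAlgCl p), Nat.card 𝓀[Fb] = p ^ a → Nat.card 𝓀[F0] = p ^ a' →
      ϖ ∈ K → ‖ϖ‖ < 1 → (∀ x ∈ K, ‖x‖ < 1 → ‖x‖ ≤ ‖ϖ‖) →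
      ‖ϖ‖ ^ (e0 * (p - 1)) = ‖(p : PadicAlgCl p)‖ →
    ∀ (ρ0 : 𝒪[F0] →+* k) (χ ξ : Gp p → kˣ),
      (∀ σ ∈ Fb.fixingSubgroup, ∀ τ ∈ Fb.fixingSubgroup, ξ (σ * τ) = ξ σ * ξ τ) →
      (∀ σ ∈ Fb.fixingSubgroup, ∀ n : ℕ, σ ζ = ζ ^ n → ((ξ σ : kˣ) : k) * (χ σ : kˣ) = n) →
      ∀ (τ0 φ : Gp p) (z : 𝒪[F0]), τ0 ∈ Fb.fixingSubgroup → φ ∈ Fb.fixingSubgroup →
        (∀ x ∈ K, ‖x‖ ≤ 1 → ‖τ0 x - x‖ < 1) →
        (∀ x ∈ K, ‖x‖ ≤ 1 → ‖φ x - x ^ (p ^ a)‖ < 1) →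
        ‖τ0 ϖ - ((z : F0) : PadicAlgCl p) * ϖ‖ < ‖ϖ‖ →
        Module.finrank k (HSpace p k Fb K ζ hζ.pow_eq_one (fun σ => ((χ σ : kˣ) : k))) ≤
          (if ∀ σ ∈ Fb.fixingSubgroup, χ σ = 1 then 1 else 0) +
            Nat.card {nj : ℕ × ℕ // 1 ≤ nj.1 ∧ nj.1 ≤ e0 ∧ ¬ p ∣ nj.1 ∧ nj.2 < a' ∧
              ρ0 z ^ ((p * e0 - nj.1) * p ^ nj.2) = ((ξ τ0 : kˣ) : k)}

/-- **FlatRigid (LF3b + LF3q in Galois-module form).**  A flat `X` killed by `p` has a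
`Gal`-stable subgroup `X0` ("the points reducing to the identity") containing `(τ - 1) X` for
inertial `τ`, such that: if `N'` is an inertia-stable subgroup and `x ∈ X0` has
`(τ - 1) x ∈ N'` for all inertial `τ`, then `x ∈ N'`. -/
def FlatRigidStatement : Prop :=
  ∀ (p : ℕ) [Fact p.Prime], p ≠ 2 →
  ∀ (X : Type) [AddCommGroup X] (act : Gp p → X → X), (∀ x : X, p • x = 0) →
    FlatLocal p X act →
    ∃ X0 : AddSubgroup X,
      (∀ σ : Gp p, ∀ x ∈ X0, act σ x ∈ X0) ∧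
      (∀ τ : Gp p, IsInertial p τ → ∀ x : X, act τ x - x ∈ X0) ∧
      ∀ N' : AddSubgroup X, (∀ τ : Gp p, IsInertial p τ → ∀ n ∈ N', act τ n ∈ N') →
        ∀ x ∈ X0, (∀ τ : Gp p, IsInertial p τ → act τ x - x ∈ N') → x ∈ N'

/-- **LG-wild.**  For a finite `M`: an element wild on `M` and preserving `M` has `p`-power order
on `M`; if `M` is `Gal`-stable, inertia is generated modulo elements wild on `M` by one
element. -/
def LGWildStatement : Prop :=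
  ∀ (p : ℕ) [Fact p.Prime] (M : IntermediateField ℚ_[p] (PadicAlgCl p))
    [FiniteDimensional ℚ_[p] M],
    (∀ τ : Gp p, (∀ x ∈ M, τ x ∈ M) → IsWildOn p M τ → ∃ n : ℕ, ∀ x ∈ M, (τ ^ (p ^ n)) x = x) ∧
    ((∀ σ : Gp p, ∀ x ∈ M, σ x ∈ M) → ∃ τ1 : Gp p, IsInertial p τ1 ∧
      ∀ τ : Gp p, IsInertial p τ → ∃ a : ℕ, IsWildOn p M ((τ1 ^ a)⁻¹ * τ))

/-- **LG-key.**  An element fixing the roots of unity of order prime to `p` of a finite `M`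
agrees on `M` with an inertial element. -/
def LGKeyStatement : Prop :=
  ∀ (p : ℕ) [Fact p.Prime] (M : IntermediateField ℚ_[p] (PadicAlgCl p))
    [FiniteDimensional ℚ_[p] M] (ρ : Gp p),
    (∀ ξ ∈ M, ∀ n : ℕ, n.Coprime p → ξ ^ n = 1 → ρ ξ = ξ) →
    ∃ τ : Gp p, IsInertial p τ ∧ ∀ x ∈ M, ρ x = τ x

/-- **LG-Frobenius.**  For `E ≤ M` finite there is a Frobenius `s ∈ G_E` on `M` such that every
`σ ∈ G_E` agrees on `M` with `s ^ j * τ`, `τ` inertial in `G_E`. -/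
def LGFrobStatement : Prop :=
  ∀ (p : ℕ) [Fact p.Prime] (E M : IntermediateField ℚ_[p] (PadicAlgCl p))
    [FiniteDimensional ℚ_[p] E] [FiniteDimensional ℚ_[p] M], E ≤ M →
    ∃ s : Gp p, s ∈ E.fixingSubgroup ∧
      (∀ x ∈ M, ‖x‖ ≤ 1 → ‖s x - x ^ Nat.card 𝓀[E]‖ < 1) ∧
      ∀ σ ∈ E.fixingSubgroup, ∃ (j : ℕ) (τ : Gp p), IsInertial p τ ∧ τ ∈ E.fixingSubgroup ∧
        ∀ x ∈ M, σ x = (s ^ j) (τ x)

/-- **LR (the tame field of the reducible case).**  A finite Galois `K ∋ ζ_p` of degree prime to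
`p` with uniformiser `ζ - 1`, `e = p - 1`, an inertial `τ0` acting on `ζ` through a generator of
`𝔽_pˣ`, an absolute Frobenius `φ`, killing every character `Gal(ℚ̄_p/ℚ_p) → kˣ` of finite
level. -/
def LRStatement : Prop :=
  ∀ (p : ℕ) [Fact p.Prime], p ≠ 2 →
  ∀ (k : Type) [Field k] [Finite k] [CharP k p] (ζ : PadicAlgCl p), IsPrimitiveRoot ζ p →
    ∃ (K : IntermediateField ℚ_[p] (PadicAlgCl p)) (_ : FiniteDimensional ℚ_[p] K)
      (τ0 φ : Gp p) (g0 n0 : ℕ),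
      ζ ∈ K ∧ (∀ σ : Gp p, ∀ x ∈ K, σ x ∈ K) ∧
      (0 < n0 ∧ ¬ p ∣ n0 ∧ ∀ σ : Gp p, σ ^ n0 ∈ K.fixingSubgroup) ∧
      (∀ x ∈ K, ‖x‖ < 1 → ‖x‖ ≤ ‖ζ - 1‖) ∧ ‖ζ - 1‖ ^ (p - 1) = ‖(p : PadicAlgCl p)‖ ∧
      IsInertial p τ0 ∧ τ0 ζ = ζ ^ g0 ∧ orderOf (g0 : ZMod p) = p - 1 ∧
      (∀ x ∈ K, ‖x‖ ≤ 1 → ‖φ x - x ^ p‖ < 1) ∧
      ∀ χ : Gp p →* kˣ, (∃ L : IntermediateField ℚ_[p] (PadicAlgCl p),
          FiniteDimensional ℚ_[p] L ∧ ∀ σ : Gp p, (∀ x ∈ L, σ x = x) → χ σ = 1) →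
        (∀ σ ∈ K.fixingSubgroup, χ σ = 1) ∧
        ∀ τ : Gp p, IsInertial p τ → τ ζ = ζ → χ τ = 1

/-- **LI (the tame field of the induced case).**  `F0 := unram ⊥ 2`.  A finite Galois
`K ⊇ F0(ζ_p)` of degree prime to `p` with uniformiser `ϖ`, `e = p² - 1`; an inertial
`τ0 ∈ G_{F0}` with `τ0 ϖ = z ϖ`, `z ∈ F0` a primitive `(p² - 1)`-th root of unity,
`ω̄(τ0) ≡ z ^ (p + 1)`; Frobenius elements `φ ∈ G_{F0}` (`p²`-power) and `φ1` (`p`-power);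
conjugation by any `F ∉ G_{F0}` turns `τ0` into `τ0 ^ p` on `K`; `K` kills every character of
`G_{F0}` of finite level, and such characters are trivial on inertial elements fixing `ϖ`. -/
def LIStatement : Prop :=
  ∀ (p : ℕ) [Fact p.Prime], p ≠ 2 →
  ∀ (k : Type) [Field k] [Finite k] [CharP k p] (ζ : PadicAlgCl p), IsPrimitiveRoot ζ p →
    ∃ (K : IntermediateField ℚ_[p] (PadicAlgCl p)) (_ : FiniteDimensional ℚ_[p] K)
      (ϖ z : PadicAlgCl p) (τ0 φ φ1 : Gp p) (n0 : ℕ),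
      unram (⊥ : IntermediateField ℚ_[p] (PadicAlgCl p)) 2 ≤ K ∧ ζ ∈ K ∧
      (∀ σ : Gp p, ∀ x ∈ K, σ x ∈ K) ∧
      (0 < n0 ∧ ¬ p ∣ n0 ∧ ∀ σ : Gp p, σ ^ n0 ∈ K.fixingSubgroup) ∧
      ϖ ∈ K ∧ ‖ϖ‖ < 1 ∧ (∀ x ∈ K, ‖x‖ < 1 → ‖x‖ ≤ ‖ϖ‖) ∧
      ‖ϖ‖ ^ ((p + 1) * (p - 1)) = ‖(p : PadicAlgCl p)‖ ∧
      z ∈ unram (⊥ : IntermediateField ℚ_[p] (PadicAlgCl p)) 2 ∧ IsPrimitiveRoot z (p ^ 2 - 1) ∧
      τ0 ∈ (unram (⊥ : IntermediateField ℚ_[p] (PadicAlgCl p)) 2).fixingSubgroup ∧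
      IsInertial p τ0 ∧ τ0 ϖ = z * ϖ ∧
      (∀ n : ℕ, τ0 ζ = ζ ^ n → ‖(n : PadicAlgCl p) - z ^ (p + 1)‖ < 1) ∧
      φ ∈ (unram (⊥ : IntermediateField ℚ_[p] (PadicAlgCl p)) 2).fixingSubgroup ∧
      (∀ x ∈ K, ‖x‖ ≤ 1 → ‖φ x - x ^ (p ^ 2)‖ < 1) ∧
      (∀ x ∈ K, ‖x‖ ≤ 1 → ‖φ1 x - x ^ p‖ < 1) ∧
      (∀ F : Gp p, F ∉ (unram (⊥ : IntermediateField ℚ_[p] (PadicAlgCl p)) 2).fixingSubgroup →
        ∀ x ∈ K, (F * τ0 * F⁻¹) x = (τ0 ^ p) x) ∧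
      ∀ ψ : Gp p → kˣ,
        (∀ σ ∈ (unram (⊥ : IntermediateField ℚ_[p] (PadicAlgCl p)) 2).fixingSubgroup,
          ∀ τ ∈ (unram (⊥ : IntermediateField ℚ_[p] (PadicAlgCl p)) 2).fixingSubgroup,
            ψ (σ * τ) = ψ σ * ψ τ) →
        (∃ L : IntermediateField ℚ_[p] (PadicAlgCl p), FiniteDimensional ℚ_[p] L ∧
          ∀ σ ∈ (unram (⊥ : IntermediateField ℚ_[p] (PadicAlgCl p)) 2).fixingSubgroup,
            (∀ x ∈ L, σ x = x) → ψ σ = 1) →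
        (∀ σ ∈ K.fixingSubgroup, ψ σ = 1) ∧
        ∀ τ ∈ (unram (⊥ : IntermediateField ℚ_[p] (PadicAlgCl p)) 2).fixingSubgroup,
          IsInertial p τ → τ ϖ = ϖ → ψ τ = 1

/-- **Shape.**  `r` of finite level with split characteristic polynomials either has a stable
line, or is, in a suitable basis, diagonal on `G_{F0}` (`F0` the unramified quadratic extension)
and antidiagonal outside, with an inertial element having two distinct diagonal entries. -/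
def ShapeStatement : Prop :=
  ∀ (p : ℕ) [Fact p.Prime], p ≠ 2 →
  ∀ (k : Type) [Field k] [CharP k p] (r : Gp p →* Matrix (Fin 2) (Fin 2) k),
    (∃ L : IntermediateField ℚ_[p] (PadicAlgCl p), FiniteDimensional ℚ_[p] L ∧
      ∀ τ : Gp p, (∀ x ∈ L, τ x = x) → r τ = 1) →
    (∀ τ : Gp p, ∃ α β : k, (r τ).charpoly = (X - C α) * (X - C β)) →
    (∃ P Q : Matrix (Fin 2) (Fin 2) k, P * Q = 1 ∧ ∀ σ : Gp p, (P * r σ * Q) 1 0 = 0) ∨
    (∃ P Q : Matrix (Fin 2) (Fin 2) k, P * Q = 1 ∧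
      (∀ σ ∈ (unram (⊥ : IntermediateField ℚ_[p] (PadicAlgCl p)) 2).fixingSubgroup,
        (P * r σ * Q) 1 0 = 0 ∧ (P * r σ * Q) 0 1 = 0) ∧
      (∀ σ : Gp p, σ ∉ (unram (⊥ : IntermediateField ℚ_[p] (PadicAlgCl p)) 2).fixingSubgroup →
        (P * r σ * Q) 0 0 = 0 ∧ (P * r σ * Q) 1 1 = 0) ∧
      ∃ τ : Gp p, IsInertial p τ ∧ (P * r τ * Q) 0 0 ≠ (P * r τ * Q) 1 1)

end Fermat.Agent.S56.Flat
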