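import Mathlib
import Fermat.Agent.CFT.Local.UnramPadic
import Fermat.Agent.S56.Flat.Defs
import Fermat.Agent.S56.Flat.LocalBricks
import Fermat.Agent.S56.LF.PThreeClass

/-!
# S56, brick LF: the top assembly, skeleton

(helper168, LF architect.)  `LFTopStatement` is reduced to its two shapes:

* `LFHyp p k r`  : the three hypotheses of `LFTopStatement` on `r` (finite level, cyclotomic
                   determinant, split characteristic polynomials);
* `LFBound p k r`: the conclusion of `LFTopStatement` for `r` (the bound for every admissible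
                   space `Cs` of derivations);
* `TRStatement`  : `LFHyp → LFBound` for `r` upper triangular;
* `TIStatement`  : `LFHyp → LFBound` for `r` diagonal on `G_{F0}` (`F0` the unramified quadratic
                   extension) and antidiagonal outside, with an inertial element having two
                   distinct diagonal entries;
* `lfTop_of_shape : ShapeStatement → TRStatement → TIStatement → LFTopStatement`
  (both `LFHyp` and `LFBound` are invariant under conjugation, `lfHyp_conj`, `lfBound_of_conj`).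
-/

set_option autoImplicit false

open Polynomial
open Fermat.Agent.CFT.Local.UnramPadic

namespace Fermat.Agent.S56.Flat

section Defs

variable (p : ℕ) [Fact p.Prime] (k : Type) [Field k]

/-- The hypotheses of `LFTopStatement` on `r`: finite level, cyclotomic determinant, split
characteristic polynomials. -/
def LFHyp (r : Gp p →* Matrix (Fin 2) (Fin 2) k) : Prop :=
  (∃ L : IntermediateField ℚ_[p] (PadicAlgCl p), FiniteDimensional ℚ_[p] L ∧
      ∀ τ : Gp p, (∀ x ∈ L, τ x = x) → r τ = 1) ∧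
  (∀ (τ : Gp p) (a : ℕ), (∀ μ : PadicAlgCl p, μ ^ p = 1 → τ μ = μ ^ a) →
      (r τ).det = (a : k)) ∧
  ∀ τ : Gp p, ∃ α β : k, (r τ).charpoly = (X - C α) * (X - C β)

/-- The conclusion of `LFTopStatement` for `r`. -/
def LFBound (r : Gp p →* Matrix (Fin 2) (Fin 2) k) : Prop :=
  ∀ Cs : Submodule k (Gp p → Matrix (Fin 2) (Fin 2) k),
    (∀ d ∈ Cs, ∀ σ τ : Gp p, d (σ * τ) = d σ * r τ + r σ * d τ) →
    (∀ d ∈ Cs, ∀ σ : Gp p, (d σ * r σ⁻¹).trace = 0) →
    (∀ d ∈ Cs, ∃ L : IntermediateField ℚ_[p] (PadicAlgCl p), FiniteDimensional ℚ_[p] L ∧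
      ∀ τ : Gp p, (∀ x ∈ L, τ x = x) → d τ = 0) →
    (∀ d ∈ Cs, d ∉ Inn (p := p) r → FlatLocal p ((Fin 2 → k) × (Fin 2 → k)) (liftAct r d)) →
    Module.finrank k (↥Cs ⧸ (Inn (p := p) r).comap Cs.subtype) ≤
      1 + Module.finrank k (Comm0 (p := p) r)

end Defs

theorem lfTopStatement_iff :
    LFTopStatement ↔ ∀ (p : ℕ) [Fact p.Prime], p ≠ 2 →
      ∀ (k : Type) [Field k] [Finite k] [CharP k p] (r : Gp p →* Matrix (Fin 2) (Fin 2) k),
        LFHyp p k r → LFBound p k r :=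
  ⟨fun h p _ hp2 k _ _ _ r hr => h p hp2 k r hr.1 hr.2.1 hr.2.2,
    fun h p _ hp2 k _ _ _ r h1 h2 h3 => h p hp2 k r ⟨h1, h2, h3⟩⟩

/-- **T(R): the flat local bound for an upper triangular `r`.** -/
def TRStatement : Prop :=
  ∀ (p : ℕ) [Fact p.Prime], p ≠ 2 →
  ∀ (k : Type) [Field k] [Finite k] [CharP k p] (r : Gp p →* Matrix (Fin 2) (Fin 2) k),
    LFHyp p k r → (∀ σ : Gp p, r σ 1 0 = 0) → LFBound p k r

/-- **T(I): the flat local bound for `r` induced from the unramified quadratic extension**: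
diagonal on `G_{F0}`, antidiagonal outside, with an inertial element having two distinct
diagonal entries. -/
def TIStatement : Prop :=
  ∀ (p : ℕ) [Fact p.Prime], p ≠ 2 →
  ∀ (k : Type) [Field k] [Finite k] [CharP k p] (r : Gp p →* Matrix (Fin 2) (Fin 2) k),
    LFHyp p k r →
    (∀ σ ∈ (unram (⊥ : IntermediateField ℚ_[p] (PadicAlgCl p)) 2).fixingSubgroup,
      r σ 1 0 = 0 ∧ r σ 0 1 = 0) →
    (∀ σ : Gp p, σ ∉ (unram (⊥ : IntermediateField ℚ_[p] (PadicAlgCl p)) 2).fixingSubgroup →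
      r σ 0 0 = 0 ∧ r σ 1 1 = 0) →
    (∃ τ : Gp p, IsInertial p τ ∧ r τ 0 0 ≠ r τ 1 1) →
    LFBound p k r

section Conj

variable {p : ℕ} [Fact p.Prime] {k : Type} [Field k]

/-- The conjugate `σ ↦ P * r σ * Q` of `r` (`P * Q = 1`). -/
noncomputable def conjHom (P Q : Matrix (Fin 2) (Fin 2) k) (hPQ : P * Q = 1)
    (r : Gp p →* Matrix (Fin 2) (Fin 2) k) : Gp p →* Matrix (Fin 2) (Fin 2) k where
  toFun σ := P * r σ * Q
  map_one' := by rw [map_one, mul_one, hPQ]
  map_mul' σ τ := by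
    have hQP : Q * P = 1 := mul_eq_one_comm.mp hPQ
    rw [map_mul]
    calc P * (r σ * r τ) * Q = P * r σ * (1 : Matrix (Fin 2) (Fin 2) k) * r τ * Q := by
          rw [mul_one]; simp only [mul_assoc]
      _ = P * r σ * Q * (P * r τ * Q) := by rw [← hQP]; simp only [mul_assoc]

theorem conjHom_apply (P Q : Matrix (Fin 2) (Fin 2) k) (hPQ : P * Q = 1)
    (r : Gp p →* Matrix (Fin 2) (Fin 2) k) (σ : Gp p) :
    conjHom P Q hPQ r σ = P * r σ * Q := rfl

/-- Conjugation `d ↦ (σ ↦ P * d σ * Q)` on functions, as a linear equivalence. -/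
def conjFunEquiv (P Q : Matrix (Fin 2) (Fin 2) k) (hPQ : P * Q = 1) :
    (Gp p → Matrix (Fin 2) (Fin 2) k) ≃ₗ[k] (Gp p → Matrix (Fin 2) (Fin 2) k) where
  toFun d σ := P * d σ * Q
  invFun d σ := Q * d σ * P
  map_add' d d' := by
    funext σ
    simp only [Pi.add_apply, mul_add, add_mul]
  map_smul' c d := by
    funext σ
    simp only [Pi.smul_apply, RingHom.id_apply, Matrix.mul_smul, Matrix.smul_mul]
  left_inv d := by
    have hQP : Q * P = 1 := mul_eq_one_comm.mp hPQ
    funext σ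
    calc Q * (P * d σ * Q) * P = (Q * P) * d σ * (Q * P) := by simp only [mul_assoc]
      _ = d σ := by rw [hQP, one_mul, mul_one]
  right_inv d := by
    funext σ
    calc P * (Q * d σ * P) * Q = (P * Q) * d σ * (P * Q) := by simp only [mul_assoc]
      _ = d σ := by rw [hPQ, one_mul, mul_one]

theorem conjFunEquiv_apply (P Q : Matrix (Fin 2) (Fin 2) k) (hPQ : P * Q = 1)
    (d : Gp p → Matrix (Fin 2) (Fin 2) k) (σ : Gp p) :
    conjFunEquiv (p := p) P Q hPQ d σ = P * d σ * Q := rfl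

/-- Conjugation `X ↦ P * X * Q` on matrices, as a linear equivalence. -/
def conjMatEquiv (P Q : Matrix (Fin 2) (Fin 2) k) (hPQ : P * Q = 1) :
    Matrix (Fin 2) (Fin 2) k ≃ₗ[k] Matrix (Fin 2) (Fin 2) k where
  toFun X := P * X * Q
  invFun X := Q * X * P
  map_add' X Y := by simp only [mul_add, add_mul]
  map_smul' c X := by simp only [RingHom.id_apply, Matrix.mul_smul, Matrix.smul_mul]
  left_inv X := by
    have hQP : Q * P = 1 := mul_eq_one_comm.mp hPQ
    calc Q * (P * X * Q) * P = (Q * P) * X * (Q * P) := by simp only [mul_assoc]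
      _ = X := by rw [hQP, one_mul, mul_one]
  right_inv X := by
    calc P * (Q * X * P) * Q = (P * Q) * X * (P * Q) := by simp only [mul_assoc]
      _ = X := by rw [hPQ, one_mul, mul_one]

theorem conj_mul_conj (P Q : Matrix (Fin 2) (Fin 2) k) (hPQ : P * Q = 1)
    (A B : Matrix (Fin 2) (Fin 2) k) : P * A * Q * (P * B * Q) = P * (A * B) * Q := by
  have hQP : Q * P = 1 := mul_eq_one_comm.mp hPQ
  calc P * A * Q * (P * B * Q) = P * A * (Q * P) * B * Q := by simp only [mul_assoc]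
    _ = P * (A * B) * Q := by rw [hQP, mul_one]; simp only [mul_assoc]

theorem trace_conj (P Q : Matrix (Fin 2) (Fin 2) k) (hPQ : P * Q = 1)
    (A : Matrix (Fin 2) (Fin 2) k) : (P * A * Q).trace = A.trace := by
  have hQP : Q * P = 1 := mul_eq_one_comm.mp hPQ
  rw [Matrix.trace_mul_cycle, hQP, one_mul]

theorem mem_inn_conj_iff (P Q : Matrix (Fin 2) (Fin 2) k) (hPQ : P * Q = 1)
    (r : Gp p →* Matrix (Fin 2) (Fin 2) k) (d : Gp p → Matrix (Fin 2) (Fin 2) k) :
    conjFunEquiv (p := p) P Q hPQ d ∈ Inn (p := p) (conjHom P Q hPQ r) ↔ d ∈ Inn (p := p) r := by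
  have hQP : Q * P = 1 := mul_eq_one_comm.mp hPQ
  constructor
  · rintro ⟨Y, hY⟩
    refine ⟨Q * Y * P, fun σ => ?_⟩
    have h := hY σ
    rw [conjFunEquiv_apply, conjHom_apply] at h
    have h' : Q * (P * d σ * Q) * P = Q * (Y * (P * r σ * Q) - P * r σ * Q * Y) * P := by rw [h]
    have e1 : Q * (P * d σ * Q) * P = d σ := by
      calc Q * (P * d σ * Q) * P = (Q * P) * d σ * (Q * P) := by simp only [mul_assoc]
        _ = d σ := by rw [hQP, one_mul, mul_one]
    have e2 : Q * (Y * (P * r σ * Q) - P * r σ * Q * Y) * P =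
        Q * Y * P * r σ - r σ * (Q * Y * P) := by
      calc Q * (Y * (P * r σ * Q) - P * r σ * Q * Y) * P
          = Q * Y * P * r σ * (Q * P) - (Q * P) * r σ * (Q * Y * P) := by
            simp only [mul_sub, sub_mul, mul_assoc]
        _ = Q * Y * P * r σ - r σ * (Q * Y * P) := by rw [hQP, one_mul, mul_one]
    rw [← e1, h', e2]
  · rintro ⟨Y, hY⟩
    refine ⟨P * Y * Q, fun σ => ?_⟩
    rw [conjFunEquiv_apply, conjHom_apply, hY σ, conj_mul_conj P Q hPQ, conj_mul_conj P Q hPQ]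
    simp only [mul_sub, sub_mul]

theorem lfHyp_conj (P Q : Matrix (Fin 2) (Fin 2) k) (hPQ : P * Q = 1)
    (r : Gp p →* Matrix (Fin 2) (Fin 2) k) (h : LFHyp p k r) :
    LFHyp p k (conjHom P Q hPQ r) := by
  have hQP : Q * P = 1 := mul_eq_one_comm.mp hPQ
  obtain ⟨⟨L, hL, hLr⟩, hdet, hsplit⟩ := h
  refine ⟨⟨L, hL, fun τ hτ => ?_⟩, fun τ a hτ => ?_, fun τ => ?_⟩
  · rw [conjHom_apply, hLr τ hτ, mul_one, hPQ]
  · rw [conjHom_apply, Matrix.det_mul, Matrix.det_mul, hdet τ a hτ, mul_comm, ← mul_assoc,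
      ← Matrix.det_mul, hQP, Matrix.det_one, one_mul]
  · obtain ⟨α, β, hαβ⟩ := hsplit τ
    refine ⟨α, β, ?_⟩
    rw [conjHom_apply, ← hαβ, ← Matrix.inv_eq_right_inv hPQ]
    exact Matrix.charpoly_units_conj ⟨P, Q, hPQ, hQP⟩ (r τ)

theorem comm0_conj (P Q : Matrix (Fin 2) (Fin 2) k) (hPQ : P * Q = 1)
    (r : Gp p →* Matrix (Fin 2) (Fin 2) k) :
    (Comm0 (p := p) r).map (conjMatEquiv P Q hPQ : Matrix (Fin 2) (Fin 2) k →ₗ[k] _) =
      Comm0 (p := p) (conjHom P Q hPQ r) := by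
  have hQP : Q * P = 1 := mul_eq_one_comm.mp hPQ
  ext Y
  constructor
  · rintro ⟨X, ⟨hX0, hXc⟩, rfl⟩
    refine ⟨?_, fun τ => ?_⟩
    · show (P * X * Q).trace = 0
      rw [trace_conj P Q hPQ, hX0]
    · show conjHom P Q hPQ r τ * (P * X * Q) = P * X * Q * conjHom P Q hPQ r τ
      rw [conjHom_apply, conj_mul_conj P Q hPQ, conj_mul_conj P Q hPQ, hXc τ]
  · rintro ⟨hY0, hYc⟩
    refine ⟨Q * Y * P, ⟨?_, fun τ => ?_⟩, ?_⟩
    · rw [trace_conj Q P hQP, hY0]
    · have h := hYc τ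
      rw [conjHom_apply] at h
      calc r τ * (Q * Y * P) = Q * (P * r τ * Q * Y) * P := by
            simp only [← mul_assoc]; rw [hQP, one_mul]
        _ = Q * (Y * (P * r τ * Q)) * P := by rw [h]
        _ = Q * Y * P * r τ := by
            simp only [mul_assoc]; rw [hQP, mul_one]
    · show P * (Q * Y * P) * Q = Y
      calc P * (Q * Y * P) * Q = (P * Q) * Y * (P * Q) := by simp only [mul_assoc]
        _ = Y := by rw [hPQ, one_mul, mul_one]

/-- **The flat local bound is invariant under conjugation.** -/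
theorem lfBound_of_conj (P Q : Matrix (Fin 2) (Fin 2) k) (hPQ : P * Q = 1)
    (r : Gp p →* Matrix (Fin 2) (Fin 2) k) (h : LFBound p k (conjHom P Q hPQ r)) :
    LFBound p k r := by
  have hQP : Q * P = 1 := mul_eq_one_comm.mp hPQ
  intro Cs hder htr hlev hflat
  let Φ : (Gp p → Matrix (Fin 2) (Fin 2) k) ≃ₗ[k] (Gp p → Matrix (Fin 2) (Fin 2) k) :=
    conjFunEquiv (p := p) P Q hPQ
  let Cs' : Submodule k (Gp p → Matrix (Fin 2) (Fin 2) k) := Cs.map Φ.toLinearMap
  let e : ↥Cs ≃ₗ[k] ↥Cs' := Φ.submoduleMap Cs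
  have key := h Cs' ?_ ?_ ?_ ?_
  · -- transport the two finranks
    have hmap : ((Inn (p := p) r).comap Cs.subtype).map e.toLinearMap =
        (Inn (p := p) (conjHom P Q hPQ r)).comap Cs'.subtype := by
      ext x
      constructor
      · rintro ⟨y, hy, rfl⟩
        exact (mem_inn_conj_iff P Q hPQ r y.1).mpr hy
      · intro hx
        refine ⟨e.symm x, ?_, LinearEquiv.apply_symm_apply _ _⟩
        have hx' : (x : Gp p → Matrix (Fin 2) (Fin 2) k) ∈ Inn (p := p) (conjHom P Q hPQ r) := hx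
        have e' : Φ ((e.symm x : ↥Cs) : Gp p → Matrix (Fin 2) (Fin 2) k) =
            (x : Gp p → Matrix (Fin 2) (Fin 2) k) :=
          congrArg Subtype.val (LinearEquiv.apply_symm_apply e x)
        rw [← e'] at hx'
        exact (mem_inn_conj_iff P Q hPQ r _).mp hx'
    have e1 := (Submodule.Quotient.equiv _ _ e hmap).finrank_eq
    have e2 : Module.finrank k ↥(Comm0 (p := p) (conjHom P Q hPQ r)) =
        Module.finrank k ↥(Comm0 (p := p) r) := by
      rw [← comm0_conj P Q hPQ r]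
      exact LinearEquiv.finrank_map_eq (conjMatEquiv P Q hPQ) _
    rw [e1, ← e2]
    exact key
  · rintro d' ⟨d, hd, rfl⟩ σ τ
    show P * d (σ * τ) * Q = P * d σ * Q * conjHom P Q hPQ r τ + conjHom P Q hPQ r σ * (P * d τ * Q)
    rw [conjHom_apply, conjHom_apply, conj_mul_conj P Q hPQ, conj_mul_conj P Q hPQ, hder d hd σ τ]
    simp only [mul_add, add_mul]
  · rintro d' ⟨d, hd, rfl⟩ σ
    show (P * d σ * Q * conjHom P Q hPQ r σ⁻¹).trace = 0
    rw [conjHom_apply, conj_mul_conj P Q hPQ, trace_conj P Q hPQ]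
    exact htr d hd σ
  · rintro d' ⟨d, hd, rfl⟩
    obtain ⟨L, hL, hLd⟩ := hlev d hd
    refine ⟨L, hL, fun τ hτ => ?_⟩
    show P * d τ * Q = 0
    rw [hLd τ hτ, mul_zero, zero_mul]
  · rintro d' ⟨d, hd, rfl⟩ hd'
    have hdInn : d ∉ Inn (p := p) r := fun hd0 => hd' ((mem_inn_conj_iff P Q hPQ r d).mpr hd0)
    exact LF.PThreeClass.flatLocal_conj (hflat d hd hdInn) P Q hQP hPQ

end Conj

/-- **LF-top from its two shapes.** -/
theorem lfTop_of_shape (hS : ShapeStatement) (hR : TRStatement) (hI : TIStatement) :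
    LFTopStatement := by
  rw [lfTopStatement_iff]
  intro p _ hp2 k _ _ _ r hr
  rcases hS p hp2 k r hr.1 hr.2.2 with ⟨P, Q, hPQ, hup⟩ | ⟨P, Q, hPQ, hdiag, hanti, hτ⟩
  · exact lfBound_of_conj P Q hPQ r
      (hR p hp2 k (conjHom P Q hPQ r) (lfHyp_conj P Q hPQ r hr) hup)
  · exact lfBound_of_conj P Q hPQ r
      (hI p hp2 k (conjHom P Q hPQ r) (lfHyp_conj P Q hPQ r hr) hdiag hanti hτ)

end Fermat.Agent.S56.Flat
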