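import Mathlib
import Fermat.Agent.S56.Flat.AlgBricks
import Fermat.Agent.S56.LF.QuotRigid

/-!
# S56, brick LF, row A4 (LF3q, quotient rigidity): the contract exit  [helper30]

`lf3qStatement : Fermat.Agent.S56.Flat.LF3qStatement` (the `Prop` of `Flat/AlgBricks.lean`),
an adapter from the ring-level theorem `Fermat.Agent.S56.LF.QuotRigid.mem_of_quot_fixed`
(file `S56/LF/QuotRigid.lean`): the family of endomorphisms is the action of the group `Γ`
(`MulSemiringAction.toAlgHom`, injective because `Γ` is a group), and the finite submonoid `N`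
of points is turned into a `Finset`.

Also `lf3b` (the case `N = ⊥`, "LF3b", from `eq_one_of_fixed`): a `Γ`-fixed point of order `p` that is trivial modulo `𝔪`
is trivial, in the same vocabulary as the contract.
-/

set_option autoImplicit false

open WithConv

namespace Fermat.Agent.S56.Flat.QuotRigid

/-- **LF3q**, contract literal of `Flat/AlgBricks.lean`. -/
theorem lf3qStatement : Fermat.Agent.S56.Flat.LF3qStatement := by
  intro p hpF hp2 R0 _ H _ _ _ _ _ A _ _ _ _ Γ _ _ _ 𝔪 hsep hm N hNfin x hxp hx0 hNst hxN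
  classical
  have hfin : (N : Set (WithConv (H →ₐ[R0] A))).Finite := Set.toFinite _
  have hmem : ∀ y : WithConv (H →ₐ[R0] A), y ∈ hfin.toFinset ↔ y ∈ N := by
    intro y
    rw [Set.Finite.mem_toFinset]
    exact Iff.rfl
  have hact : ∀ τ : Γ, Function.Injective (MulSemiringAction.toAlgHom R0 A τ) := by
    intro τ a b hab
    exact MulAction.injective τ hab
  refine (hmem x).mp
    (Fermat.Agent.S56.LF.QuotRigid.mem_of_quot_fixed hpF.out hp2 hsep
      (fun τ : Γ => MulSemiringAction.toAlgHom R0 A τ) hact 𝔪 ?_ hfin.toFinset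
      ((hmem 1).mpr N.one_mem) ?_ ?_ x hxp hx0 ?_)
  · intro a ha hfix
    exact hm a ha hfix
  · intro a ha b hb
    exact (hmem _).mpr (N.mul_mem ((hmem a).mp ha) ((hmem b).mp hb))
  · intro τ n hn
    obtain ⟨n', hn', h⟩ := hNst τ n ((hmem n).mp hn)
    have : toConv ((MulSemiringAction.toAlgHom R0 A τ).comp n.ofConv) = n' := by
      apply WithConv.ofConv_injective
      exact AlgHom.ext fun c => (h c).symm
    rw [this]
    exact (hmem n').mpr hn'
  · intro τ
    obtain ⟨n, hn, h⟩ := hxN τ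
    refine ⟨n, (hmem n).mpr hn, ?_⟩
    apply WithConv.ofConv_injective
    exact AlgHom.ext fun c => h c

/-- **LF3b** in the vocabulary of the contract: a `Γ`-fixed point of order `p` which is trivial
modulo `𝔪` is trivial. -/
theorem lf3b (p : ℕ) [Fact p.Prime] (hp2 : p ≠ 2)
    (R0 : Type) [CommRing R0] (H : Type) [CommRing H] [HopfAlgebra R0 H]
    [Module.Finite R0 H] [Module.Free R0 H] [Coalgebra.IsCocomm R0 H]
    (A : Type) [CommRing A] [IsDomain A] [CharZero A] [Algebra R0 A]
    (Γ : Type) [Group Γ] [MulSemiringAction Γ A] [SMulCommClass Γ R0 A] (𝔪 : Ideal A)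
    (hsep : ∀ a : A, (∀ n : ℕ, (p : A) ^ n ∣ a) → a = 0)
    (hm : ∀ a ∈ 𝔪, (∀ τ : Γ, τ • a = a) → ∃ b : A, (∀ τ : Γ, τ • b = b) ∧ a = (p : A) * b)
    (x : WithConv (H →ₐ[R0] A)) (hxp : x ^ p = 1)
    (hx0 : ∀ h : H, x.ofConv h - algebraMap R0 A (Coalgebra.counit h) ∈ 𝔪)
    (hfix : ∀ (τ : Γ) (h : H), τ • x.ofConv h = x.ofConv h) : x = 1 := by
  have hpF : Fact p.Prime := inferInstance
  have hact : ∀ τ : Γ, Function.Injective (MulSemiringAction.toAlgHom R0 A τ) := by
    intro τ a b hab
    exact MulAction.injective τ hab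
  refine Fermat.Agent.S56.LF.QuotRigid.eq_one_of_fixed hpF.out hp2 hsep
    (fun τ : Γ => MulSemiringAction.toAlgHom R0 A τ) hact 𝔪 ?_ x hxp hx0 ?_
  · intro a ha hfixa
    exact hm a ha hfixa
  · intro τ
    apply WithConv.ofConv_injective
    exact AlgHom.ext fun c => hfix τ c

end Fermat.Agent.S56.Flat.QuotRigid
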