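import Mathlib

/-!
# S56, brick LF, row C4: the arithmetic of the count (`SA`)

Mathlib only (helper52).  The count `LF6d` (`CntStatement` of `Flat/LocalBricks.lean`, `cntAbs` of
`Flat/CntAbs.lean`) bounds a space of Kummer-bounded equivariant homomorphisms by
`[χ = 1] + #pairSet`, where

  `pairSet p e0 a t s = {(n, j) | 1 ≤ n ≤ e0, p ∤ n, j < a, t ^ ((p * e0 - n) * p ^ j) = s}`

(`t` the tame parameter of `τ0`, `s = ξ τ0`, `ξ χ = ω̄`).  This file evaluates the pair set in the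
two shapes of `LF7`:

* **(R)** (`e0 = 1`, `a = 1`, `t ^ (p - 1) = 1`): the pair set is `⊆ {(1, 0)}`, and empty unless
  `s = 1`; hence for two values `s`, `s'` with `s * s' ≠ 1` (the characters `χ2/χ1`, `χ1/χ2`
  when `p ≥ 5`: `s * s' = ω̄(τ0) ^ 2 ≠ 1`) the two counts add up to at most `1`.
* **(I)** (`e0 = p + 1`, `a = 2`, `t` a primitive `(p² - 1)`-th root of unity, `x = ψ τ0`,
  `x ^ (p + 1) = t ^ (p + 1)` (determinant), `s * x ^ (p - 1) = t ^ (p + 1)`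
  (`ξ · ψ'/ψ = ω̄` at `τ0`, `ψ' τ0 = x ^ p`)): the pair set has at most one element.
* **(η)** (same `e0`, `a`, `t`; `s = t ^ (p + 1)`, i.e. `χ` unramified): the pair set is empty.

Every result is given for `pairSet`, in the `Nat.card {nj // …}` form of `CntStatement` and in the
`Set.ncard {nj | …}` form of `CntAbs.cntAbs`, with `e0`, `a` as variables (hypotheses `e0 = …`,
`a = …`) so that they rewrite whatever the caller's instance looks like.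
-/

set_option autoImplicit false

namespace Fermat.Agent.S56.Flat.ShapeArith

/-- The pair set of the count `LF6d`. -/
def pairSet (p e0 a : ℕ) {k : Type*} [Monoid k] (t s : k) : Set (ℕ × ℕ) :=
  {nj | 1 ≤ nj.1 ∧ nj.1 ≤ e0 ∧ ¬ p ∣ nj.1 ∧ nj.2 < a ∧ t ^ ((p * e0 - nj.1) * p ^ nj.2) = s}

section Generic

variable {k : Type*} [Monoid k]

theorem natCard_subtype_eq (p e0 a : ℕ) (t s : k) :
    Nat.card {nj : ℕ × ℕ // 1 ≤ nj.1 ∧ nj.1 ≤ e0 ∧ ¬ p ∣ nj.1 ∧ nj.2 < a ∧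
      t ^ ((p * e0 - nj.1) * p ^ nj.2) = s} = (pairSet p e0 a t s).ncard :=
  Nat.card_coe_set_eq (pairSet p e0 a t s)

theorem ncard_setOf_eq (p e0 a : ℕ) (t s : k) :
    Set.ncard {nj : ℕ × ℕ | 1 ≤ nj.1 ∧ nj.1 ≤ e0 ∧ ¬ p ∣ nj.1 ∧ nj.2 < a ∧
      t ^ ((p * e0 - nj.1) * p ^ nj.2) = s} = (pairSet p e0 a t s).ncard :=
  rfl

theorem pairSet_finite (p e0 a : ℕ) (t s : k) : (pairSet p e0 a t s).Finite := by
  apply Set.Finite.subset ((Set.finite_Icc 1 e0).prod (Set.finite_Iio a))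
  rintro ⟨n, j⟩ ⟨h1, h2, -, h4, -⟩
  exact ⟨⟨h1, h2⟩, h4⟩

/-! ### Shape (R): `e0 = 1`, `a = 1` -/

theorem pairSet_R_subset (p : ℕ) (t s : k) : pairSet p 1 1 t s ⊆ {(1, 0)} := by
  rintro ⟨n, j⟩ ⟨h1, h2, -, h4, -⟩
  simp only [Set.mem_singleton_iff, Prod.mk.injEq]
  exact ⟨le_antisymm h2 h1, by omega⟩

theorem pairSet_R_eq_empty {p : ℕ} {t s : k} (ht : t ^ (p - 1) = 1) (hs : s ≠ 1) :
    pairSet p 1 1 t s = ∅ := by
  ext ⟨n, j⟩
  simp only [Set.mem_empty_iff_false, iff_false]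
  rintro ⟨h1, h2, -, h4, h5⟩
  have hn : n = 1 := le_antisymm h2 h1
  have hj : j = 0 := by omega
  subst hn hj
  apply hs
  rw [← h5]
  simpa using ht

theorem pairSet_R_eq_singleton {p : ℕ} (hp : p ≠ 1) {t : k} (ht : t ^ (p - 1) = 1) :
    pairSet p 1 1 t 1 = {(1, 0)} := by
  refine Set.Subset.antisymm (pairSet_R_subset p t 1) ?_
  rintro _ rfl
  refine ⟨le_rfl, le_rfl, ?_, Nat.zero_lt_one, ?_⟩
  · simpa using hp
  · simpa using ht

theorem ncard_pairSet_R_le_one (p : ℕ) (t s : k) : (pairSet p 1 1 t s).ncard ≤ 1 :=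
  (Set.ncard_le_ncard (pairSet_R_subset p t s) (Set.finite_singleton _)).trans
    (Set.ncard_singleton _).le

theorem ncard_pairSet_R_eq_zero {p : ℕ} {t s : k} (ht : t ^ (p - 1) = 1) (hs : s ≠ 1) :
    (pairSet p 1 1 t s).ncard = 0 := by
  rw [pairSet_R_eq_empty ht hs, Set.ncard_empty]

/-- **(SA)(R), exclusivity.**  Two values with `s * s' ≠ 1` cannot both be `1`. -/
theorem ncard_pairSet_R_add_le_one {p : ℕ} {t s s' : k} (ht : t ^ (p - 1) = 1)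
    (hss : s * s' ≠ 1) : (pairSet p 1 1 t s).ncard + (pairSet p 1 1 t s').ncard ≤ 1 := by
  by_cases h : s = 1
  · have h' : s' ≠ 1 := by
      rintro rfl
      exact hss (by rw [h, mul_one])
    rw [ncard_pairSet_R_eq_zero ht h', add_zero]
    exact ncard_pairSet_R_le_one p t s
  · rw [ncard_pairSet_R_eq_zero ht h, zero_add]
    exact ncard_pairSet_R_le_one p t s'

/-- **(SA)(R)** in the `Nat.card` form of `CntStatement`: at most `1`. -/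
theorem natCard_R_le_one {p e0 a : ℕ} (he0 : e0 = 1) (ha : a = 1) (t s : k) :
    Nat.card {nj : ℕ × ℕ // 1 ≤ nj.1 ∧ nj.1 ≤ e0 ∧ ¬ p ∣ nj.1 ∧ nj.2 < a ∧
      t ^ ((p * e0 - nj.1) * p ^ nj.2) = s} ≤ 1 := by
  subst he0 ha
  rw [natCard_subtype_eq]
  exact ncard_pairSet_R_le_one p t s

/-- **(SA)(R)** in the `Nat.card` form of `CntStatement`: `0` unless `s = 1`. -/
theorem natCard_R_eq_zero {p e0 a : ℕ} (he0 : e0 = 1) (ha : a = 1) {t s : k}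
    (ht : t ^ (p - 1) = 1) (hs : s ≠ 1) :
    Nat.card {nj : ℕ × ℕ // 1 ≤ nj.1 ∧ nj.1 ≤ e0 ∧ ¬ p ∣ nj.1 ∧ nj.2 < a ∧
      t ^ ((p * e0 - nj.1) * p ^ nj.2) = s} = 0 := by
  subst he0 ha
  rw [natCard_subtype_eq]
  exact ncard_pairSet_R_eq_zero ht hs

/-- **(SA)(R), exclusivity** in the `Nat.card` form of `CntStatement`. -/
theorem natCard_R_add_le_one {p e0 a : ℕ} (he0 : e0 = 1) (ha : a = 1) {t s s' : k}
    (ht : t ^ (p - 1) = 1) (hss : s * s' ≠ 1) :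
    Nat.card {nj : ℕ × ℕ // 1 ≤ nj.1 ∧ nj.1 ≤ e0 ∧ ¬ p ∣ nj.1 ∧ nj.2 < a ∧
        t ^ ((p * e0 - nj.1) * p ^ nj.2) = s} +
      Nat.card {nj : ℕ × ℕ // 1 ≤ nj.1 ∧ nj.1 ≤ e0 ∧ ¬ p ∣ nj.1 ∧ nj.2 < a ∧
        t ^ ((p * e0 - nj.1) * p ^ nj.2) = s'} ≤ 1 := by
  subst he0 ha
  rw [natCard_subtype_eq, natCard_subtype_eq]
  exact ncard_pairSet_R_add_le_one ht hss

/-- **(SA)(R)** in the `Set.ncard` form of `CntAbs.cntAbs`: at most `1`. -/
theorem ncard_R_le_one {p e0 a : ℕ} (he0 : e0 = 1) (ha : a = 1) (t s : k) :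
    Set.ncard {nj : ℕ × ℕ | 1 ≤ nj.1 ∧ nj.1 ≤ e0 ∧ ¬ p ∣ nj.1 ∧ nj.2 < a ∧
      t ^ ((p * e0 - nj.1) * p ^ nj.2) = s} ≤ 1 := by
  subst he0 ha
  exact ncard_pairSet_R_le_one p t s

/-- **(SA)(R)** in the `Set.ncard` form of `CntAbs.cntAbs`: `0` unless `s = 1`. -/
theorem ncard_R_eq_zero {p e0 a : ℕ} (he0 : e0 = 1) (ha : a = 1) {t s : k}
    (ht : t ^ (p - 1) = 1) (hs : s ≠ 1) :
    Set.ncard {nj : ℕ × ℕ | 1 ≤ nj.1 ∧ nj.1 ≤ e0 ∧ ¬ p ∣ nj.1 ∧ nj.2 < a ∧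
      t ^ ((p * e0 - nj.1) * p ^ nj.2) = s} = 0 := by
  subst he0 ha
  exact ncard_pairSet_R_eq_zero ht hs

/-- **(SA)(R), exclusivity** in the `Set.ncard` form of `CntAbs.cntAbs`. -/
theorem ncard_R_add_le_one {p e0 a : ℕ} (he0 : e0 = 1) (ha : a = 1) {t s s' : k}
    (ht : t ^ (p - 1) = 1) (hss : s * s' ≠ 1) :
    Set.ncard {nj : ℕ × ℕ | 1 ≤ nj.1 ∧ nj.1 ≤ e0 ∧ ¬ p ∣ nj.1 ∧ nj.2 < a ∧
        t ^ ((p * e0 - nj.1) * p ^ nj.2) = s} +
      Set.ncard {nj : ℕ × ℕ | 1 ≤ nj.1 ∧ nj.1 ≤ e0 ∧ ¬ p ∣ nj.1 ∧ nj.2 < a ∧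
        t ^ ((p * e0 - nj.1) * p ^ nj.2) = s'} ≤ 1 := by
  subst he0 ha
  exact ncard_pairSet_R_add_le_one ht hss

end Generic

/-! ### The cyclotomic value at `τ0` in shape (R) -/

section Cyclo

variable {p : ℕ} [Fact p.Prime] {k : Type*} [Field k] [CharP k p]

/-- A natural number which generates `𝔽_pˣ` has `(p - 1)`-th power `1` in `k`. -/
theorem natCast_pow_sub_one_eq_one {g : ℕ} (hg : orderOf (g : ZMod p) = p - 1) :
    (g : k) ^ (p - 1) = 1 := by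
  have h1 : (g : ZMod p) ^ (p - 1) = 1 := by rw [← hg]; exact pow_orderOf_eq_one _
  have h2 := congrArg (ZMod.castHom (dvd_refl p) k) h1
  simpa using h2

/-- A natural number which generates `𝔽_pˣ`, `p ≥ 5`, has square `≠ 1` in `k`. -/
theorem natCast_sq_ne_one (hp5 : 5 ≤ p) {g : ℕ} (hg : orderOf (g : ZMod p) = p - 1) :
    (g : k) ^ 2 ≠ 1 := by
  intro h
  have hinj : Function.Injective (ZMod.castHom (dvd_refl p) k) := RingHom.injective _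
  have h1 : (g : ZMod p) ^ 2 = 1 := by
    apply hinj
    simpa using h
  have h2 : orderOf (g : ZMod p) ∣ 2 := orderOf_dvd_of_pow_eq_one h1
  rw [hg] at h2
  have h3 := Nat.le_of_dvd (by norm_num) h2
  omega

/-- The two `ξ`-values of the characters `χ2/χ1` and `χ1/χ2` in shape (R), `p ≥ 5`:
if `s * y = g` and `s' * y' = g` with `y * y' = 1`, then `s * s' ≠ 1`. -/
theorem mul_ne_one_of_R (hp5 : 5 ≤ p) {g : ℕ} (hg : orderOf (g : ZMod p) = p - 1)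
    {s s' y y' : k} (hy : y * y' = 1) (hs : s * y = g) (hs' : s' * y' = g) : s * s' ≠ 1 := by
  intro h
  apply natCast_sq_ne_one (k := k) hp5 hg
  calc (g : k) ^ 2 = (s * y) * (s' * y') := by rw [hs, hs', sq]
    _ = (s * s') * (y * y') := by ring
    _ = 1 := by rw [h, hy, mul_one]

end Cyclo

/-! ### Shape (I): integer arithmetic modulo `p² - 1` -/

section IntArith

/-- From the congruence of the pair `(n, j)`: `n = (P - 1) n1` and `P + 1 ∣ m - n1 (-1)^j`. -/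
theorem exists_of_dvd {P n m : ℤ} {j : ℕ} (hP : 3 ≤ P) (hn1 : 1 ≤ n) (hj : j < 2)
    (h : (P ^ 2 - 1) ∣ (P * (P + 1) - n) * P ^ j + (P - 1) * m - (P + 1)) :
    ∃ n1 : ℤ, n = (P - 1) * n1 ∧ 1 ≤ n1 ∧ (P + 1) ∣ m - n1 * (-1) ^ j := by
  have hP1 : P - 1 ≠ 0 := by omega
  have hfac : P ^ 2 - 1 = (P - 1) * (P + 1) := by ring
  have h1 : (P ^ 2 - 1) ∣ (P - 1) * m - n * P ^ j := by
    obtain ⟨c, hc⟩ := h
    interval_cases j
    · exact ⟨c - 1, by linear_combination hc⟩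
    · exact ⟨c - (P + 1), by linear_combination hc⟩
  have h2 : (P - 1) ∣ n * P ^ j := by
    have h3 : (P - 1) ∣ (P - 1) * m - n * P ^ j := Dvd.dvd.trans ⟨P + 1, hfac⟩ h1
    exact (dvd_sub_right (dvd_mul_right _ _)).1 h3
  have h4 : (P - 1) ∣ n := by
    have h5 : (P - 1) ∣ P ^ j - 1 := by simpa using sub_dvd_pow_sub_pow P 1 j
    have h6 : (P - 1) ∣ n * P ^ j - n * (P ^ j - 1) := dvd_sub h2 (Dvd.dvd.mul_left h5 n)
    have e : n * P ^ j - n * (P ^ j - 1) = n := by ring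
    rwa [e] at h6
  obtain ⟨n1, rfl⟩ := h4
  refine ⟨n1, rfl, ?_, ?_⟩
  · by_contra hcon
    have h0 : n1 ≤ 0 := by omega
    nlinarith
  · have h5 : (P + 1) ∣ m - n1 * P ^ j := by
      have h6 : (P - 1) * (P + 1) ∣ (P - 1) * (m - n1 * P ^ j) := by
        have e : (P - 1) * (m - n1 * P ^ j) = (P - 1) * m - (P - 1) * n1 * P ^ j := by ring
        rw [e, ← hfac]
        exact h1
      exact (mul_dvd_mul_iff_left hP1).1 h6
    have h7 : (P + 1) ∣ P ^ j - (-1) ^ j := by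
      have := sub_dvd_pow_sub_pow P (-1) j
      rwa [sub_neg_eq_add] at this
    have h8 : (P + 1) ∣ (m - n1 * P ^ j) + n1 * (P ^ j - (-1) ^ j) :=
      dvd_add h5 (Dvd.dvd.mul_left h7 n1)
    have e : (m - n1 * P ^ j) + n1 * (P ^ j - (-1) ^ j) = m - n1 * (-1) ^ j := by ring
    rwa [e] at h8

/-- **Key (I).**  With the determinant congruence, the pair `(n, j)` has `n = P - 1` and
`P + 1 ∣ m - (-1)^j`. -/
theorem key_int {P n m : ℤ} {j : ℕ} (hP : 3 ≤ P) (hn1 : 1 ≤ n) (hn2 : n ≤ P + 1) (hj : j < 2)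
    (hdet : (P ^ 2 - 1) ∣ (P + 1) * m - (P + 1))
    (h : (P ^ 2 - 1) ∣ (P * (P + 1) - n) * P ^ j + (P - 1) * m - (P + 1)) :
    n = P - 1 ∧ (P + 1) ∣ m - (-1) ^ j := by
  obtain ⟨n1, rfl, hn1', h6⟩ := exists_of_dvd hP hn1 hj h
  have hdet' : (P - 1) ∣ m - 1 := by
    have h7 : (P + 1) * (P - 1) ∣ (P + 1) * (m - 1) := by
      have e1 : (P + 1) * (P - 1) = P ^ 2 - 1 := by ring
      have e2 : (P + 1) * (m - 1) = (P + 1) * m - (P + 1) := by ring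
      rw [e1, e2]
      exact hdet
    exact (mul_dvd_mul_iff_left (by omega : P + 1 ≠ 0)).1 h7
  have hone : n1 = 1 := by
    by_contra hne
    have h2 : 2 ≤ n1 := by omega
    have hP3 : P = 3 := by nlinarith
    subst hP3
    have hn12 : n1 = 2 := by omega
    subst hn12
    interval_cases j
    · norm_num at hdet' h6
      omega
    · norm_num at hdet' h6
      omega
  subst hone
  refine ⟨by ring, ?_⟩
  simpa using h6

/-- The unramified value: no pair at all. -/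
theorem false_of_dvd_eta {P n : ℤ} {j : ℕ} (hP : 3 ≤ P) (hn1 : 1 ≤ n) (hn2 : n ≤ P + 1)
    (hj : j < 2) (h : (P ^ 2 - 1) ∣ (P * (P + 1) - n) * P ^ j - (P + 1)) : False := by
  have h' : (P ^ 2 - 1) ∣ (P * (P + 1) - n) * P ^ j + (P - 1) * 0 - (P + 1) := by
    simpa using h
  obtain ⟨n1, rfl, hn1', h6⟩ := exists_of_dvd hP hn1 hj h'
  have h7 : (P + 1) ∣ n1 := by
    have h8 : (P + 1) ∣ n1 * (-1) ^ j := by
      have := (dvd_neg (a := P + 1) (b := 0 - n1 * (-1) ^ j)).2 h6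
      simpa using this
    interval_cases j
    · simpa using h8
    · have := (dvd_neg (a := P + 1) (b := n1 * (-1) ^ 1)).2 h8
      simpa using this
  have h9 : P + 1 ≤ n1 := Int.le_of_dvd (by omega) h7
  nlinarith

end IntArith

/-! ### Shape (I): the pair set -/

section Induced

variable {p : ℕ} [hp : Fact p.Prime] {k : Type*} [Field k]

theorem pow_eq_pow_iff_modEq_of_isPrimitiveRoot {t : k} {N : ℕ} (ht : IsPrimitiveRoot t N)
    (hN : 0 < N) (a b : ℕ) : t ^ a = t ^ b ↔ a ≡ b [MOD N] := by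
  have hfin : IsOfFinOrder t := isOfFinOrder_iff_pow_eq_one.2 ⟨N, hN, ht.pow_eq_one⟩
  rw [hfin.pow_eq_pow_iff_modEq, ← ht.eq_orderOf]

/-- The integer form of the membership in the pair set, for `s * t ^ ((p - 1) m) = t ^ (p + 1)`. -/
theorem dvd_of_mem (hp2 : p ≠ 2) {t s : k} (ht : IsPrimitiveRoot t (p ^ 2 - 1)) {m : ℕ}
    (hs : s * t ^ ((p - 1) * m) = t ^ (p + 1)) {n j : ℕ}
    (h : (n, j) ∈ pairSet p (p + 1) 2 t s) :
    (3 : ℤ) ≤ p ∧ (1 : ℤ) ≤ n ∧ (n : ℤ) ≤ p + 1 ∧ j < 2 ∧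
      ((p : ℤ) ^ 2 - 1) ∣ ((p : ℤ) * (p + 1) - n) * (p : ℤ) ^ j + ((p : ℤ) - 1) * m - (p + 1) := by
  obtain ⟨h1, h2, -, h4, h5⟩ := h
  have hp3 : 3 ≤ p := by
    have := hp.out.two_le
    omega
  have hN : 0 < p ^ 2 - 1 := by
    have : 3 ^ 2 ≤ p ^ 2 := Nat.pow_le_pow_left hp3 2
    omega
  simp only at h1 h2 h4 h5
  have hle : n ≤ p * (p + 1) := h2.trans (Nat.le_mul_of_pos_left _ (by omega))
  have h6 : t ^ ((p * (p + 1) - n) * p ^ j + (p - 1) * m) = t ^ (p + 1) := by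
    rw [pow_add, h5, hs]
  have h7 := (pow_eq_pow_iff_modEq_of_isPrimitiveRoot ht hN _ _).1 h6
  have h8 := (Nat.modEq_iff_dvd.1 h7.symm)
  have hN1 : 1 ≤ p ^ 2 := by omega
  have hp1 : 1 ≤ p := by omega
  push_cast [Nat.cast_sub hN1, Nat.cast_sub hle, Nat.cast_sub hp1] at h8
  refine ⟨by exact_mod_cast hp3, by exact_mod_cast h1, by exact_mod_cast h2, h4, ?_⟩
  exact h8

/-- **(SA)(I), core.**  `t` a primitive `(p² - 1)`-th root of unity, `ψ τ0 = t ^ m`,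
determinant `t ^ ((p + 1) m) = t ^ (p + 1)`, `s * t ^ ((p - 1) m) = t ^ (p + 1)`: the pair set
has at most one element. -/
theorem pairSet_I_subsingleton_pow (hp2 : p ≠ 2) {t s : k} (ht : IsPrimitiveRoot t (p ^ 2 - 1))
    {m : ℕ} (hdet : t ^ ((p + 1) * m) = t ^ (p + 1))
    (hs : s * t ^ ((p - 1) * m) = t ^ (p + 1)) :
    (pairSet p (p + 1) 2 t s).Subsingleton := by
  have hp3 : 3 ≤ p := by
    have := hp.out.two_le
    omega
  have hN : 0 < p ^ 2 - 1 := by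
    have : 3 ^ 2 ≤ p ^ 2 := Nat.pow_le_pow_left hp3 2
    omega
  have hdet' : ((p : ℤ) ^ 2 - 1) ∣ ((p : ℤ) + 1) * m - (p + 1) := by
    have h7 := (pow_eq_pow_iff_modEq_of_isPrimitiveRoot ht hN _ _).1 hdet
    have h8 := (Nat.modEq_iff_dvd.1 h7.symm)
    have hN1 : 1 ≤ p ^ 2 := by omega
    push_cast [Nat.cast_sub hN1] at h8
    exact h8
  rintro ⟨n, j⟩ hnj ⟨n', j'⟩ hnj'
  obtain ⟨hP, a1, a2, a3, a4⟩ := dvd_of_mem hp2 ht hs hnj
  obtain ⟨-, b1, b2, b3, b4⟩ := dvd_of_mem hp2 ht hs hnj'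
  obtain ⟨c1, c2⟩ := key_int hP a1 a2 a3 hdet' a4
  obtain ⟨d1, d2⟩ := key_int hP b1 b2 b3 hdet' b4
  have hnn : n = n' := by
    have : (n : ℤ) = n' := by rw [c1, d1]
    exact_mod_cast this
  have hjj : j = j' := by
    by_contra hne
    have h2 : ((p : ℤ) + 1) ∣ 2 := by
      interval_cases j <;> interval_cases j'
      · exact absurd rfl hne
      · have := dvd_sub c2 d2
        have e : ((m : ℤ) - (-1) ^ 0) - ((m : ℤ) - (-1) ^ 1) = -2 := by ring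
        rw [e] at this
        exact (dvd_neg).1 this
      · have := dvd_sub c2 d2
        have e : ((m : ℤ) - (-1) ^ 1) - ((m : ℤ) - (-1) ^ 0) = 2 := by ring
        rw [e] at this
        exact this
      · exact absurd rfl hne
    have h3 := Int.le_of_dvd (by norm_num) h2
    omega
  rw [hnn, hjj]

/-- **(SA)(I).**  `t` a primitive `(p² - 1)`-th root of unity, `x = ψ τ0` with
`x ^ (p + 1) = t ^ (p + 1)` (the determinant: `ψ ψ' = ω̄`, `ψ' τ0 = x ^ p`, `ω̄ τ0 = t ^ (p + 1)`)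
and `s * x ^ (p - 1) = t ^ (p + 1)` (`ξ · (ψ'/ψ) = ω̄` at `τ0`): the pair set has at most one
element. -/
theorem pairSet_I_subsingleton (hp2 : p ≠ 2) {t s x : k} (ht : IsPrimitiveRoot t (p ^ 2 - 1))
    (hdet : x ^ (p + 1) = t ^ (p + 1)) (hs : s * x ^ (p - 1) = t ^ (p + 1)) :
    (pairSet p (p + 1) 2 t s).Subsingleton := by
  have hp3 : 3 ≤ p := by
    have := hp.out.two_le
    omega
  have hN : 0 < p ^ 2 - 1 := by
    have : 3 ^ 2 ≤ p ^ 2 := Nat.pow_le_pow_left hp3 2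
    omega
  have hfac : p ^ 2 - 1 = (p + 1) * (p - 1) := by
    obtain ⟨q, rfl⟩ : ∃ q, p = q + 1 := ⟨p - 1, by omega⟩
    simp only [Nat.add_sub_cancel]
    ring_nf
    omega
  have hx : x ^ (p ^ 2 - 1) = 1 := by
    rw [hfac, pow_mul, hdet, ← pow_mul, ← hfac]
    exact ht.pow_eq_one
  have : NeZero (p ^ 2 - 1) := ⟨hN.ne'⟩
  obtain ⟨m, -, rfl⟩ := ht.eq_pow_of_pow_eq_one hx
  refine pairSet_I_subsingleton_pow hp2 ht (m := m) ?_ ?_
  · rw [mul_comm, pow_mul]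
    exact hdet
  · rw [mul_comm (p - 1) m, pow_mul]
    exact hs

theorem ncard_pairSet_I_le_one (hp2 : p ≠ 2) {t s x : k} (ht : IsPrimitiveRoot t (p ^ 2 - 1))
    (hdet : x ^ (p + 1) = t ^ (p + 1)) (hs : s * x ^ (p - 1) = t ^ (p + 1)) :
    (pairSet p (p + 1) 2 t s).ncard ≤ 1 :=
  (Set.ncard_le_one (pairSet_finite _ _ _ _ _)).2
    (fun _ ha _ hb => pairSet_I_subsingleton hp2 ht hdet hs ha hb)

/-- **(SA)(I)** in the data of the assembly: `x = ψ τ0`, `x' = ψ' τ0 = x ^ p`,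
`x * x' = t ^ (p + 1)` (determinant), `y = χ τ0` with `y * x = x'` (`χ = ψ'/ψ`) and
`s * y = t ^ (p + 1)` (`ξ χ = ω̄`). -/
theorem ncard_pairSet_I_le_one' (hp2 : p ≠ 2) {t s x x' y : k}
    (ht : IsPrimitiveRoot t (p ^ 2 - 1)) (hx' : x' = x ^ p) (hdet : x * x' = t ^ (p + 1))
    (hy : y * x = x') (hs : s * y = t ^ (p + 1)) :
    (pairSet p (p + 1) 2 t s).ncard ≤ 1 := by
  have hp3 : 3 ≤ p := by
    have := hp.out.two_le
    omega
  have hN : 0 < p ^ 2 - 1 := by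
    have : 3 ^ 2 ≤ p ^ 2 := Nat.pow_le_pow_left hp3 2
    omega
  have hdet' : x ^ (p + 1) = t ^ (p + 1) := by
    rw [← hdet, hx', pow_succ, mul_comm]
  have ht0 : t ≠ 0 := ht.ne_zero hN.ne'
  have hx0 : x ≠ 0 := by
    rintro rfl
    rw [zero_pow (by omega)] at hdet'
    exact pow_ne_zero _ ht0 hdet'.symm
  have hyx : y = x ^ (p - 1) := by
    have h1 : y * x = x ^ (p - 1) * x := by
      rw [hy, hx', ← pow_succ]
      congr 1
      omega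
    exact mul_right_cancel₀ hx0 h1
  exact ncard_pairSet_I_le_one hp2 ht hdet' (by rw [← hyx]; exact hs)

/-- **(SA)(η).**  For the unramified value `s = t ^ (p + 1)` the pair set is empty. -/
theorem pairSet_I_eta (hp2 : p ≠ 2) {t : k} (ht : IsPrimitiveRoot t (p ^ 2 - 1)) :
    pairSet p (p + 1) 2 t (t ^ (p + 1)) = ∅ := by
  have hp3 : 3 ≤ p := by
    have := hp.out.two_le
    omega
  ext ⟨n, j⟩
  simp only [Set.mem_empty_iff_false, iff_false]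
  intro h
  have hs : t ^ (p + 1) * t ^ ((p - 1) * 0) = t ^ (p + 1) := by simp
  obtain ⟨hP, a1, a2, a3, a4⟩ := dvd_of_mem hp2 ht hs h
  apply false_of_dvd_eta hP a1 a2 a3
  simpa using a4

theorem ncard_pairSet_I_eta (hp2 : p ≠ 2) {t : k} (ht : IsPrimitiveRoot t (p ^ 2 - 1)) :
    (pairSet p (p + 1) 2 t (t ^ (p + 1))).ncard = 0 := by
  rw [pairSet_I_eta hp2 ht, Set.ncard_empty]

/-- **(SA)(I)** in the `Nat.card` form of `CntStatement`. -/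
theorem natCard_I_le_one (hp2 : p ≠ 2) {e0 a : ℕ} (he0 : e0 = p + 1) (ha : a = 2) {t s x : k}
    (ht : IsPrimitiveRoot t (p ^ 2 - 1)) (hdet : x ^ (p + 1) = t ^ (p + 1))
    (hs : s * x ^ (p - 1) = t ^ (p + 1)) :
    Nat.card {nj : ℕ × ℕ // 1 ≤ nj.1 ∧ nj.1 ≤ e0 ∧ ¬ p ∣ nj.1 ∧ nj.2 < a ∧
      t ^ ((p * e0 - nj.1) * p ^ nj.2) = s} ≤ 1 := by
  subst he0 ha
  rw [natCard_subtype_eq]
  exact ncard_pairSet_I_le_one hp2 ht hdet hs

/-- **(SA)(I)** in the `Nat.card` form of `CntStatement`, data of the assembly. -/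
theorem natCard_I_le_one' (hp2 : p ≠ 2) {e0 a : ℕ} (he0 : e0 = p + 1) (ha : a = 2)
    {t s x x' y : k} (ht : IsPrimitiveRoot t (p ^ 2 - 1)) (hx' : x' = x ^ p)
    (hdet : x * x' = t ^ (p + 1)) (hy : y * x = x') (hs : s * y = t ^ (p + 1)) :
    Nat.card {nj : ℕ × ℕ // 1 ≤ nj.1 ∧ nj.1 ≤ e0 ∧ ¬ p ∣ nj.1 ∧ nj.2 < a ∧
      t ^ ((p * e0 - nj.1) * p ^ nj.2) = s} ≤ 1 := by
  subst he0 ha
  rw [natCard_subtype_eq]
  exact ncard_pairSet_I_le_one' hp2 ht hx' hdet hy hs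

/-- **(SA)(η)** in the `Nat.card` form of `CntStatement`. -/
theorem natCard_I_eta (hp2 : p ≠ 2) {e0 a : ℕ} (he0 : e0 = p + 1) (ha : a = 2) {t s : k}
    (ht : IsPrimitiveRoot t (p ^ 2 - 1)) (hs : s = t ^ (p + 1)) :
    Nat.card {nj : ℕ × ℕ // 1 ≤ nj.1 ∧ nj.1 ≤ e0 ∧ ¬ p ∣ nj.1 ∧ nj.2 < a ∧
      t ^ ((p * e0 - nj.1) * p ^ nj.2) = s} = 0 := by
  subst he0 ha hs
  rw [natCard_subtype_eq]
  exact ncard_pairSet_I_eta hp2 ht

/-- **(SA)(I)** in the `Set.ncard` form of `CntAbs.cntAbs`. -/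
theorem ncard_I_le_one (hp2 : p ≠ 2) {e0 a : ℕ} (he0 : e0 = p + 1) (ha : a = 2) {t s x : k}
    (ht : IsPrimitiveRoot t (p ^ 2 - 1)) (hdet : x ^ (p + 1) = t ^ (p + 1))
    (hs : s * x ^ (p - 1) = t ^ (p + 1)) :
    Set.ncard {nj : ℕ × ℕ | 1 ≤ nj.1 ∧ nj.1 ≤ e0 ∧ ¬ p ∣ nj.1 ∧ nj.2 < a ∧
      t ^ ((p * e0 - nj.1) * p ^ nj.2) = s} ≤ 1 := by
  subst he0 ha
  exact ncard_pairSet_I_le_one hp2 ht hdet hs

/-- **(SA)(η)** in the `Set.ncard` form of `CntAbs.cntAbs`. -/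
theorem ncard_I_eta (hp2 : p ≠ 2) {e0 a : ℕ} (he0 : e0 = p + 1) (ha : a = 2) {t s : k}
    (ht : IsPrimitiveRoot t (p ^ 2 - 1)) (hs : s = t ^ (p + 1)) :
    Set.ncard {nj : ℕ × ℕ | 1 ≤ nj.1 ∧ nj.1 ≤ e0 ∧ ¬ p ∣ nj.1 ∧ nj.2 < a ∧
      t ^ ((p * e0 - nj.1) * p ^ nj.2) = s} = 0 := by
  subst he0 ha hs
  exact ncard_pairSet_I_eta hp2 ht

end Induced

end Fermat.Agent.S56.Flat.ShapeArith
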