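import Mathlib
import Fermat.Agent.S56.Flat.Top
import Fermat.Agent.S56.Flat.CntFin
import Fermat.Agent.S56.Flat.LF5.LevelStatementExit
import Fermat.Agent.S56.LF.ShapeFinal
import Fermat.Agent.S56.LF.TopRTwin

/-!
# S56, brick LF: the top assembly against the rows still open

(helper168, LF architect.)  `LFTopStatement` from the row Props that are not yet theorems:
`LRStatement`, `CntFinStatement`, `FlatRigidStatement` (for the triangular shape) and
`TIStatement` (the induced shape).  Shape (`ShapeFinal.shapeStatement`), the level statement
(`LevelStatementExit.levelStatement`) and the triangular assembly (`TopRTwin.tr_of`) are theorems.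
-/

set_option autoImplicit false

namespace Fermat.Agent.S56.Flat.TopAsm

/-- **LF-top from the open rows.** -/
theorem lfTop_of_rows (hLR : LRStatement) (hCnt : CntFinStatement) (hFR : FlatRigidStatement)
    (hTI : TIStatement) : LFTopStatement :=
  lfTop_of_shape Fermat.Agent.S56.LF.ShapeFinal.shapeStatement
    (Fermat.Agent.S56.LF.TopRTwin.tr_of hLR hCnt
      Fermat.Agent.S56.Flat.LF5.LevelStatementExit.levelStatement hFR) hTI

end Fermat.Agent.S56.Flat.TopAsm
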