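import Fermat.Agent.S56.Flat.CntAbsRel
import Fermat.Agent.S56.Flat.LocalBricks

/-!
# S56 / LF row C4b: `CntAbsStatement` of `Flat/LocalBricks.lean`, verbatim

One-line adapter from `CntAbs.card_le_rel_smul` (`Flat/CntAbsRel.lean`).
-/

set_option autoImplicit false

namespace Fermat.Agent.S56.Flat.CntAbs

/-- **Row C4b (`CNT-abs`) of the LF contract, verbatim.** -/
theorem cntAbsStatement : Fermat.Agent.S56.Flat.CntAbsStatement := by
  intro p _ _ O _ _ _ _ _ D _ _ k _ _ _ F _ _ a a' haa' hF ι ι' ϖ hϖ e0 υ _ hpe ζ hζ ξ τ0 φ t z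
    hτ0 hφ hz hτ0ϖ T hT hinj
  exact card_le_rel_smul a a' haa' hF ι ι' hϖ hpe hζ ξ τ0 φ t z hτ0 hφ hz hτ0ϖ T hT hinj

end Fermat.Agent.S56.Flat.CntAbs
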