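import Mathlib
import Fermat.Agent.S56.Flat.TopAsm
import Fermat.Agent.S56.LF.TameFieldR
import Fermat.Agent.S56.LF.LGKeyTwinExit
import Fermat.Agent.S56.LF.LGWildExit
import Fermat.Agent.S56.LF.LGFrobTwin
import Fermat.Agent.S56.LF.CntFieldExit
import Fermat.Agent.S56.LF.FlatRigidExit
import Fermat.Agent.S56.LF.TameFieldI
import Fermat.Agent.S56.LF.TameIField

/-!
# S56, brick LF: the closers of `LRStatement`, `TRStatement`, `LIStatement`

(helper168, LF architect.)  The junction of the independently landed exits:

* `lrStatement : LRStatement`  (`TameFieldR.lrStatement` + LGKey + LGWild);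
* `trStatement : TRStatement`  (`TopRTwin.tr_of` + LR + CntFin + Level + FlatRigid);
* `liStatement : LIStatement`  (`TameFieldI.liStatement_of_field` + LGWild + LGFrob + the
  inertia fact of `InertiaUr` + `TameIField.field_exit`);
* `lfTop_of_ti : TIStatement → LFTopStatement`.
-/

set_option autoImplicit false

namespace Fermat.Agent.S56.Flat.FinalPre

open Fermat.Agent.S56.LF

theorem lrStatement : LRStatement :=
  TameFieldR.lrStatement LGKeyTwinExit.lgKeyStatement LGWildExit.lgWildStatement

theorem trStatement : TRStatement :=
  TopRTwin.tr_of lrStatement CntFieldExit.cntFinStatement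
    Fermat.Agent.S56.Flat.LF5.LevelStatementExit.levelStatement FlatRigidExit.flatRigidStatement

theorem lfTop_of_ti (hTI : TIStatement) : LFTopStatement :=
  lfTop_of_shape ShapeFinal.shapeStatement trStatement hTI

theorem liStatement : LIStatement :=
  TameFieldI.liStatement_of_field LGWildExit.lgWildStatement LGFrobTwin.lgFrobStatement
    (fun p _ _ => InertiaUr.exists_eq_mul_of_norm_fixed p)
    (fun p _ _ ζ hζ => TameIField.field_exit hζ)

end Fermat.Agent.S56.Flat.FinalPre
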