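import Mathlib
import Fermat.Agent.S56.Flat.FinalPre
import Fermat.Agent.S56.LF.TopInducedSeam
import Fermat.Agent.S56.LF.IndCount

/-!
# S56, brick LF: `LFTopStatement` (the flat local bound), unconditionally

(helper168, LF architect.)  `Flat.lfTop_of_shape` applied to Shape, TR and TI:

* `gammaCountSeam` : the count seam of the induced shape (`IndCount.gamma_count` at
  `CntFieldExit.cntFinStatement`);
* `tiStatement : TIStatement` (`TopInducedSeam.ti_of_count`);
* `lfTopStatement : LFTopStatement`.
-/

set_option autoImplicit false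

namespace Fermat.Agent.S56.Flat.Final

open Fermat.Agent.S56.LF

/-- The count seam of the induced shape. -/
theorem gammaCountSeam : TopInduced.GammaCountSeam :=
  fun p _ hp2 k _ _ _ K _ hF0K hKst ζ hζ hζK ϖ z hϖK hϖ1 hmax hpe hzF0 hz τ0 φ hτ0 hτ0I hτ0ϖ hω
      hφ hφK A D χ hA hAD hχ hDA hAD' hne =>
    IndCount.gamma_count CntFieldExit.cntFinStatement hp2 k K hF0K hKst ζ hζ hζK ϖ z hϖK hϖ1 hmax
      hpe hzF0 hz τ0 φ hτ0 hτ0I hτ0ϖ hω hφ hφK A D χ hA hAD hχ hDA hAD' hne

/-- **T(I)**: the flat local bound for the induced shape. -/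
theorem tiStatement : TIStatement :=
  TopInducedSeam.ti_of_count FinalPre.liStatement
    Fermat.Agent.S56.Flat.LF5.LevelStatementExit.levelStatement gammaCountSeam

/-- **LF-top: the flat local bound.** -/
theorem lfTopStatement : LFTopStatement :=
  FinalPre.lfTop_of_ti tiStatement

end Fermat.Agent.S56.Flat.Final
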