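import Mathlib
import Fermat.Agent.S56.Flat.AlgBricks

/-!
# S56 / brick LF, row C1 (LF6a, "SemiCount")  [helper101]

The one finite-field lemma behind the eigen-count of the flat local bound.  Exit of record:
`semiCountStatement : Fermat.Agent.S56.Flat.SemiCountStatement` (the `Prop` of `Flat/AlgBricks.lean`),
an adapter from the general forms `card_semiLinear_le` / `card_semiLinear_le'` below.

For finite fields `k`, `κ` of characteristic `p`, both algebras over a field `κ0` with `p ^ a`
elements, the additive maps `h : k → κ` with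

* `h (s * x) = t * h x`                 (`t : κ0`, through `κ0 → κ`) and
* `h (s' * x) = c0 * (h x) ^ (p ^ a)`   (`s' ≠ 0`)

number at most `|k| ^ #{j < a | (t : k) ^ (p ^ j) = s}`.

Proof: over `Ω := AlgebraicClosure κ` every additive map `k → Ω` is uniquely a linearised
polynomial `∑ i, c i * E x ^ (p ^ i)` (`i` modulo `d`, `|k| = p ^ d`, `E : k → Ω` a `κ0`-embedding):
Dedekind independence of characters plus a dimension count.  The first relation kills the
coefficients outside an `a`-periodic set of indices, the second one determines `c (i + a)` from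
`c i`, and going once around `ZMod d` gives a closing equation `c i = C * c i ^ (p ^ d)` with at most
`p ^ d = |k|` solutions.
-/

set_option autoImplicit false

namespace Fermat.Agent.S56.Flat.SemiCount

open Polynomial

section Repr

variable {k Ω : Type*} [Field k] [Field Ω] (p : ℕ) (E : k →+* Ω) {d : ℕ}

/-- On a field with `p ^ d` elements, `x ^ p ^ n` only depends on `n` modulo `d`. -/
theorem pow_pow_mod [Fintype k] (hd : Fintype.card k = p ^ d) (x : k) (n : ℕ) :
    x ^ p ^ n = x ^ p ^ (n % d) := by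
  have h1 : ∀ q : ℕ, ∀ y : k, y ^ p ^ (d * q) = y := by
    intro q
    induction q with
    | zero => intro y; simp
    | succ q ih =>
      intro y
      rw [Nat.mul_succ, pow_add, pow_mul, ih, ← hd, FiniteField.pow_card]
  conv_lhs => rw [← Nat.mod_add_div n d, pow_add, pow_mul, h1]

/-- `x ↦ x ^ p ^ n` is injective on a field of characteristic `p`. -/
theorem pow_char_pow_inj [Fact p.Prime] [CharP Ω p] (n : ℕ) {x y : Ω}
    (h : x ^ p ^ n = y ^ p ^ n) : x = y := by
  have h1 : (x - y) ^ p ^ n = 0 := by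
    rw [sub_pow_char_pow, h, sub_self]
  exact sub_eq_zero.mp
    ((pow_eq_zero_iff (pow_ne_zero n (Fact.out : p.Prime).ne_zero)).mp h1)

/-- The `i`-th Frobenius twist of `E`, as a monoid homomorphism. -/
def twist (i : ℕ) : k →* Ω where
  toFun x := E x ^ p ^ i
  map_one' := by simp
  map_mul' x y := by simp [mul_pow]

@[simp] theorem twist_apply (i : ℕ) (x : k) : twist p E i x = E x ^ p ^ i := rfl

/-- The `i`-th Frobenius twist of `E`, as an additive homomorphism. -/
def twistAdd [Fact p.Prime] [CharP Ω p] (i : ℕ) : k →+ Ω where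
  toFun x := E x ^ p ^ i
  map_zero' := by simp [(Fact.out : p.Prime).ne_zero]
  map_add' x y := by
    rw [map_add, add_pow_char_pow]

@[simp] theorem twistAdd_apply [Fact p.Prime] [CharP Ω p] (i : ℕ) (x : k) :
    twistAdd p E i x = E x ^ p ^ i := rfl

theorem twist_inj [Fintype k] [Fact p.Prime] [CharP Ω p] (hd : Fintype.card k = p ^ d)
    {i j : ℕ} (hi : i < d) (hj : j < d) (h : twist p E i = twist p E j) : i = j := by
  have hp : p.Prime := Fact.out
  wlog hij : i ≤ j generalizing i j
  · exact (this hj hi h.symm (le_of_not_ge hij)).symm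
  by_contra hne
  have hlt : i < j := lt_of_le_of_ne hij hne
  obtain ⟨m, rfl⟩ : ∃ m, j = m + i := ⟨j - i, by omega⟩
  have hm0 : m ≠ 0 := by omega
  have hmd : m < d := by omega
  have key : ∀ x : k, x ^ p ^ m = x := by
    intro x
    have h1 : E x ^ p ^ i = E x ^ p ^ (m + i) := by
      have := congrArg (fun f : k →* Ω => f x) h
      simpa using this
    rw [pow_add, pow_mul] at h1
    have h3 : E x = E x ^ p ^ m := pow_char_pow_inj p i h1
    have h4 : E x = E (x ^ p ^ m) := by rw [map_pow]; exact h3
    exact (E.injective h4).symm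
  have hp1 : 1 < p ^ m := Nat.one_lt_pow hm0 hp.one_lt
  have hne0 : (X ^ p ^ m - X : k[X]) ≠ 0 := FiniteField.X_pow_card_sub_X_ne_zero k hp1
  have hdeg : (X ^ p ^ m - X : k[X]).natDegree = p ^ m :=
    FiniteField.X_pow_card_sub_X_natDegree_eq k hp1
  have hz : (X ^ p ^ m - X : k[X]) = 0 := by
    apply Polynomial.eq_zero_of_natDegree_lt_card_of_eval_eq_zero _ (f := id)
      Function.injective_id
    · intro x
      simp [key x]
    · rw [hdeg, hd]
      exact Nat.pow_lt_pow_right hp.one_lt hmd
  exact hne0 hz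

variable [Fintype k] [Fact p.Prime] [CharP Ω p]

/-- Uniqueness of the linearised-polynomial representation (Dedekind). -/
theorem repr_unique [NeZero d] (hd : Fintype.card k = p ^ d) (c : ZMod d → Ω)
    (hc : ∀ x, ∑ i, c i * E x ^ p ^ i.val = 0) : c = 0 := by
  have hinj : Function.Injective (fun i : ZMod d => twist p E i.val) := by
    intro i j hij
    exact ZMod.val_injective d (twist_inj p E hd (ZMod.val_lt i) (ZMod.val_lt j) hij)
  have hli := (linearIndependent_monoidHom k Ω).comp _ hinj
  rw [Fintype.linearIndependent_iff] at hli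
  funext i
  apply hli c
  funext x
  simpa using hc x

/-- Existence of the linearised-polynomial representation (dimension count). -/
theorem exists_repr [CharP k p] [NeZero d] (hd : Fintype.card k = p ^ d) (H : k →+ Ω) :
    ∃ c : ZMod d → Ω, ∀ x, H x = ∑ i, c i * E x ^ p ^ i.val := by
  classical
  have hp : p.Prime := Fact.out
  let _ : Algebra (ZMod p) k := ZMod.algebra k p
  let _ : Algebra (ZMod p) Ω := ZMod.algebra Ω p
  have hfin : Module.finrank (ZMod p) k = d := by
    have h1 := Module.card_eq_pow_finrank (K := ZMod p) (V := k)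
    rw [ZMod.card, hd] at h1
    exact (Nat.pow_right_injective hp.two_le h1).symm
  have hV : Module.finrank Ω (k →ₗ[ZMod p] Ω) = d := by
    rw [Module.finrank_linearMap_self, hfin]
  let ψ : ZMod d → (k →ₗ[ZMod p] Ω) := fun i => (twistAdd p E i.val).toZModLinearMap p
  have hinj : Function.Injective (fun i : ZMod d => twist p E i.val) := by
    intro i j hij
    exact ZMod.val_injective d (twist_inj p E hd (ZMod.val_lt i) (ZMod.val_lt j) hij)
  have hli : LinearIndependent Ω ψ := by
    have h0 := (linearIndependent_monoidHom k Ω).comp _ hinj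
    exact LinearIndependent.of_comp (LinearMap.ltoFun (ZMod p) k Ω Ω) h0
  have hspan : Submodule.span Ω (Set.range ψ) = ⊤ := by
    apply hli.span_eq_top_of_card_eq_finrank'
    rw [ZMod.card, hV]
  have hmem : H.toZModLinearMap p ∈ Submodule.span Ω (Set.range ψ) := by
    rw [hspan]; trivial
  obtain ⟨c, hc⟩ := (Submodule.mem_span_range_iff_exists_fun Ω).mp hmem
  refine ⟨c, fun x => ?_⟩
  have h2 := congrArg (fun f : k →ₗ[ZMod p] Ω => f x) hc
  simp only [LinearMap.sum_apply, LinearMap.smul_apply, smul_eq_mul] at h2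
  exact h2.symm

end Repr

section Roots

variable {Ω : Type*} [Field Ω]

theorem roots_aux (C : Ω) {n : ℕ} (hn : 1 < n) :
    Finite {y : Ω // y = C * y ^ n} ∧ Nat.card {y : Ω // y = C * y ^ n} ≤ n := by
  classical
  set P : Polynomial Ω := Polynomial.C C * X ^ n - X with hP
  have hP0 : P ≠ 0 := by
    intro h
    have h1 := congrArg (fun q : Polynomial Ω => q.coeff 1) h
    simp only [hP, coeff_sub, coeff_C_mul, coeff_X_pow, coeff_X_one, coeff_zero] at h1
    rw [if_neg (by omega)] at h1
    simp at h1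
  have hdeg : P.natDegree ≤ n := by
    refine (natDegree_sub_le _ _).trans ?_
    rw [max_le_iff]
    constructor
    · exact (natDegree_C_mul_le _ _).trans (natDegree_X_pow_le n)
    · rw [natDegree_X]; omega
  have hsub : ∀ y : {y : Ω // y = C * y ^ n}, y.1 ∈ P.roots.toFinset := by
    intro y
    rw [Multiset.mem_toFinset, mem_roots hP0]
    simp only [hP, IsRoot.def, eval_sub, eval_mul, eval_C, eval_pow, eval_X]
    exact sub_eq_zero.mpr y.2.symm
  let f : {y : Ω // y = C * y ^ n} → P.roots.toFinset := fun y => ⟨y.1, hsub y⟩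
  have hf : Function.Injective f := by
    intro y z h
    exact Subtype.ext (congrArg (fun w : P.roots.toFinset => (w : Ω)) h)
  have hfinite : Finite {y : Ω // y = C * y ^ n} := Finite.of_injective f hf
  refine ⟨hfinite, ?_⟩
  have h1 := Nat.card_le_card_of_injective f hf
  have h0 : Nat.card (P.roots.toFinset) = P.roots.toFinset.card := by
    rw [Nat.card_eq_fintype_card, Fintype.card_coe]
  rw [h0] at h1
  exact h1.trans ((Multiset.toFinset_card_le _).trans ((card_roots' P).trans hdeg))

end Roots

section Main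

variable {κ0 k κ : Type*} [Field κ0] [Field k] [Field κ] [Finite k] [Finite κ]
  [Algebra κ0 k] [Algebra κ0 κ]

/-- **SemiCount (LF6a), cardinality form.**  `κ0` a field with `p ^ a` elements, `k` and `κ`
finite `κ0`-algebras that are fields.  The additive maps `h : k → κ` which are `(s, t)`-semilinear
(`h (s * x) = t * h x`, `t : κ0`) and `(s', c0)`-Frobenius-semilinear
(`h (s' * x) = c0 * h x ^ p ^ a`, `s' ≠ 0`) number at most `|k| ^ #{j < a | t ^ p ^ j = s}`. -/
theorem card_semiLinear_le [DecidableEq k] (p : ℕ) [Fact p.Prime] [CharP κ0 p] (a : ℕ)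
    (hκ0 : Nat.card κ0 = p ^ a) (s s' : k) (hs' : s' ≠ 0) (t : κ0) (c0 : κ) :
    Nat.card {h : k →+ κ // (∀ x, h (s * x) = algebraMap κ0 κ t * h x) ∧
        (∀ x, h (s' * x) = c0 * h x ^ (p ^ a))} ≤
      Nat.card k ^ ((Finset.range a).filter (fun j => algebraMap κ0 k t ^ (p ^ j) = s)).card := by
  have hp : p.Prime := Fact.out
  have : Fintype k := Fintype.ofFinite k
  have : Finite κ0 := Nat.finite_of_card_ne_zero (by rw [hκ0]; exact pow_ne_zero _ hp.ne_zero)
  have : CharP k p := charP_of_injective_algebraMap (algebraMap κ0 k).injective p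
  have : CharP κ p := charP_of_injective_algebraMap (algebraMap κ0 κ).injective p
  let Ω := AlgebraicClosure κ
  have : CharP Ω p := charP_of_injective_algebraMap (algebraMap κ Ω).injective p
  have : ExpChar Ω p := ExpChar.prime hp
  have : Algebra.IsAlgebraic κ0 k := Algebra.IsAlgebraic.of_finite κ0 k
  let E₀ : k →ₐ[κ0] Ω := IsAlgClosed.lift
  let E : k →+* Ω := E₀.toRingHom
  have hEι : ∀ u : κ0, E (algebraMap κ0 k u) = algebraMap κ Ω (algebraMap κ0 κ u) := by
    intro u
    have h1 := E₀.commutes u
    rw [IsScalarTower.algebraMap_apply κ0 κ Ω] at h1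
    exact h1
  -- the cardinality of `k`
  obtain ⟨d', -, hd'⟩ := FiniteField.card k p
  obtain ⟨d, hdd⟩ : ∃ d : ℕ, d = (d' : ℕ) := ⟨_, rfl⟩
  have hd : Fintype.card k = p ^ d := by rw [hdd]; exact hd'
  have hd0 : 0 < d := by rw [hdd]; exact d'.pos
  have : NeZero d := ⟨hd0.ne'⟩
  have had : a ∣ d := by
    have h1 := Module.natCard_eq_pow_finrank (K := κ0) (V := k)
    rw [Nat.card_eq_fintype_card, hd, hκ0, ← pow_mul] at h1
    exact ⟨_, Nat.pow_right_injective hp.two_le h1⟩
  have ha0 : 0 < a := by
    rcases Nat.eq_zero_or_pos a with h | h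
    · exfalso
      rw [h, pow_zero] at hκ0
      have h2 := Finite.one_lt_card (α := κ0)
      omega
    · exact h
  have hEs' : E s' ≠ 0 := (map_ne_zero E).mpr hs'
  -- coefficients
  have hrep : ∀ h : {h : k →+ κ // (∀ x, h (s * x) = algebraMap κ0 κ t * h x) ∧
      (∀ x, h (s' * x) = c0 * h x ^ (p ^ a))},
      ∃ c : ZMod d → Ω, ∀ x, algebraMap κ Ω (h.1 x) = ∑ i, c i * E x ^ p ^ i.val := by
    intro h
    exact exists_repr p E hd ((algebraMap κ Ω : κ →+* Ω).toAddMonoidHom.comp h.1)
  choose coef hcoef using hrep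
  -- first relation
  have rel1 : ∀ h (i : ZMod d),
      coef h i * (E s ^ p ^ i.val - algebraMap κ Ω (algebraMap κ0 κ t)) = 0 := by
    intro h i
    have hz : (fun i : ZMod d =>
        coef h i * (E s ^ p ^ i.val - algebraMap κ Ω (algebraMap κ0 κ t))) = 0 := by
      apply repr_unique p E hd
      intro x
      have e1 : algebraMap κ Ω (h.1 (s * x))
          = algebraMap κ Ω (algebraMap κ0 κ t) * algebraMap κ Ω (h.1 x) := by
        rw [h.2.1 x, map_mul]
      rw [hcoef h (s * x), hcoef h x, Finset.mul_sum, ← sub_eq_zero,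
        ← Finset.sum_sub_distrib] at e1
      rw [← e1]
      apply Finset.sum_congr rfl
      intro i _
      rw [map_mul, mul_pow]
      ring
    exact congrFun hz i
  -- second relation
  have rel2 : ∀ h (i : ZMod d),
      coef h (i + (a : ZMod d)) * E s' ^ p ^ (i + (a : ZMod d)).val
        = algebraMap κ Ω c0 * coef h i ^ p ^ a := by
    intro h i
    have hz : (fun j : ZMod d => coef h j * E s' ^ p ^ j.val
        - algebraMap κ Ω c0 * coef h (j - (a : ZMod d)) ^ p ^ a) = 0 := by
      apply repr_unique p E hd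
      intro x
      have e1 : algebraMap κ Ω (h.1 (s' * x))
          = algebraMap κ Ω c0 * algebraMap κ Ω (h.1 x) ^ p ^ a := by
        rw [h.2.2 x, map_mul, map_pow]
      rw [hcoef h (s' * x), hcoef h x, sum_pow_char_pow] at e1
      have e2 : ∑ i : ZMod d, (coef h i * E x ^ p ^ i.val) ^ p ^ a
          = ∑ j : ZMod d, coef h (j - (a : ZMod d)) ^ p ^ a * E x ^ p ^ j.val := by
        rw [← Equiv.sum_comp (Equiv.subRight (a : ZMod d))]
        apply Finset.sum_congr rfl
        intro j _
        simp only [Equiv.subRight_apply]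
        rw [mul_pow, ← pow_mul, ← pow_add]
        congr 1
        rw [← map_pow, ← map_pow, pow_pow_mod p hd x ((j - (a : ZMod d)).val + a),
          pow_pow_mod p hd x j.val]
        have h5 : (((j - (a : ZMod d)).val + a : ℕ) : ZMod d) = ((j.val : ℕ) : ZMod d) := by
          rw [Nat.cast_add, ZMod.natCast_zmod_val, ZMod.natCast_zmod_val, sub_add_cancel]
        rw [(ZMod.natCast_eq_natCast_iff' _ _ _).mp h5]
      calc ∑ j : ZMod d, (coef h j * E s' ^ p ^ j.val
              - algebraMap κ Ω c0 * coef h (j - (a : ZMod d)) ^ p ^ a) * E x ^ p ^ j.val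
          = ∑ j : ZMod d, coef h j * E (s' * x) ^ p ^ j.val
              - algebraMap κ Ω c0
                * ∑ j : ZMod d, coef h (j - (a : ZMod d)) ^ p ^ a * E x ^ p ^ j.val := by
            rw [Finset.mul_sum, ← Finset.sum_sub_distrib]
            apply Finset.sum_congr rfl
            intro j _
            rw [map_mul, mul_pow]
            ring
        _ = 0 := by rw [← e2, e1, sub_self]
    have h6 := congrFun hz (i + (a : ZMod d))
    simp only [Pi.zero_apply, add_sub_cancel_right] at h6
    exact sub_eq_zero.mp h6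
  -- support
  have supp : ∀ h (j : ℕ), ¬ (algebraMap κ0 k t ^ p ^ j = s) → coef h (-(j : ZMod d)) = 0 := by
    intro h j hj
    by_contra hne
    have h2 : E s ^ p ^ (-(j : ZMod d)).val = algebraMap κ Ω (algebraMap κ0 κ t) := by
      rcases mul_eq_zero.mp (rel1 h (-(j : ZMod d))) with h0 | h0
      · exact absurd h0 hne
      · exact sub_eq_zero.mp h0
    have h3 : s ^ p ^ (-(j : ZMod d)).val = algebraMap κ0 k t := by
      apply E.injective
      rw [map_pow, h2, hEι]
    apply hj
    rw [← h3, ← pow_mul, ← pow_add, pow_pow_mod p hd s]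
    have h5 : ((-(j : ZMod d)).val + j) % d = 0 := by
      have h6 : ((((-(j : ZMod d)).val + j : ℕ)) : ZMod d) = ((0 : ℕ) : ZMod d) := by
        rw [Nat.cast_add, ZMod.natCast_zmod_val]
        simp
      have h7 := (ZMod.natCast_eq_natCast_iff' _ _ _).mp h6
      simpa using h7
    rw [h5]
    simp
  -- determination
  have det : ∀ h1 h2, (∀ j : ℕ, j < a → algebraMap κ0 k t ^ p ^ j = s →
      coef h1 (-(j : ZMod d)) = coef h2 (-(j : ZMod d))) → h1 = h2 := by
    intro h1 h2 hΦ
    have Q : ∀ (n j : ℕ), j < a →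
        coef h1 (-(j : ZMod d) + (n : ZMod d) * (a : ZMod d))
          = coef h2 (-(j : ZMod d) + (n : ZMod d) * (a : ZMod d)) := by
      intro n
      induction n with
      | zero =>
        intro j hj
        simp only [Nat.cast_zero, zero_mul, add_zero]
        by_cases hc : algebraMap κ0 k t ^ p ^ j = s
        · exact hΦ j hj hc
        · rw [supp h1 j hc, supp h2 j hc]
      | succ n ih =>
        intro j hj
        have e : (-(j : ZMod d) + ((n + 1 : ℕ) : ZMod d) * (a : ZMod d))
            = (-(j : ZMod d) + (n : ZMod d) * (a : ZMod d)) + (a : ZMod d) := by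
          push_cast; ring
        rw [e]
        have r1 := rel2 h1 (-(j : ZMod d) + (n : ZMod d) * (a : ZMod d))
        have r2 := rel2 h2 (-(j : ZMod d) + (n : ZMod d) * (a : ZMod d))
        rw [ih j hj] at r1
        have hu : E s' ^ p ^ ((-(j : ZMod d) + (n : ZMod d) * (a : ZMod d))
            + (a : ZMod d)).val ≠ 0 := pow_ne_zero _ hEs'
        exact mul_right_cancel₀ hu (r1.trans r2.symm)
    have hall : ∀ i : ZMod d, coef h1 i = coef h2 i := by
      intro i
      obtain ⟨v, hv⟩ : ∃ v : ℕ, v = (-i).val := ⟨_, rfl⟩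
      have hvd : v < d := by rw [hv]; exact ZMod.val_lt _
      have hi : i = -(((v % a : ℕ)) : ZMod d) + (((d - v / a : ℕ)) : ZMod d) * (a : ZMod d) := by
        have g1 : ((v : ℕ) : ZMod d) = -i := by rw [hv]; exact ZMod.natCast_zmod_val (-i)
        have g2 : v / a ≤ d := (Nat.div_le_self v a).trans hvd.le
        have g3 : ((v : ℕ) : ZMod d)
            = ((v % a : ℕ) : ZMod d) + ((v / a : ℕ) : ZMod d) * (a : ZMod d) := by
          conv_lhs => rw [← Nat.mod_add_div v a]
          push_cast; ring
        rw [Nat.cast_sub g2, ZMod.natCast_self, zero_sub, neg_mul, ← neg_add, ← g3, g1, neg_neg]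
      rw [hi]
      exact Q _ _ (Nat.mod_lt _ ha0)
    apply Subtype.ext
    apply AddMonoidHom.ext
    intro x
    apply (algebraMap κ Ω).injective
    rw [hcoef h1 x, hcoef h2 x]
    exact Finset.sum_congr rfl (fun i _ => by rw [hall i])
  -- closing equation
  have closing : ∀ i : ZMod d, ∃ C : Ω, ∀ h, coef h i = C * coef h i ^ p ^ d := by
    intro i
    have step : ∀ n : ℕ, ∃ C : Ω, ∀ h,
        coef h (i + (n : ZMod d) * (a : ZMod d)) = C * coef h i ^ (p ^ a) ^ n := by
      intro n
      induction n with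
      | zero => exact ⟨1, fun h => by simp⟩
      | succ n ih =>
        obtain ⟨C, hC⟩ := ih
        have hu0 : E s' ^ p ^ ((i + (n : ZMod d) * (a : ZMod d)) + (a : ZMod d)).val ≠ 0 :=
          pow_ne_zero _ hEs'
        refine ⟨algebraMap κ Ω c0 * C ^ p ^ a
          / E s' ^ p ^ ((i + (n : ZMod d) * (a : ZMod d)) + (a : ZMod d)).val, fun h => ?_⟩
        have e : (i + ((n + 1 : ℕ) : ZMod d) * (a : ZMod d))
            = (i + (n : ZMod d) * (a : ZMod d)) + (a : ZMod d) := by
          push_cast; ring
        rw [e]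
        have r := rel2 h (i + (n : ZMod d) * (a : ZMod d))
        rw [hC h] at r
        rw [div_mul_eq_mul_div, eq_div_iff hu0, r, mul_pow, ← pow_mul, ← pow_succ]
        ring
    obtain ⟨C, hC⟩ := step (d / a)
    refine ⟨C, fun h => ?_⟩
    have h1 := hC h
    have e1 : ((d / a : ℕ) : ZMod d) * (a : ZMod d) = 0 := by
      rw [← Nat.cast_mul, Nat.div_mul_cancel had, ZMod.natCast_self]
    rw [e1, add_zero, ← pow_mul, Nat.mul_div_cancel' had] at h1
    exact h1
  choose C hC using closing
  -- the count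
  have hp1 : 1 < p ^ d := Nat.one_lt_pow hd0.ne' hp.one_lt
  have hZfin : ∀ j : {j // j ∈ (Finset.range a).filter
      (fun j => algebraMap κ0 k t ^ (p ^ j) = s)},
      Finite {y : Ω // y = C (-((j : ℕ) : ZMod d)) * y ^ p ^ d} :=
    fun j => (roots_aux _ hp1).1
  let Φ : {h : k →+ κ // (∀ x, h (s * x) = algebraMap κ0 κ t * h x) ∧
      (∀ x, h (s' * x) = c0 * h x ^ (p ^ a))} →
      (∀ j : {j // j ∈ (Finset.range a).filter (fun j => algebraMap κ0 k t ^ (p ^ j) = s)},
        {y : Ω // y = C (-((j : ℕ) : ZMod d)) * y ^ p ^ d}) :=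
    fun h j => ⟨coef h (-((j : ℕ) : ZMod d)), hC _ h⟩
  have hΦ : Function.Injective Φ := by
    intro h1 h2 h12
    apply det
    intro j hj hc
    have hjm : j ∈ (Finset.range a).filter (fun j => algebraMap κ0 k t ^ (p ^ j) = s) :=
      Finset.mem_filter.mpr ⟨Finset.mem_range.mpr hj, hc⟩
    have h3 := congrFun h12 ⟨j, hjm⟩
    exact congrArg Subtype.val h3
  calc Nat.card {h : k →+ κ // (∀ x, h (s * x) = algebraMap κ0 κ t * h x) ∧
        (∀ x, h (s' * x) = c0 * h x ^ (p ^ a))}
      ≤ Nat.card (∀ j : {j // j ∈ (Finset.range a).filter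
          (fun j => algebraMap κ0 k t ^ (p ^ j) = s)},
          {y : Ω // y = C (-((j : ℕ) : ZMod d)) * y ^ p ^ d}) :=
        Nat.card_le_card_of_injective Φ hΦ
    _ = ∏ j : {j // j ∈ (Finset.range a).filter (fun j => algebraMap κ0 k t ^ (p ^ j) = s)},
          Nat.card {y : Ω // y = C (-((j : ℕ) : ZMod d)) * y ^ p ^ d} := Nat.card_pi
    _ ≤ ∏ _j : {j // j ∈ (Finset.range a).filter (fun j => algebraMap κ0 k t ^ (p ^ j) = s)},
          p ^ d :=
        Finset.prod_le_prod (fun _ _ => Nat.zero_le _) (fun j _ => (roots_aux _ hp1).2)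
    _ = Nat.card k ^ ((Finset.range a).filter
          (fun j => algebraMap κ0 k t ^ (p ^ j) = s)).card := by
        rw [Finset.prod_const, Finset.card_univ, Fintype.card_coe, Nat.card_eq_fintype_card, hd]

/-- **SemiCount (LF6a)**, decidability-free form of the exponent. -/
theorem card_semiLinear_le' (p : ℕ) [Fact p.Prime] [CharP κ0 p] (a : ℕ)
    (hκ0 : Nat.card κ0 = p ^ a) (s s' : k) (hs' : s' ≠ 0) (t : κ0) (c0 : κ) :
    Nat.card {h : k →+ κ // (∀ x, h (s * x) = algebraMap κ0 κ t * h x) ∧
        (∀ x, h (s' * x) = c0 * h x ^ (p ^ a))} ≤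
      Nat.card k ^ Set.ncard {j : ℕ | j < a ∧ algebraMap κ0 k t ^ (p ^ j) = s} := by
  classical
  have h1 := card_semiLinear_le p a hκ0 s s' hs' t c0
  have h2 : {j : ℕ | j < a ∧ algebraMap κ0 k t ^ (p ^ j) = s}
      = ((Finset.range a).filter (fun j => algebraMap κ0 k t ^ (p ^ j) = s) : Set ℕ) := by
    ext j
    simp
  rw [h2, Set.ncard_coe_finset]
  exact h1

end Main

/-- **Row C1 of brick LF**: the `SemiCountStatement` of `Flat/AlgBricks.lean`, verbatim.
(The hypothesis `c0 ≠ 0` of the contract is not needed.) -/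
theorem semiCountStatement : Fermat.Agent.S56.Flat.SemiCountStatement := by
  intro p _ k κ F _ _ _ _ _ _ _ _ _ a hF ι ι' s s' t c0 hs' _
  let _ : Algebra F k := ι.toAlgebra
  let _ : Algebra F κ := ι'.toAlgebra
  have h1 := card_semiLinear_le' (κ0 := F) (k := k) (κ := κ) p a hF s s' hs' t c0
  have h2 : Nat.card {j : Fin a // ι t ^ (p ^ (j : ℕ)) = s}
      = Set.ncard {j : ℕ | j < a ∧ algebraMap F k t ^ (p ^ j) = s} := by
    rw [← Nat.card_coe_set_eq]
    exact Nat.card_congr
      { toFun := fun j => ⟨(j.1 : ℕ), j.1.2, j.2⟩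
        invFun := fun j => ⟨⟨j.1, j.2.1⟩, j.2.2⟩
        left_inv := fun _ => rfl
        right_inv := fun _ => rfl }
  rw [h2]
  exact h1

end Fermat.Agent.S56.Flat.SemiCount
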