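import Fermat.Agent.S56.LF.UnitPow
import Fermat.Agent.S56.Flat.SemiCount

/-!
# S56 / LF row C4b (`CNT-abs`): the filtered group `U^(e) / (U^(e) ∩ (Oˣ)^p)` with a group action

`O` a discrete valuation ring with uniformiser `ϖ`, `D` a group acting on `O` by ring
automorphisms (`act : D →* RingAut O`).  A *model* of `B = U^(e) / (U^(e) ∩ (Oˣ)^p)` is an additive
group `B` with a `D`-action and a surjective equivariant homomorphism `π : U^(e) → B` whose kernel is
the set of `p`-th powers of units.  For every model we construct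

* the filtration `Fil π l` = image of `U^(e+l)` (antitone, `D`-stable, `Fil π 0 = ⊤`,
  `Fil π N = ⊥` as soon as `U^(e+N)` consists of `p`-th powers);
* the graded maps `gr : Fil π l →+ κ`, `[1 + ϖ^(e+l) a] ↦ a mod 𝔪` (well defined as soon as a
  `p`-th power of exact level `e + l` does not exist), with `gr b = 0 → b ∈ Fil π (l+1)` and the
  twisted equivariance `gr (s • b) = θ(s)^(e+l) * s̄ (gr b)`, `θ(s) = (s ϖ / ϖ mod 𝔪)`;
* `Fil π l ≤ Fil π (l+1)` when every element of `U^(e+l)` is a `p`-th power modulo `U^(e+l+1)`;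
* for the top piece: `s • b = m • b` when `s u ≡ u^m` modulo `p`-th powers.

The hypotheses are exactly the statements of the generic unit-power file (LF row C2).
-/

set_option autoImplicit false

namespace Fermat.Agent.S56.Flat.CntAbs

open IsLocalRing Fermat.Agent.CFT.Local

section Aut

variable {O : Type*} [CommRing O] [IsLocalRing O]

/-- A ring automorphism of a local ring preserves every power of the maximal ideal. -/
lemma map_mem_maximalIdeal_pow (σ : O ≃+* O) (n : ℕ) {x : O} (hx : x ∈ maximalIdeal O ^ n) :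
    σ x ∈ maximalIdeal O ^ n := by
  have h1 : Ideal.map (σ : O →+* O) (maximalIdeal O) ≤ maximalIdeal O := by
    rw [Ideal.map_le_iff_le_comap]
    intro y hy
    rw [Ideal.mem_comap, mem_maximalIdeal, mem_nonunits_iff]
    rw [mem_maximalIdeal, mem_nonunits_iff] at hy
    intro h
    exact hy ((MulEquiv.isUnit_map (σ : O ≃* O)).mp h)
  have h2 : Ideal.map (σ : O →+* O) (maximalIdeal O ^ n) ≤ maximalIdeal O ^ n := by
    rw [Ideal.map_pow]
    exact Ideal.pow_right_mono h1 n
  exact h2 (Ideal.mem_map_of_mem _ hx)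

/-- A ring automorphism preserves the principal unit groups. -/
lemma unitsMap_mem (σ : O ≃+* O) {n : ℕ} {u : Oˣ} (hu : u ∈ principalUnits O n) :
    Units.map (σ : O →* O) u ∈ principalUnits O n := by
  rw [mem_principalUnits] at hu ⊢
  have h := map_mem_maximalIdeal_pow σ n hu
  rw [map_sub, map_one] at h
  exact h

/-- The action of a ring automorphism on the `n`-th principal unit group. -/
def actU (σ : O ≃+* O) (n : ℕ) : principalUnits O n →* principalUnits O n :=
  ((Units.map (σ : O →* O)).comp (principalUnits O n).subtype).codRestrict (principalUnits O n)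
    (fun u => unitsMap_mem σ u.2)

@[simp] lemma coe_actU (σ : O ≃+* O) (n : ℕ) (u : principalUnits O n) :
    (((actU σ n u : principalUnits O n) : Oˣ) : O) = σ ((u : Oˣ) : O) := rfl

lemma coe_actU' (σ : O ≃+* O) (n : ℕ) (u : principalUnits O n) :
    ((actU σ n u : principalUnits O n) : Oˣ) = Units.map (σ : O →* O) (u : Oˣ) := rfl

end Aut

section Ratio

variable {O : Type*} [CommRing O] [IsDomain O] [IsDiscreteValuationRing O]

omit [IsDomain O] [IsDiscreteValuationRing O] in
lemma irreducible_map {ϖ : O} (hϖ : Irreducible ϖ) (σ : O ≃+* O) : Irreducible (σ ϖ) :=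
  (MulEquiv.irreducible_iff (σ : O ≃* O)).mpr hϖ

/-- The unit `σ ϖ / ϖ`. -/
noncomputable def ratio {ϖ : O} (hϖ : Irreducible ϖ) (σ : O ≃+* O) : Oˣ :=
  Classical.choose
    (IsDiscreteValuationRing.associated_of_irreducible O hϖ (irreducible_map hϖ σ))

lemma ratio_spec {ϖ : O} (hϖ : Irreducible ϖ) (σ : O ≃+* O) :
    σ ϖ = ϖ * (ratio hϖ σ : O) :=
  (Classical.choose_spec
    (IsDiscreteValuationRing.associated_of_irreducible O hϖ (irreducible_map hϖ σ))).symm

lemma ratio_unique {ϖ : O} (hϖ : Irreducible ϖ) (σ : O ≃+* O) {t : O} (h : σ ϖ = ϖ * t) :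
    (ratio hϖ σ : O) = t := by
  have h1 := ratio_spec hϖ σ
  rw [h] at h1
  exact (mul_left_cancel₀ hϖ.ne_zero h1).symm

/-- The residue `θ(σ) = (σ ϖ / ϖ mod 𝔪)`. -/
noncomputable def theta {ϖ : O} (hϖ : Irreducible ϖ) (σ : O ≃+* O) : ResidueField O :=
  residue O (ratio hϖ σ : O)

lemma theta_eq {ϖ : O} (hϖ : Irreducible ϖ) (σ : O ≃+* O) {t : O} (h : σ ϖ = ϖ * t) :
    theta hϖ σ = residue O t := by
  rw [theta, ratio_unique hϖ σ h]

lemma theta_ne_zero {ϖ : O} (hϖ : Irreducible ϖ) (σ : O ≃+* O) : theta hϖ σ ≠ 0 := by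
  rw [theta, Ne, residue_eq_zero_iff, mem_maximalIdeal, mem_nonunits_iff, not_not]
  exact (ratio hϖ σ).isUnit

lemma theta_mul {ϖ : O} (hϖ : Irreducible ϖ) (σ τ : RingAut O) :
    theta hϖ (σ * τ) = theta hϖ σ * ResidueField.mapAut σ (theta hϖ τ) := by
  have h : (σ * τ) ϖ = ϖ * ((ratio hϖ σ : O) * σ (ratio hϖ τ : O)) := by
    change σ (τ ϖ) = _
    rw [ratio_spec hϖ τ, map_mul, ratio_spec hϖ σ]
    ring
  rw [theta_eq hϖ (σ * τ) h, map_mul]
  rfl

lemma theta_one {ϖ : O} (hϖ : Irreducible ϖ) : theta hϖ (1 : RingAut O) = 1 := by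
  have h : (1 : RingAut O) ϖ = ϖ * 1 := by
    rw [mul_one]
    rfl
  rw [theta_eq hϖ (1 : RingAut O) h, map_one]

/-- The coordinate of `σ u` for `u ∈ U^(n)`. -/
lemma coord_actU {ϖ : O} (hϖ : Irreducible ϖ) (σ : O ≃+* O) (n : ℕ) (u : principalUnits O n) :
    coord hϖ n (actU σ n u) = (ratio hϖ σ : O) ^ n * σ (coord hϖ n u) := by
  apply coord_unique
  rw [coe_actU, coord_spec hϖ n u, map_add, map_one, map_mul, map_pow, ratio_spec hϖ σ]
  ring

lemma residue_coord_actU {ϖ : O} (hϖ : Irreducible ϖ) (σ : O ≃+* O) (n : ℕ)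
    (u : principalUnits O n) :
    residue O (coord hϖ n (actU σ n u)) =
      theta hϖ σ ^ n * ResidueField.mapAut σ (residue O (coord hϖ n u)) := by
  rw [coord_actU, map_mul, map_pow]
  rfl

end Ratio

section Model

variable {O : Type*} [CommRing O] [IsDomain O] [IsDiscreteValuationRing O]
variable {D : Type*} [Group D] (act : D →* RingAut O)
variable (p : ℕ) {e : ℕ}
variable {B : Type*} [AddCommGroup B] [DistribMulAction D B]

/-- `(B, π)` is a model of `U^(e) / (U^(e) ∩ (Oˣ)^p)` with its `D`-action. -/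
structure IsModel (π : principalUnits O e →* Multiplicative B) : Prop where
  surj : Function.Surjective π
  ker : ∀ u : principalUnits O e, π u = 1 ↔ ∃ y : Oˣ, y ^ p = (u : Oˣ)
  equiv : ∀ (s : D) (u : principalUnits O e),
    π (actU (act s) e u) = Multiplicative.ofAdd (s • Multiplicative.toAdd (π u))

/-- The image of `U^(e+l)` in a model. -/
def Fil (π : principalUnits O e →* Multiplicative B) (l : ℕ) : AddSubgroup B where
  carrier := {b | ∃ u : principalUnits O e, (u : Oˣ) ∈ principalUnits O (e + l) ∧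
    π u = Multiplicative.ofAdd b}
  zero_mem' := ⟨1, one_mem _, by simp⟩
  add_mem' := by
    rintro a b ⟨u, hu, hua⟩ ⟨v, hv, hvb⟩
    exact ⟨u * v, mul_mem hu hv, by rw [map_mul, hua, hvb, ofAdd_add]⟩
  neg_mem' := by
    rintro a ⟨u, hu, hua⟩
    exact ⟨u⁻¹, inv_mem hu, by rw [map_inv, hua, ofAdd_neg]⟩

variable {π : principalUnits O e →* Multiplicative B}

lemma mem_Fil {l : ℕ} {b : B} :
    b ∈ Fil π l ↔ ∃ u : principalUnits O e, (u : Oˣ) ∈ principalUnits O (e + l) ∧
      π u = Multiplicative.ofAdd b := Iff.rfl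

lemma Fil_zero (h : Function.Surjective π) : Fil π 0 = ⊤ := by
  ext b
  simp only [mem_Fil, AddSubgroup.mem_top, iff_true]
  obtain ⟨u, hu⟩ := h (Multiplicative.ofAdd b)
  exact ⟨u, u.2, hu⟩

lemma Fil_antitone : Antitone (Fil π) := by
  rintro l l' h b ⟨u, hu, hub⟩
  exact ⟨u, principalUnits_le O (by omega) hu, hub⟩

variable {act p}

lemma smul_mem_Fil (hm : IsModel act p π) (s : D) {l : ℕ} {b : B} (hb : b ∈ Fil π l) :
    s • b ∈ Fil π l := by
  obtain ⟨u, hu, hub⟩ := hb
  refine ⟨actU (act s) e u, unitsMap_mem (act s) hu, ?_⟩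
  rw [hm.equiv, hub]
  rfl

/-- The filtration stops where the principal units become `p`-th powers. -/
lemma Fil_eq_bot (hm : IsModel act p π) {N : ℕ}
    (hroot : ∀ u : Oˣ, u ∈ principalUnits O (e + N) → ∃ y : Oˣ, y ^ p = u) : Fil π N = ⊥ := by
  rw [eq_bot_iff]
  rintro b ⟨u, hu, hub⟩
  have h1 := (hm.ker u).mpr (hroot u hu)
  rw [h1] at hub
  rw [AddSubgroup.mem_bot]
  exact (Multiplicative.ofAdd.injective (hub.symm.trans rfl : Multiplicative.ofAdd b = Multiplicative.ofAdd 0))

/-- No jump at a level where every principal unit is a `p`-th power modulo the next level. -/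
lemma Fil_le_succ (hm : IsModel act p π) {l : ℕ}
    (hpow : ∀ u : Oˣ, u ∈ principalUnits O (e + l) →
      ∃ y : Oˣ, u * (y ^ p)⁻¹ ∈ principalUnits O (e + l + 1)) :
    Fil π l ≤ Fil π (l + 1) := by
  rintro b ⟨u, hu, hub⟩
  obtain ⟨y, hy⟩ := hpow u hu
  have hv : (u : Oˣ) * (y ^ p)⁻¹ ∈ principalUnits O e := principalUnits_le O (by omega) hy
  have hyp : y ^ p ∈ principalUnits O e := by
    have h1 := (principalUnits O e).mul_mem (inv_mem hv) u.2
    have h2 : ((u : Oˣ) * (y ^ p)⁻¹)⁻¹ * (u : Oˣ) = y ^ p := by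
      rw [mul_inv_rev, inv_inv, mul_assoc, inv_mul_cancel, mul_one]
    rwa [h2] at h1
  have h1 : π ⟨y ^ p, hyp⟩ = 1 := (hm.ker _).mpr ⟨y, rfl⟩
  have h2 : (⟨(u : Oˣ) * (y ^ p)⁻¹, hv⟩ : principalUnits O e) = u * (⟨y ^ p, hyp⟩)⁻¹ := rfl
  refine ⟨⟨_, hv⟩, hy, ?_⟩
  rw [h2, map_mul, map_inv, h1, inv_one, mul_one, hub]

/-- The hypothesis "there is no `p`-th power of exact level `e + l`". -/
def NoPow (O : Type*) [CommRing O] [IsLocalRing O] (p n : ℕ) : Prop :=
  ∀ y : Oˣ, y ^ p ∈ principalUnits O n → y ^ p ∈ principalUnits O (n + 1)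

variable {ϖ : O} (hϖ : Irreducible ϖ)

/-- Well-definedness of the graded coordinate on a model. -/
lemma residue_coord_eq_of_map_eq (hm : IsModel act p π) {l : ℕ} (hl : 1 ≤ e + l)
    (hlev : NoPow O p (e + l)) {u v : principalUnits O e}
    (hu : (u : Oˣ) ∈ principalUnits O (e + l)) (hv : (v : Oˣ) ∈ principalUnits O (e + l))
    (h : π u = π v) :
    residue O (coord hϖ (e + l) ⟨u, hu⟩) = residue O (coord hϖ (e + l) ⟨v, hv⟩) := by
  have h1 : π (u * v⁻¹) = 1 := by rw [map_mul, map_inv, h, mul_inv_cancel]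
  obtain ⟨y, hy⟩ := (hm.ker _).mp h1
  have h2 : ((u : Oˣ) * (v : Oˣ)⁻¹) ∈ principalUnits O (e + l) := mul_mem hu (inv_mem hv)
  have hy' : y ^ p = (u : Oˣ) * (v : Oˣ)⁻¹ := hy
  have h3 : (u : Oˣ) * (v : Oˣ)⁻¹ ∈ principalUnits O (e + l + 1) := by
    rw [← hy']
    exact hlev y (by rw [hy']; exact h2)
  have h4 : (⟨u, hu⟩ * ⟨v, hv⟩⁻¹ : principalUnits O (e + l)) ∈ (gradedHom hϖ (e + l) hl).ker := by
    rw [ker_gradedHom, Subgroup.mem_subgroupOf]
    exact h3
  have h5 := MonoidHom.mem_ker.mp h4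
  rw [map_mul, map_inv, mul_inv_eq_one, gradedHom_apply, gradedHom_apply] at h5
  exact Multiplicative.ofAdd.injective h5

/-- The graded coordinate as a plain function on the `l`-th step of the filtration. -/
noncomputable def grFun (π : principalUnits O e →* Multiplicative B) (l : ℕ) (b : Fil π l) :
    ResidueField O :=
  residue O (coord hϖ (e + l)
    ⟨(Classical.choose (mem_Fil.mp b.2) : principalUnits O e),
      (Classical.choose_spec (mem_Fil.mp b.2)).1⟩)

lemma grFun_eq (hm : IsModel act p π) {l : ℕ} (hl : 1 ≤ e + l) (hlev : NoPow O p (e + l))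
    (b : Fil π l) (u : principalUnits O e) (hu : (u : Oˣ) ∈ principalUnits O (e + l))
    (hub : π u = Multiplicative.ofAdd (b : B)) :
    grFun hϖ π l b = residue O (coord hϖ (e + l) ⟨u, hu⟩) := by
  rw [grFun]
  exact residue_coord_eq_of_map_eq hϖ hm hl hlev _ hu
    ((Classical.choose_spec (mem_Fil.mp b.2)).2.trans hub.symm)

/-- The graded map `Fil π l →+ κ`, `[1 + ϖ^(e+l) a] ↦ a mod 𝔪`. -/
noncomputable def gr (hm : IsModel act p π) (l : ℕ) (hl : 1 ≤ e + l)
    (hlev : NoPow O p (e + l)) : Fil π l →+ ResidueField O where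
  toFun := grFun hϖ π l
  map_zero' := by
    have h0 : ((1 : principalUnits O e) : Oˣ) ∈ principalUnits O (e + l) := one_mem _
    rw [grFun_eq hϖ hm hl hlev 0 1 h0 (by simp)]
    have h1 : coord hϖ (e + l) ⟨((1 : principalUnits O e) : Oˣ), h0⟩ = 0 := by
      apply coord_unique
      simp
    rw [h1, map_zero]
  map_add' := by
    intro a b
    obtain ⟨u, hu, hua⟩ := mem_Fil.mp a.2
    obtain ⟨v, hv, hvb⟩ := mem_Fil.mp b.2
    have huv : ((u * v : principalUnits O e) : Oˣ) ∈ principalUnits O (e + l) := mul_mem hu hv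
    rw [grFun_eq hϖ hm hl hlev a u hu hua, grFun_eq hϖ hm hl hlev b v hv hvb,
      grFun_eq hϖ hm hl hlev (a + b) (u * v) huv
        (by rw [map_mul, hua, hvb, AddSubgroup.coe_add, ofAdd_add])]
    have h1 := map_mul (gradedHom hϖ (e + l) hl) ⟨u, hu⟩ ⟨v, hv⟩
    rw [gradedHom_apply, gradedHom_apply, gradedHom_apply, ← ofAdd_add] at h1
    exact Multiplicative.ofAdd.injective h1

lemma gr_apply (hm : IsModel act p π) {l : ℕ} (hl : 1 ≤ e + l) (hlev : NoPow O p (e + l))
    (b : Fil π l) (u : principalUnits O e) (hu : (u : Oˣ) ∈ principalUnits O (e + l))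
    (hub : π u = Multiplicative.ofAdd (b : B)) :
    gr hϖ hm l hl hlev b = residue O (coord hϖ (e + l) ⟨u, hu⟩) :=
  grFun_eq hϖ hm hl hlev b u hu hub

/-- The kernel of the graded map lies in the next step. -/
lemma mem_Fil_succ_of_gr_eq_zero (hm : IsModel act p π) {l : ℕ} (hl : 1 ≤ e + l)
    (hlev : NoPow O p (e + l)) (b : Fil π l) (h : gr hϖ hm l hl hlev b = 0) :
    (b : B) ∈ Fil π (l + 1) := by
  obtain ⟨u, hu, hub⟩ := mem_Fil.mp b.2
  rw [gr_apply hϖ hm hl hlev b u hu hub] at h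
  have h1 : (⟨u, hu⟩ : principalUnits O (e + l)) ∈ (gradedHom hϖ (e + l) hl).ker := by
    rw [MonoidHom.mem_ker, gradedHom_apply, h]
    rfl
  rw [ker_gradedHom, Subgroup.mem_subgroupOf] at h1
  exact ⟨u, h1, hub⟩

/-- Twisted equivariance of the graded map. -/
lemma gr_smul (hm : IsModel act p π) {l : ℕ} (hl : 1 ≤ e + l) (hlev : NoPow O p (e + l))
    (s : D) (b : Fil π l) :
    gr hϖ hm l hl hlev ⟨s • (b : B), smul_mem_Fil hm s b.2⟩ =
      theta hϖ (act s) ^ (e + l) * ResidueField.mapAut (act s) (gr hϖ hm l hl hlev b) := by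
  obtain ⟨u, hu, hub⟩ := mem_Fil.mp b.2
  have hsu : ((actU (act s) e u : principalUnits O e) : Oˣ) ∈ principalUnits O (e + l) :=
    unitsMap_mem (act s) hu
  have hsub : π (actU (act s) e u) = Multiplicative.ofAdd (s • (b : B)) := by
    rw [hm.equiv, hub]
    rfl
  rw [gr_apply hϖ hm hl hlev ⟨s • (b : B), smul_mem_Fil hm s b.2⟩ _ hsu hsub,
    gr_apply hϖ hm hl hlev b u hu hub, ← residue_coord_actU hϖ (act s) (e + l) ⟨u, hu⟩]
  rfl

/-- On a step where `s` acts on units as `u ↦ u^m` modulo `p`-th powers, `s` acts on the step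
as multiplication by `m`. -/
lemma smul_eq_nsmul_of_mem_Fil (hm : IsModel act p π) {l : ℕ} {s : D} {m : ℕ}
    (hpow : ∀ u : Oˣ, u ∈ principalUnits O (e + l) →
      ∃ y : Oˣ, Units.map ((act s : O ≃+* O) : O →* O) u = u ^ m * y ^ p)
    {b : B} (hb : b ∈ Fil π l) : s • b = m • b := by
  obtain ⟨u, hu, hub⟩ := mem_Fil.mp hb
  obtain ⟨y, hy⟩ := hpow u hu
  have hyp : y ^ p ∈ principalUnits O e := by
    have h1 : y ^ p = ((u : Oˣ) ^ m)⁻¹ * Units.map ((act s : O ≃+* O) : O →* O) u := by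
      rw [hy, inv_mul_cancel_left]
    rw [h1]
    exact mul_mem (inv_mem (pow_mem u.2 m)) (unitsMap_mem (act s) u.2)
  have h1 : π ⟨y ^ p, hyp⟩ = 1 := (hm.ker _).mpr ⟨y, rfl⟩
  have h2 : actU (act s) e u = u ^ m * ⟨y ^ p, hyp⟩ := by
    apply Subtype.ext
    rw [coe_actU', hy]
    rfl
  have h3 := hm.equiv s u
  rw [h2, map_mul, map_pow, h1, mul_one, hub] at h3
  have h4 : Multiplicative.ofAdd b ^ m = Multiplicative.ofAdd (m • b) := (ofAdd_nsmul m b).symm
  rw [h4] at h3
  exact (Multiplicative.ofAdd.injective h3).symm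

/-- The cardinality of a step of the filtration is a relative index of the `p`-th powers. -/
lemma card_Fil (hm : IsModel act p π) (l : ℕ) :
    Nat.card (Fil π l) =
      (powMonoidHom p : Oˣ →* Oˣ).range.relIndex (principalUnits O (e + l)) := by
  have hle : principalUnits O (e + l) ≤ principalUnits O e := principalUnits_le O (by omega)
  let φ : principalUnits O (e + l) →* Multiplicative (Fil π l) :=
    { toFun := fun u => Multiplicative.ofAdd
        ⟨Multiplicative.toAdd (π (Subgroup.inclusion hle u)), mem_Fil.mpr ⟨_, u.2, rfl⟩⟩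
      map_one' := by
        apply Multiplicative.toAdd.injective
        apply Subtype.ext
        simp
      map_mul' := by
        intro u v
        apply Multiplicative.toAdd.injective
        apply Subtype.ext
        simp }
  have hφs : Function.Surjective φ := by
    intro b
    obtain ⟨u, hu, hub⟩ := mem_Fil.mp (Multiplicative.toAdd b).2
    refine ⟨⟨u, hu⟩, ?_⟩
    apply Multiplicative.toAdd.injective
    apply Subtype.ext
    change Multiplicative.toAdd (π (Subgroup.inclusion hle ⟨(u : Oˣ), hu⟩)) = _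
    have h1 : Subgroup.inclusion hle ⟨(u : Oˣ), hu⟩ = u := rfl
    rw [h1, hub]
    rfl
  have hker : φ.ker = (powMonoidHom p : Oˣ →* Oˣ).range.subgroupOf (principalUnits O (e + l)) := by
    ext u
    rw [MonoidHom.mem_ker, Subgroup.mem_subgroupOf, MonoidHom.mem_range]
    have h1 : φ u = 1 ↔ π (Subgroup.inclusion hle u) = 1 := by
      constructor
      · intro h
        have h2 := congrArg (fun x : Multiplicative (Fil π l) => ((Multiplicative.toAdd x : Fil π l) : B)) h
        exact Multiplicative.toAdd.injective h2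
      · intro h
        apply Multiplicative.toAdd.injective
        apply Subtype.ext
        change Multiplicative.toAdd (π (Subgroup.inclusion hle u)) = _
        rw [h]
        rfl
    rw [h1, hm.ker]
    rfl
  rw [Subgroup.relIndex, ← hker, Subgroup.index,
    Nat.card_congr (QuotientGroup.quotientKerEquivOfSurjective φ hφs).toEquiv]
  rfl

end Model

section Inst

open Fermat.Agent.S56.LF

variable {O : Type*} [CommRing O] [IsDomain O] [IsDiscreteValuationRing O]
variable {D : Type*} [Group D] {act : D →* RingAut O}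
variable {ϖ : O} (hϖ : Irreducible ϖ) {p : ℕ} (hp : p.Prime) {e e0 : ℕ} {υ : Oˣ}
  (hpe : (p : O) = ϖ ^ e * (υ : O)) (he : e = e0 * (p - 1))
variable {B : Type*} [AddCommGroup B] [DistribMulAction D B]
  {π : principalUnits O e →* Multiplicative B}

include hp he in
omit [IsDomain O] [IsDiscreteValuationRing O] in
lemma level_top : e + e0 = p * e0 := by
  have h := UnitPow.mul_eq_add_mul_pred hp.pos e0
  omega

include hp he in
omit [IsDomain O] [IsDiscreteValuationRing O] in
lemma one_le_level (he0 : 1 ≤ e0) : 1 ≤ e := by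
  rw [he]
  exact Nat.mul_pos he0 (Nat.sub_pos_of_lt hp.one_lt)

include hϖ hp hpe he

/-- Below the top level there is no `p`-th power of exact level `e + l` when `p ∤ e + l`. -/
lemma noPow_of_not_dvd {l : ℕ} (hl : l < e0) (hpl : ¬ p ∣ (e + l)) : NoPow O p (e + l) := by
  intro y hy
  have h1 : 1 ≤ e := one_le_level hp he (by omega)
  have h2 := level_top (e := e) hp he
  exact UnitPow.pow_mem_succ hϖ hp hpe he (by omega) (by omega) hpl hy

/-- No jump of the filtration at a level divisible by `p` below the top. -/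
lemma Fil_le_succ_of_dvd [Finite (ResidueField O)] (hm : IsModel act p π) {l : ℕ} (hl : l < e0)
    (hpl : p ∣ (e + l)) : Fil π l ≤ Fil π (l + 1) := by
  have he0 : 1 ≤ e0 := by omega
  have h1 : 1 ≤ e := one_le_level hp he he0
  have h2 := level_top (e := e) hp he
  have hp0' : ((p : ℕ) : ResidueField O) = 0 := by
    rw [← UnitPow.residue_prime_eq_zero hϖ hp hpe he he0, map_natCast]
  have : Fact p.Prime := ⟨hp⟩
  have : CharP (ResidueField O) p := (CharP.charP_iff_prime_eq_zero hp).mpr hp0'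
  have hperf : ∀ x : ResidueField O, ∃ y, y ^ p = x := by
    have : PerfectRing (ResidueField O) p := PerfectRing.ofFiniteOfIsReduced p _
    intro x
    obtain ⟨y, hy⟩ := surjective_frobenius (ResidueField O) p x
    exact ⟨y, hy⟩
  obtain ⟨m, hm'⟩ := hpl
  have hm1 : 1 ≤ m := by
    rcases Nat.eq_zero_or_pos m with h | h
    · rw [h, Nat.mul_zero] at hm'
      omega
    · exact h
  have hme0 : m < e0 := by
    have h3 : p * m < p * e0 := by omega
    exact lt_of_mul_lt_mul_left h3 (Nat.zero_le p)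
  apply Fil_le_succ hm
  intro u hu
  rw [hm'] at hu ⊢
  obtain ⟨y, -, hy⟩ := UnitPow.exists_pow_mul_mem_succ hϖ hp hpe he hperf hm1 hme0 hu
  exact ⟨y, hy⟩

/-- The filtration vanishes above the top level `p e0`. -/
lemma Fil_top_succ [IsAdicComplete (maximalIdeal O) O] (hm : IsModel act p π) :
    Fil π (e0 + 1) = ⊥ := by
  have h2 := level_top (e := e) hp he
  apply Fil_eq_bot hm
  intro u hu
  have h3 : e + (e0 + 1) = p * e0 + 1 := by omega
  rw [h3] at hu
  exact MonoidHom.mem_range.mp (UnitPow.mem_range_pow_of_mem hϖ hp hpe he hu)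

/-- The top step has at most `p` elements. -/
lemma card_Fil_top_le [IsAdicComplete (maximalIdeal O) O] [Finite (ResidueField O)]
    (hm : IsModel act p π) (he0 : 1 ≤ e0) : Nat.card (Fil π e0) ≤ p := by
  have h2 := level_top (e := e) hp he
  rw [card_Fil hm, h2]
  exact UnitPow.card_quot_crit_le hϖ hp hpe he he0

/-- On the top step the group acts "through the cyclotomic character". -/
lemma smul_eq_nsmul_top [IsAdicComplete (maximalIdeal O) O] [Finite (ResidueField O)]
    (hm : IsModel act p π) (he0 : 1 ≤ e0) {ζ : O} (hζ : IsPrimitiveRoot ζ p) (s : D) {w : ℕ}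
    (hw : act s ζ = ζ ^ w) {b : B} (hb : b ∈ Fil π e0) : s • b = w • b := by
  have h2 := level_top (e := e) hp he
  apply smul_eq_nsmul_of_mem_Fil hm _ hb
  intro u hu
  rw [h2] at hu
  obtain ⟨y, hy⟩ := MonoidHom.mem_range.mp
    (UnitPow.map_mul_pow_inv_mem_range hϖ hp hpe he he0 hζ (act s) hw hu)
  refine ⟨y, ?_⟩
  have hy' : y ^ p = Units.map (((act s : O ≃+* O) : O →+* O) : O →* O) u * (u ^ w)⁻¹ := hy
  rw [hy', mul_comm (u ^ w), inv_mul_cancel_right]
  rfl

end Inst

section Hom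

/-- Additive maps from a finite field of characteristic `p` to a group with at most `p`
elements: there are at most `|k|` of them. -/
lemma card_addMonoidHom_le {k T : Type*} [Field k] [Finite k] (p : ℕ) [Fact p.Prime] [CharP k p]
    [AddCommGroup T] [Finite T] (hT : Nat.card T ≤ p) : Nat.card (k →+ T) ≤ Nat.card k := by
  let _ : Algebra (ZMod p) k := ZMod.algebra k p
  let b := Module.finBasis (ZMod p) k
  have hinj : Function.Injective (fun (h : k →+ T) (i : Fin (Module.finrank (ZMod p) k)) =>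
      h (b i)) := by
    intro h h' hh
    apply AddMonoidHom.ext
    intro x
    have hx : ∀ g : k →+ T, g x = ∑ i, (b.repr x i).val • g (b i) := by
      intro g
      conv_lhs => rw [← b.sum_repr x]
      rw [map_sum]
      apply Finset.sum_congr rfl
      intro i _
      have h1 : (b.repr x i) • b i = (b.repr x i).val • b i := by
        conv_lhs => rw [← ZMod.natCast_zmod_val (b.repr x i)]
        rw [Nat.cast_smul_eq_nsmul]
      rw [h1, map_nsmul]
    rw [hx h, hx h']
    apply Finset.sum_congr rfl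
    intro i _
    have h5 : h (b i) = h' (b i) := congrFun hh i
    rw [h5]
  have h1 := Nat.card_le_card_of_injective _ hinj
  have h2 : Nat.card (Fin (Module.finrank (ZMod p) k) → T) =
      Nat.card T ^ Module.finrank (ZMod p) k := by
    rw [Nat.card_fun, Nat.card_fin]
  have h3 : Nat.card k = p ^ Module.finrank (ZMod p) k := by
    have h4 := Module.natCard_eq_pow_finrank (K := ZMod p) (V := k)
    rw [h4, Nat.card_zmod]
  rw [h3]
  exact h1.trans (h2.le.trans (Nat.pow_le_pow_left hT _))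

end Hom

section Count

open Fermat.Agent.S56.LF

variable {O : Type*} [CommRing O] [IsDomain O] [IsDiscreteValuationRing O]
variable {D : Type*} [Group D] {act : D →* RingAut O}
variable {p : ℕ} {e : ℕ}
variable {B : Type*} [AddCommGroup B] [DistribMulAction D B]
  {π : principalUnits O e →* Multiplicative B}
variable {k : Type*} [Field k]

/-- `ξ`-equivariant additive maps `k → B` with values in the `l`-th step of the filtration. -/
abbrev EqFil (π : principalUnits O e →* Multiplicative B) (ξ : D →* kˣ) (l : ℕ) : Type _ :=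
  {h : k →+ B // (∀ (s : D) (x : k), h ((ξ s : k) * x) = s • h x) ∧ ∀ x, h x ∈ Fil π l}

/-- Twisted-equivariant additive maps `k → κ` for the graded piece of level `n`. -/
abbrev EqGr (act : D →* RingAut O) {ϖ : O} (hϖ : Irreducible ϖ) (ξ : D →* kˣ) (n : ℕ) : Type _ :=
  {g : k →+ ResidueField O // ∀ (s : D) (x : k),
    g ((ξ s : k) * x) = theta hϖ (act s) ^ n * ResidueField.mapAut (act s) (g x)}

instance finite_addMonoidHom {M N : Type*} [AddCommMonoid M] [AddCommMonoid N] [Finite M]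
    [Finite N] : Finite (M →+ N) :=
  Finite.of_injective (fun f : M →+ N => (f : M → N)) DFunLike.coe_injective

/-- One step of the filtration at a level with a graded map. -/
lemma card_EqFil_le_mul [Finite k] [Finite B] [Finite (ResidueField O)] {ϖ : O}
    (hϖ : Irreducible ϖ) (hm : IsModel act p π) (ξ : D →* kˣ) {l : ℕ} (hl : 1 ≤ e + l)
    (hlev : NoPow O p (e + l)) :
    Nat.card (EqFil π ξ l) ≤
      Nat.card (EqGr (k := k) act hϖ ξ (e + l)) * Nat.card (EqFil π ξ (l + 1)) := by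
  classical
  let Φ : EqFil π ξ l → EqGr (k := k) act hϖ ξ (e + l) := fun h =>
    ⟨(gr hϖ hm l hl hlev).comp (h.1.codRestrict (Fil π l) h.2.2), by
      intro s x
      have h1 : (h.1.codRestrict (Fil π l) h.2.2) ((ξ s : k) * x) =
          ⟨s • (h.1 x), smul_mem_Fil hm s (h.2.2 x)⟩ := Subtype.ext (h.2.1 s x)
      rw [AddMonoidHom.comp_apply, h1, gr_smul hϖ hm hl hlev s ⟨h.1 x, h.2.2 x⟩]
      rfl⟩
  have hΦ : ∀ h h' : EqFil π ξ l, Φ h = Φ h' → ∀ x, h.1 x - h'.1 x ∈ Fil π (l + 1) := by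
    intro h h' hh x
    have h1 : gr hϖ hm l hl hlev ⟨h.1 x - h'.1 x, sub_mem (h.2.2 x) (h'.2.2 x)⟩ = 0 := by
      have h2 : (⟨h.1 x - h'.1 x, sub_mem (h.2.2 x) (h'.2.2 x)⟩ : Fil π l) =
          ⟨h.1 x, h.2.2 x⟩ - ⟨h'.1 x, h'.2.2 x⟩ := rfl
      rw [h2, map_sub, sub_eq_zero]
      exact congrArg (fun g : EqGr (k := k) act hϖ ξ (e + l) => g.1 x) hh
    exact mem_Fil_succ_of_gr_eq_zero hϖ hm hl hlev _ h1
  let z : EqFil π ξ l := ⟨0, fun s x => by simp, fun x => by simp⟩
  let σ : EqGr (k := k) act hϖ ξ (e + l) → EqFil π ξ l := fun g =>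
    if hg : ∃ h, Φ h = g then Classical.choose hg else z
  have hσ : ∀ h, Φ (σ (Φ h)) = Φ h := by
    intro h
    have hg : ∃ h', Φ h' = Φ h := ⟨h, rfl⟩
    simp only [σ, dif_pos hg]
    exact Classical.choose_spec hg
  let Ψ : EqFil π ξ l → EqGr (k := k) act hϖ ξ (e + l) × EqFil π ξ (l + 1) := fun h =>
    (Φ h, ⟨h.1 - (σ (Φ h)).1, fun s x => by
        rw [AddMonoidHom.sub_apply, AddMonoidHom.sub_apply, h.2.1, (σ (Φ h)).2.1, smul_sub],
      fun x => hΦ h (σ (Φ h)) (hσ h).symm x⟩)
  have hΨ : Function.Injective Ψ := by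
    intro h h' hh
    have h1 : Φ h = Φ h' := congrArg Prod.fst hh
    have h2 : h.1 - (σ (Φ h)).1 = h'.1 - (σ (Φ h')).1 :=
      congrArg (fun z : EqGr (k := k) act hϖ ξ (e + l) × EqFil π ξ (l + 1) => (z.2).1) hh
    apply Subtype.ext
    rw [h1] at h2
    exact sub_left_injective h2
  have h3 := Nat.card_le_card_of_injective Ψ hΨ
  rwa [Nat.card_prod] at h3

/-- A step of the filtration without jump. -/
lemma card_EqFil_le_of_le [Finite k] [Finite B] (ξ : D →* kˣ) {l : ℕ}
    (hle : Fil π l ≤ Fil π (l + 1)) :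
    Nat.card (EqFil (k := k) π ξ l) ≤ Nat.card (EqFil (k := k) π ξ (l + 1)) := by
  let Ψ : EqFil (k := k) π ξ l → EqFil (k := k) π ξ (l + 1) :=
    fun h => ⟨h.1, h.2.1, fun x => hle (h.2.2 x)⟩
  have hΨ : Function.Injective Ψ := by
    intro h h' hh
    have h1 : (Ψ h).1 = (Ψ h').1 := congrArg Subtype.val hh
    exact Subtype.ext h1
  exact Nat.card_le_card_of_injective Ψ hΨ

/-- The step where the filtration vanishes. -/
lemma card_EqFil_of_eq_bot (ξ : D →* kˣ) {l : ℕ} (h : Fil π l = ⊥) :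
    Nat.card (EqFil (k := k) π ξ l) ≤ 1 := by
  have : Subsingleton (EqFil (k := k) π ξ l) := by
    constructor
    intro a b
    apply Subtype.ext
    apply AddMonoidHom.ext
    intro x
    have ha : a.1 x = 0 := (AddSubgroup.mem_bot).mp (h.le (a.2.2 x))
    have hb : b.1 x = 0 := (AddSubgroup.mem_bot).mp (h.le (b.2.2 x))
    rw [ha, hb]
  exact Finite.card_le_one_iff_subsingleton.mpr this

/-- The top step: at most `|k|` equivariant maps. -/
lemma card_EqFil_top_le [Finite k] [Finite B] [Fact p.Prime] [CharP k p] (ξ : D →* kˣ) {l : ℕ}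
    (hT : Nat.card (Fil π l) ≤ p) :
    Nat.card (EqFil (k := k) π ξ l) ≤ Nat.card k := by
  let Ψ : EqFil (k := k) π ξ l → (k →+ Fil π l) := fun h => h.1.codRestrict (Fil π l) h.2.2
  have hΨ : Function.Injective Ψ := by
    intro h h' hh
    apply Subtype.ext
    apply AddMonoidHom.ext
    intro x
    exact congrArg (fun g : k →+ Fil π l => ((g x : Fil π l) : B)) hh
  exact (Nat.card_le_card_of_injective Ψ hΨ).trans (card_addMonoidHom_le p hT)

/-- The top step when `ξ` is not the character through which `D` acts on it: only the zero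
map. -/
lemma card_EqFil_top_le_one [Finite k] (ξ : D →* kˣ) {l : ℕ} {s : D} {w : ℕ}
    (hs : ∀ b ∈ Fil π l, s • b = w • b) (hne : (ξ s : k) ≠ (w : k)) :
    Nat.card (EqFil (k := k) π ξ l) ≤ 1 := by
  have : Subsingleton (EqFil (k := k) π ξ l) := by
    have key : ∀ a : EqFil (k := k) π ξ l, ∀ x, a.1 x = 0 := by
      intro a x
      have hc : (ξ s : k) - (w : k) ≠ 0 := sub_ne_zero.mpr hne
      have h1 : ∀ y, a.1 (((ξ s : k) - (w : k)) * y) = 0 := by
        intro y
        rw [sub_mul, map_sub, a.2.1 s y, hs _ (a.2.2 y), ← nsmul_eq_mul, map_nsmul, sub_self]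
      have h2 := h1 (((ξ s : k) - (w : k))⁻¹ * x)
      rwa [mul_inv_cancel_left₀ hc] at h2
    constructor
    intro a b
    apply Subtype.ext
    apply AddMonoidHom.ext
    intro x
    rw [key a x, key b x]
  exact Finite.card_le_one_iff_subsingleton.mpr this

/-- The count on a graded piece, from `SemiCount`. -/
lemma card_EqGr_le [Finite k] [Finite (ResidueField O)] [Fact p.Prime] {κ0 : Type*} [Field κ0]
    [Algebra κ0 k] [Algebra κ0 (ResidueField O)] [CharP κ0 p] (a : ℕ)
    (hκ0 : Nat.card κ0 = p ^ a) {ϖ : O} (hϖ : Irreducible ϖ) (ξ : D →* kˣ) (τ0 φ : D)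
    (hτ0 : ∀ x : ResidueField O, ResidueField.mapAut (act τ0) x = x)
    (hφ : ∀ x : ResidueField O, ResidueField.mapAut (act φ) x = x ^ (p ^ a))
    (t : κ0) (ht : theta hϖ (act τ0) = algebraMap κ0 (ResidueField O) t) (n : ℕ) :
    Nat.card (EqGr (k := k) act hϖ ξ n) ≤
      Nat.card k ^ Set.ncard {j : ℕ | j < a ∧ algebraMap κ0 k t ^ (n * p ^ j) = (ξ τ0 : k)} := by
  let Ψ : EqGr (k := k) act hϖ ξ n →
      {h : k →+ ResidueField O // (∀ x, h ((ξ τ0 : k) * x) =
          algebraMap κ0 (ResidueField O) (t ^ n) * h x) ∧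
        (∀ x, h ((ξ φ : k) * x) = theta hϖ (act φ) ^ n * h x ^ (p ^ a))} :=
    fun g => ⟨g.1, fun x => by rw [g.2 τ0 x, hτ0, ht, map_pow], fun x => by rw [g.2 φ x, hφ]⟩
  have hΨ : Function.Injective Ψ := by
    intro g g' hh
    have h1 : (Ψ g).1 = (Ψ g').1 := congrArg Subtype.val hh
    exact Subtype.ext h1
  have h1 := Nat.card_le_card_of_injective Ψ hΨ
  have h2 := SemiCount.card_semiLinear_le' (κ0 := κ0) (k := k) (κ := ResidueField O) p a hκ0
    (ξ τ0 : k) (ξ φ : k) (ξ φ).ne_zero (t ^ n) (theta hϖ (act φ) ^ n)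
  have h3 : {j : ℕ | j < a ∧ algebraMap κ0 k (t ^ n) ^ (p ^ j) = (ξ τ0 : k)} =
      {j : ℕ | j < a ∧ algebraMap κ0 k t ^ (n * p ^ j) = (ξ τ0 : k)} := by
    ext j
    simp only [Set.mem_ofPred_eq, map_pow, pow_mul]
  rw [h3] at h2
  exact h1.trans h2

end Count

section Main

open Fermat.Agent.S56.LF

/-- The contribution of the level `n` to the count: `0` if `p ∣ n`, else the number of `j < a`
with `c ^ (n * p ^ j) = s`. -/
noncomputable def cnt {k : Type*} [Field k] (p a : ℕ) (c s : k) (n : ℕ) : ℕ :=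
  if p ∣ n then 0 else Set.ncard {j : ℕ | j < a ∧ c ^ (n * p ^ j) = s}

variable {O : Type*} [CommRing O] [IsDomain O] [IsDiscreteValuationRing O]
  [IsAdicComplete (maximalIdeal O) O] [Finite (ResidueField O)]
variable {D : Type*} [Group D] {act : D →* RingAut O}
variable {ϖ : O} (hϖ : Irreducible ϖ) {p : ℕ} [Fact p.Prime] {e e0 : ℕ} {υ : Oˣ}
  (hpe : (p : O) = ϖ ^ e * (υ : O)) (he : e = e0 * (p - 1))
variable {B : Type*} [AddCommGroup B] [DistribMulAction D B]
  {π : principalUnits O e →* Multiplicative B} (hm : IsModel act p π)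
variable {k : Type*} [Field k] [Finite k] (ξ : D →* kˣ)
variable {κ0 : Type*} [Field κ0] [Algebra κ0 k] [Algebra κ0 (ResidueField O)] [CharP κ0 p]
  (a : ℕ) (hκ0 : Nat.card κ0 = p ^ a) (τ0 φ : D)
  (hτ0 : ∀ x : ResidueField O, ResidueField.mapAut (act τ0) x = x)
  (hφ : ∀ x : ResidueField O, ResidueField.mapAut (act φ) x = x ^ (p ^ a))
  (t : κ0) (ht : theta hϖ (act τ0) = algebraMap κ0 (ResidueField O) t)

include hϖ hpe hm in
/-- A model of `U^(e) / (U^(e) ∩ (Oˣ)^p)` is finite. -/
lemma finite_of_isModel : Finite B := by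
  have hp : p.Prime := Fact.out
  have h1 := card_Fil hm 0
  have h2 : (powMonoidHom p : Oˣ →* Oˣ).range.index ≠ 0 := by
    rw [index_range_pow_prime_units hϖ hp hpe]
    have : NeZero p := ⟨hp.ne_zero⟩
    exact mul_ne_zero Nat.card_pos.ne' (pow_ne_zero _ Nat.card_pos.ne')
  have h3 : (powMonoidHom p : Oˣ →* Oˣ).range.relIndex (principalUnits O (e + 0)) ≠ 0 := by
    intro h0
    have h4 := Subgroup.relIndex_dvd_index_of_normal (powMonoidHom p : Oˣ →* Oˣ).range
      (principalUnits O (e + 0))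
    rw [h0] at h4
    exact h2 (Nat.eq_zero_of_zero_dvd h4)
  have h4 : Finite (Fil π 0) := Nat.finite_of_card_ne_zero (by rw [h1]; exact h3)
  have h5 : Fil π 0 = ⊤ := Fil_zero hm.surj
  exact Finite.of_injective
    (fun b : B => (⟨b, by rw [h5]; exact AddSubgroup.mem_top b⟩ : Fil π 0))
    (fun b b' h => congrArg Subtype.val h)

include hϖ hpe he hm hκ0 hτ0 hφ ht in
/-- Descending induction along the filtration. -/
lemma card_EqFil_le_pow (c : ℕ) (htop : Nat.card (EqFil (k := k) π ξ e0) ≤ Nat.card k ^ c)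
    (m : ℕ) (hme : m ≤ e0) :
    Nat.card (EqFil (k := k) π ξ (e0 - m)) ≤
      Nat.card k ^ (c + ∑ l ∈ Finset.Ico (e0 - m) e0,
        cnt p a (algebraMap κ0 k t) (ξ τ0 : k) (e + l)) := by
  have hp : p.Prime := Fact.out
  have : Finite B := finite_of_isModel hϖ hpe hm
  induction m with
  | zero => simpa using htop
  | succ m ih =>
    have ih' := ih (by omega)
    have hl : e0 - (m + 1) < e0 := by omega
    have hl1 : e0 - (m + 1) + 1 = e0 - m := by omega
    have he1 : 1 ≤ e := one_le_level hp he (by omega)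
    rw [Finset.sum_eq_sum_Ico_succ_bot hl, hl1]
    by_cases hdvd : p ∣ (e + (e0 - (m + 1)))
    · have h1 := card_EqFil_le_of_le (k := k) ξ (Fil_le_succ_of_dvd hϖ hp hpe he hm hl hdvd)
      rw [hl1] at h1
      rw [cnt, if_pos hdvd, zero_add]
      exact h1.trans ih'
    · have h1 := card_EqFil_le_mul (k := k) hϖ hm ξ (l := e0 - (m + 1)) (by omega)
        (noPow_of_not_dvd hϖ hp hpe he hl hdvd)
      rw [hl1] at h1
      have h2 := card_EqGr_le (k := k) a hκ0 hϖ ξ τ0 φ hτ0 hφ t ht (e + (e0 - (m + 1)))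
      rw [cnt, if_neg hdvd]
      calc Nat.card (EqFil (k := k) π ξ (e0 - (m + 1)))
          ≤ Nat.card (EqGr (k := k) act hϖ ξ (e + (e0 - (m + 1)))) *
              Nat.card (EqFil (k := k) π ξ (e0 - m)) := h1
        _ ≤ Nat.card k ^ Set.ncard {j : ℕ | j < a ∧
              algebraMap κ0 k t ^ ((e + (e0 - (m + 1))) * p ^ j) = (ξ τ0 : k)} *
            Nat.card k ^ (c + ∑ l ∈ Finset.Ico (e0 - m) e0,
              cnt p a (algebraMap κ0 k t) (ξ τ0 : k) (e + l)) := Nat.mul_le_mul h2 ih'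
        _ = _ := by
          rw [← pow_add]
          congr 1
          ring

include hϖ hpe he hm hκ0 hτ0 hφ ht in
/-- **C4b (`CNT-abs`), general form.**  The `ξ`-equivariant additive maps `k → B`,
`B = U^(e) / (U^(e) ∩ (Oˣ)^p)`, number at most `|k| ^ (1 + Σ_{l < e0} cnt (e + l))`. -/
theorem card_eqHom_le [CharP k p] (he0 : 1 ≤ e0) :
    Nat.card {h : k →+ B // ∀ (s : D) (x : k), h ((ξ s : k) * x) = s • h x} ≤
      Nat.card k ^ (1 + ∑ l ∈ Finset.range e0,
        cnt p a (algebraMap κ0 k t) (ξ τ0 : k) (e + l)) := by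
  have hp : p.Prime := Fact.out
  have : Finite B := finite_of_isModel hϖ hpe hm
  have htop : Nat.card (EqFil (k := k) π ξ e0) ≤ Nat.card k ^ 1 := by
    rw [pow_one]
    exact card_EqFil_top_le ξ (card_Fil_top_le hϖ hp hpe he hm he0)
  have h1 := card_EqFil_le_pow hϖ hpe he hm ξ a hκ0 τ0 φ hτ0 hφ t ht 1 htop e0 le_rfl
  rw [Nat.sub_self, ← Finset.range_eq_Ico] at h1
  let Ψ : {h : k →+ B // ∀ (s : D) (x : k), h ((ξ s : k) * x) = s • h x} → EqFil (k := k) π ξ 0 :=
    fun h => ⟨h.1, h.2, fun x => by rw [Fil_zero hm.surj]; exact AddSubgroup.mem_top _⟩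
  have hΨ : Function.Injective Ψ := by
    intro h h' hh
    have h2 : (Ψ h).1 = (Ψ h').1 := congrArg Subtype.val hh
    exact Subtype.ext h2
  exact (Nat.card_le_card_of_injective Ψ hΨ).trans h1

include hϖ hpe he hm hκ0 hτ0 hφ ht in
/-- **C4b (`CNT-abs`), non-cyclotomic form.**  If `ξ` differs from the mod `p` cyclotomic
character at some `s : D`, the bound is `|k| ^ (Σ_{l < e0} cnt (e + l))`. -/
theorem card_eqHom_le_of_ne (he0 : 1 ≤ e0) {ζ : O} (hζ : IsPrimitiveRoot ζ p) {s : D} {w : ℕ}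
    (hw : act s ζ = ζ ^ w) (hne : (ξ s : k) ≠ (w : k)) :
    Nat.card {h : k →+ B // ∀ (s : D) (x : k), h ((ξ s : k) * x) = s • h x} ≤
      Nat.card k ^ (∑ l ∈ Finset.range e0,
        cnt p a (algebraMap κ0 k t) (ξ τ0 : k) (e + l)) := by
  have hp : p.Prime := Fact.out
  have : Finite B := finite_of_isModel hϖ hpe hm
  have htop : Nat.card (EqFil (k := k) π ξ e0) ≤ Nat.card k ^ 0 := by
    rw [pow_zero]
    exact card_EqFil_top_le_one ξ
      (fun b hb => smul_eq_nsmul_top hϖ hp hpe he hm he0 hζ s hw hb) hne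
  have h1 := card_EqFil_le_pow hϖ hpe he hm ξ a hκ0 τ0 φ hτ0 hφ t ht 0 htop e0 le_rfl
  rw [Nat.sub_self, ← Finset.range_eq_Ico, zero_add] at h1
  let Ψ : {h : k →+ B // ∀ (s : D) (x : k), h ((ξ s : k) * x) = s • h x} → EqFil (k := k) π ξ 0 :=
    fun h => ⟨h.1, h.2, fun x => by rw [Fil_zero hm.surj]; exact AddSubgroup.mem_top _⟩
  have hΨ : Function.Injective Ψ := by
    intro h h' hh
    have h2 : (Ψ h).1 = (Ψ h').1 := congrArg Subtype.val hh
    exact Subtype.ext h2
  exact (Nat.card_le_card_of_injective Ψ hΨ).trans h1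

end Main

section Reindex

/-- The sum of the level contributions is the number of pairs `(n, j)` of the design:
`1 ≤ n ≤ e0`, `p ∤ n`, `j < a`, `c ^ ((p e0 - n) p ^ j) = s`. -/
lemma sum_cnt_eq {k : Type*} [Field k] {p e e0 : ℕ} (hee : e + e0 = p * e0) (a : ℕ) (c s : k) :
    ∑ l ∈ Finset.range e0, cnt p a c s (e + l) =
      Set.ncard {nj : ℕ × ℕ | 1 ≤ nj.1 ∧ nj.1 ≤ e0 ∧ ¬ p ∣ nj.1 ∧ nj.2 < a ∧
        c ^ ((p * e0 - nj.1) * p ^ nj.2) = s} := by
  classical
  let J : ℕ → Finset ℕ := fun n => (Finset.range a).filter (fun j => c ^ (n * p ^ j) = s)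
  have hJ : ∀ n, cnt p a c s n = if p ∣ n then 0 else (J n).card := by
    intro n
    rw [cnt]
    split_ifs with h
    · rfl
    · have h2 : {j : ℕ | j < a ∧ c ^ (n * p ^ j) = s} = ((J n : Finset ℕ) : Set ℕ) := by
        ext j
        simp [J]
      rw [h2, Set.ncard_coe_finset]
  let T : Finset (Σ _ : ℕ, ℕ) :=
    (Finset.range e0).sigma (fun l => if p ∣ (e + l) then ∅ else J (e + l))
  have hT : T.card = ∑ l ∈ Finset.range e0, cnt p a c s (e + l) := by
    rw [Finset.card_sigma]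
    apply Finset.sum_congr rfl
    intro l _
    rw [hJ]
    split_ifs <;> simp
  let g : (Σ _ : ℕ, ℕ) → ℕ × ℕ := fun x => (e0 - x.1, x.2)
  have hg : Set.InjOn g (T : Set (Σ _ : ℕ, ℕ)) := by
    rintro ⟨l, j⟩ hx ⟨l', j'⟩ hx' hxx
    have h1 : l < e0 := by
      have := (Finset.mem_sigma.mp (Finset.mem_coe.mp hx)).1
      exact Finset.mem_range.mp this
    have h2 : l' < e0 := by
      have := (Finset.mem_sigma.mp (Finset.mem_coe.mp hx')).1
      exact Finset.mem_range.mp this
    have h3 : e0 - l = e0 - l' := congrArg Prod.fst hxx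
    have h4 : j = j' := congrArg Prod.snd hxx
    have h5 : l = l' := by omega
    subst h4 h5
    rfl
  have hS : {nj : ℕ × ℕ | 1 ≤ nj.1 ∧ nj.1 ≤ e0 ∧ ¬ p ∣ nj.1 ∧ nj.2 < a ∧
      c ^ ((p * e0 - nj.1) * p ^ nj.2) = s} = ((T.image g : Finset (ℕ × ℕ)) : Set (ℕ × ℕ)) := by
    ext ⟨n, j⟩
    simp only [Set.mem_ofPred_eq, Finset.coe_image, Set.mem_image, Finset.mem_coe]
    constructor
    · rintro ⟨h1, h2, h3, h4, h5⟩
      have h6 : e + (e0 - n) = p * e0 - n := by omega
      have h7 : ¬ p ∣ (e + (e0 - n)) := by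
        rw [h6, Nat.dvd_sub_iff_right (by omega) (Dvd.intro _ rfl)]
        exact h3
      refine ⟨⟨e0 - n, j⟩, ?_, ?_⟩
      · rw [Finset.mem_sigma]
        refine ⟨Finset.mem_range.mpr (by change e0 - n < e0; omega), ?_⟩
        simp only [if_neg h7, J, Finset.mem_filter, Finset.mem_range]
        exact ⟨h4, by rw [h6]; exact h5⟩
      · exact Prod.ext (by change e0 - (e0 - n) = n; omega) rfl
    · rintro ⟨⟨l, j'⟩, hx, hxx⟩
      rw [Finset.mem_sigma] at hx
      obtain ⟨hl, hj⟩ := hx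
      have hl' : l < e0 := Finset.mem_range.mp hl
      have h1 : e0 - l = n := congrArg Prod.fst hxx
      have h2 : j' = j := congrArg Prod.snd hxx
      subst h2
      have h6 : e + l = p * e0 - n := by omega
      by_cases h7 : p ∣ (e + l)
      · simp [if_pos h7] at hj
      · simp only [if_neg h7, J, Finset.mem_filter, Finset.mem_range] at hj
        refine ⟨by omega, by omega, ?_, hj.1, by rw [← h6]; exact hj.2⟩
        rw [h6, Nat.dvd_sub_iff_right (by omega) (Dvd.intro _ rfl)] at h7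
        exact h7
  rw [hS, Set.ncard_coe_finset, Finset.card_image_of_injOn hg, hT]

end Reindex

section Canonical

variable {O : Type*} [CommRing O] [IsLocalRing O] {D : Type*} [Group D]

/-- The `p`-th powers of units inside `U^(e)`. -/
def powSub (O : Type*) [CommRing O] [IsLocalRing O] (p e : ℕ) : Subgroup (principalUnits O e) :=
  ((powMonoidHom p : Oˣ →* Oˣ).range).subgroupOf (principalUnits O e)

lemma mem_powSub {p e : ℕ} {u : principalUnits O e} :
    u ∈ powSub O p e ↔ ∃ y : Oˣ, y ^ p = (u : Oˣ) := by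
  rw [powSub, Subgroup.mem_subgroupOf, MonoidHom.mem_range]
  rfl

lemma actU_mem_powSub (σ : O ≃+* O) {p e : ℕ} {u : principalUnits O e} (hu : u ∈ powSub O p e) :
    actU σ e u ∈ powSub O p e := by
  rw [mem_powSub] at hu ⊢
  obtain ⟨y, hy⟩ := hu
  refine ⟨Units.map (σ : O →* O) y, ?_⟩
  rw [coe_actU', ← hy, map_pow]

/-- The canonical model `U^(e) / (U^(e) ∩ (Oˣ)^p)` of the group `B`, written additively.  The
action `act` is part of the type so that the `D`-action is an instance. -/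
def BQuot (_act : D →* RingAut O) (p e : ℕ) : Type _ :=
  Additive (principalUnits O e ⧸ powSub O p e)

instance (act : D →* RingAut O) (p e : ℕ) : AddCommGroup (BQuot act p e) :=
  inferInstanceAs (AddCommGroup (Additive (principalUnits O e ⧸ powSub O p e)))

/-- The action of `s : D` on the quotient. -/
def actQ (act : D →* RingAut O) (p e : ℕ) (s : D) :
    principalUnits O e ⧸ powSub O p e →* principalUnits O e ⧸ powSub O p e :=
  QuotientGroup.map _ _ (actU (act s) e) (fun _ hu => actU_mem_powSub (act s) hu)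

lemma actQ_mk (act : D →* RingAut O) (p e : ℕ) (s : D) (u : principalUnits O e) :
    actQ act p e s (QuotientGroup.mk u) = QuotientGroup.mk (actU (act s) e u) := rfl

instance (act : D →* RingAut O) (p e : ℕ) : DistribMulAction D (BQuot act p e) where
  smul s b := Additive.ofMul (actQ act p e s (Additive.toMul b))
  one_smul b := by
    change Additive.ofMul (actQ act p e 1 (Additive.toMul b)) = b
    obtain ⟨u, hu⟩ := QuotientGroup.mk_surjective (Additive.toMul b)
    rw [← hu, actQ_mk]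
    have h1 : actU (act 1) e u = u := by
      apply Subtype.ext
      apply Units.ext
      rw [coe_actU, map_one]
      rfl
    rw [h1, hu]
    rfl
  mul_smul s s' b := by
    change Additive.ofMul (actQ act p e (s * s') (Additive.toMul b)) =
      Additive.ofMul (actQ act p e s (Additive.toMul
        (Additive.ofMul (actQ act p e s' (Additive.toMul b)))))
    obtain ⟨u, hu⟩ := QuotientGroup.mk_surjective (Additive.toMul b)
    rw [← hu, actQ_mk, toMul_ofMul, actQ_mk, actQ_mk]
    have h1 : actU (act (s * s')) e u = actU (act s) e (actU (act s') e u) := by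
      apply Subtype.ext
      apply Units.ext
      rw [coe_actU, coe_actU, coe_actU, map_mul]
      rfl
    rw [h1]
  smul_zero s := by
    change Additive.ofMul (actQ act p e s (Additive.toMul 0)) = 0
    rw [toMul_zero, map_one]
    rfl
  smul_add s b b' := by
    change Additive.ofMul (actQ act p e s (Additive.toMul (b + b'))) =
      Additive.ofMul (actQ act p e s (Additive.toMul b)) +
        Additive.ofMul (actQ act p e s (Additive.toMul b'))
    change Additive.ofMul (actQ act p e s (Additive.toMul b * Additive.toMul b')) = _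
    rw [map_mul]
    rfl

/-- The projection `U^(e) → B` of the canonical model. -/
def modelMap (act : D →* RingAut O) (p e : ℕ) :
    principalUnits O e →* Multiplicative (BQuot act p e) where
  toFun u := Multiplicative.ofAdd (Additive.ofMul (QuotientGroup.mk u) : BQuot act p e)
  map_one' := rfl
  map_mul' _ _ := rfl

end Canonical

section CanonicalModel

variable {O : Type*} [CommRing O] [IsDomain O] [IsDiscreteValuationRing O] {D : Type*} [Group D]

/-- The canonical model is a model. -/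
theorem isModel_BQuot (act : D →* RingAut O) (p e : ℕ) : IsModel act p (modelMap act p e) where
  surj := by
    intro b
    obtain ⟨u, hu⟩ := QuotientGroup.mk_surjective
      (Additive.toMul (Multiplicative.toAdd b) : principalUnits O e ⧸ powSub O p e)
    refine ⟨u, ?_⟩
    change Multiplicative.ofAdd (Additive.ofMul (QuotientGroup.mk u) : BQuot act p e) = b
    rw [hu]
    rfl
  ker := by
    intro u
    rw [← mem_powSub]
    change (QuotientGroup.mk u : principalUnits O e ⧸ powSub O p e) = 1 ↔ _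
    exact QuotientGroup.eq_one_iff u
  equiv := fun _ _ => rfl

end CanonicalModel

section Exit

open Fermat.Agent.S56.LF

variable {O : Type*} [CommRing O] [IsDomain O] [IsDiscreteValuationRing O]
  [IsAdicComplete (maximalIdeal O) O] [Finite (ResidueField O)]
variable {D : Type*} [Group D] {act : D →* RingAut O}
variable {ϖ : O} (hϖ : Irreducible ϖ) {p : ℕ} [Fact p.Prime] {e e0 : ℕ} {υ : Oˣ}
  (hpe : (p : O) = ϖ ^ e * (υ : O)) (he : e = e0 * (p - 1)) (he0 : 1 ≤ e0)
variable {k : Type*} [Field k] [Finite k] (ξ : D →* kˣ)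
variable {κ0 : Type*} [Field κ0] [Algebra κ0 k] [Algebra κ0 (ResidueField O)] [CharP κ0 p]
  (a : ℕ) (hκ0 : Nat.card κ0 = p ^ a) (τ0 φ : D)
  (hτ0 : ∀ x : ResidueField O, ResidueField.mapAut (act τ0) x = x)
  (hφ : ∀ x : ResidueField O, ResidueField.mapAut (act φ) x = x ^ (p ^ a))
  (t : κ0) (ht : theta hϖ (act τ0) = algebraMap κ0 (ResidueField O) t)

include hϖ hpe he he0 hκ0 hτ0 hφ ht

/-- **C4b (`CNT-abs`), any model, pair form.**  `O` a complete discrete valuation ring with
finite residue field `κ`, `p = ϖ ^ e υ`, `e = e0 (p - 1)`, a group `D` acting on `O` by ring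
automorphisms, `τ0 φ : D` with `τ0` trivial on `κ`, `φ = Frob_{p^a}` on `κ`,
`(τ0 ϖ / ϖ mod 𝔪) = ι' t` for `t` in a field `κ0` with `p ^ a` elements mapping to `k` and `κ`.
For every model `(B, π)` of `U^(e) / (U^(e) ∩ (Oˣ)^p)` the `ξ`-equivariant additive maps `k → B`
number at most `|k| ^ (1 + #{(n, j) : 1 ≤ n ≤ e0, p ∤ n, j < a, ι t ^ ((p e0 - n) p^j) = ξ τ0})`. -/
theorem card_eqHom_le_pairs [CharP k p] {B : Type*} [AddCommGroup B] [DistribMulAction D B]
    {π : principalUnits O e →* Multiplicative B} (hm : IsModel act p π) :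
    Nat.card {h : k →+ B // ∀ (s : D) (x : k), h ((ξ s : k) * x) = s • h x} ≤
      Nat.card k ^ (1 + Set.ncard {nj : ℕ × ℕ | 1 ≤ nj.1 ∧ nj.1 ≤ e0 ∧ ¬ p ∣ nj.1 ∧ nj.2 < a ∧
        algebraMap κ0 k t ^ ((p * e0 - nj.1) * p ^ nj.2) = (ξ τ0 : k)}) := by
  rw [← sum_cnt_eq (level_top (e := e) (Fact.out : p.Prime) he) a]
  exact card_eqHom_le hϖ hpe he hm ξ a hκ0 τ0 φ hτ0 hφ t ht he0

/-- **C4b (`CNT-abs`), any model, pair form, `ξ` not the cyclotomic character.** -/
theorem card_eqHom_le_pairs_of_ne {B : Type*} [AddCommGroup B] [DistribMulAction D B]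
    {π : principalUnits O e →* Multiplicative B} (hm : IsModel act p π)
    {ζ : O} (hζ : IsPrimitiveRoot ζ p) {s : D} {w : ℕ}
    (hw : act s ζ = ζ ^ w) (hne : (ξ s : k) ≠ (w : k)) :
    Nat.card {h : k →+ B // ∀ (s : D) (x : k), h ((ξ s : k) * x) = s • h x} ≤
      Nat.card k ^ Set.ncard {nj : ℕ × ℕ | 1 ≤ nj.1 ∧ nj.1 ≤ e0 ∧ ¬ p ∣ nj.1 ∧ nj.2 < a ∧
        algebraMap κ0 k t ^ ((p * e0 - nj.1) * p ^ nj.2) = (ξ τ0 : k)} := by
  rw [← sum_cnt_eq (level_top (e := e) (Fact.out : p.Prime) he) a]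
  exact card_eqHom_le_of_ne hϖ hpe he hm ξ a hκ0 τ0 φ hτ0 hφ t ht he0 hζ hw hne

/-- **C4b (`CNT-abs`) on the canonical model** `BQuot act p e = U^(e) / (U^(e) ∩ (Oˣ)^p)`. -/
theorem cntAbs [CharP k p] :
    Nat.card {h : k →+ BQuot act p e // ∀ (s : D) (x : k), h ((ξ s : k) * x) = s • h x} ≤
      Nat.card k ^ (1 + Set.ncard {nj : ℕ × ℕ | 1 ≤ nj.1 ∧ nj.1 ≤ e0 ∧ ¬ p ∣ nj.1 ∧ nj.2 < a ∧
        algebraMap κ0 k t ^ ((p * e0 - nj.1) * p ^ nj.2) = (ξ τ0 : k)}) :=
  card_eqHom_le_pairs hϖ hpe he he0 ξ a hκ0 τ0 φ hτ0 hφ t ht (isModel_BQuot act p e)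

/-- **C4b (`CNT-abs`) on the canonical model, `ξ` not the cyclotomic character.** -/
theorem cntAbs_of_ne {ζ : O} (hζ : IsPrimitiveRoot ζ p) {s : D} {w : ℕ}
    (hw : act s ζ = ζ ^ w) (hne : (ξ s : k) ≠ (w : k)) :
    Nat.card {h : k →+ BQuot act p e // ∀ (s : D) (x : k), h ((ξ s : k) * x) = s • h x} ≤
      Nat.card k ^ Set.ncard {nj : ℕ × ℕ | 1 ≤ nj.1 ∧ nj.1 ≤ e0 ∧ ¬ p ∣ nj.1 ∧ nj.2 < a ∧
        algebraMap κ0 k t ^ ((p * e0 - nj.1) * p ^ nj.2) = (ξ τ0 : k)} :=
  card_eqHom_le_pairs_of_ne hϖ hpe he he0 ξ a hκ0 τ0 φ hτ0 hφ t ht (isModel_BQuot act p e) hζ hw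
    hne

end Exit

end Fermat.Agent.S56.Flat.CntAbs
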