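import Fermat.Agent.S56.Flat.CntAbs

/-!
# S56 / LF row C4b (`CNT-abs`), relational form

The count of `Flat/CntAbs.lean` restated without any quotient type, in the shape the Kummer
dictionary (row C3) produces: a finite family `T` of maps `h : k → Oˣ` with values `≡ 1` modulo
`p`, additive and `ξ`-equivariant modulo `p`-th powers of units, pairwise distinct modulo `p`-th
powers, has at most `|k| ^ N` members.

The tame parameter `t` may live in a finite field `F` with `p ^ a'` elements, `a ∣ a'`, while the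
Frobenius element `φ` is the `p ^ a`-Frobenius (apply the count to `φ ^ (a' / a)`).
-/

set_option autoImplicit false

namespace Fermat.Agent.S56.Flat.CntAbs

open IsLocalRing Fermat.Agent.CFT.Local

section Cls

variable {O : Type*} [CommRing O] [IsLocalRing O] {D : Type*} [Group D]

/-- The class of a principal unit in the canonical model. -/
def cls (act : D →* RingAut O) (p e : ℕ) (u : principalUnits O e) : BQuot act p e :=
  Additive.ofMul (QuotientGroup.mk u)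

lemma cls_mul (act : D →* RingAut O) (p e : ℕ) (u v : principalUnits O e) :
    cls act p e (u * v) = cls act p e u + cls act p e v := rfl

lemma smul_cls (act : D →* RingAut O) (p e : ℕ) (s : D) (u : principalUnits O e) :
    s • cls act p e u = cls act p e (actU (act s) e u) := rfl

lemma cls_eq_iff (act : D →* RingAut O) (p e : ℕ) (u v : principalUnits O e) :
    cls act p e u = cls act p e v ↔ ∃ w : Oˣ, (u : Oˣ) = (v : Oˣ) * w ^ p := by
  have h1 : cls act p e u = cls act p e v ↔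
      (QuotientGroup.mk u : principalUnits O e ⧸ powSub O p e) = QuotientGroup.mk v := Iff.rfl
  rw [h1, QuotientGroup.eq, mem_powSub]
  constructor
  · rintro ⟨y, hy⟩
    refine ⟨y⁻¹, ?_⟩
    have hy' : y ^ p = (u : Oˣ)⁻¹ * (v : Oˣ) := hy
    rw [inv_pow, hy', mul_inv_rev, inv_inv, mul_inv_cancel_left]
  · rintro ⟨w, hw⟩
    refine ⟨w⁻¹, ?_⟩
    change w⁻¹ ^ p = (u : Oˣ)⁻¹ * (v : Oˣ)
    rw [hw, mul_inv_rev, inv_pow, mul_assoc, inv_mul_cancel, mul_one]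

end Cls

section Rel

variable {O : Type*} [CommRing O] [IsDomain O] [IsDiscreteValuationRing O]
  [IsAdicComplete (maximalIdeal O) O] [Finite (ResidueField O)]
variable {D : Type*} [Group D] (act : D →* RingAut O)
variable {p : ℕ} [Fact p.Prime] {k : Type*} [Field k] [Finite k] [CharP k p]
variable {F : Type*} [Field F] (a a' : ℕ) (haa' : a ∣ a') (hF : Nat.card F = p ^ a')
  (ι : F →+* k) (ι' : F →+* ResidueField O) {ϖ : O} (hϖ : Irreducible ϖ)
  {e0 : ℕ} {υ : Oˣ} (hpe : (p : O) = ϖ ^ (e0 * (p - 1)) * (υ : O))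
  (ξ : D →* kˣ) (τ0 φ : D) (t : F) (z : O)
  (hτ0 : ∀ x : O, act τ0 x - x ∈ maximalIdeal O)
  (hφ : ∀ x : O, act φ x - x ^ (p ^ a) ∈ maximalIdeal O)
  (hz : residue O z = ι' t) (hτ0ϖ : act τ0 ϖ - z * ϖ ∈ maximalIdeal O ^ 2)
  (T : Finset (k → Oˣ))
  (hT : ∀ h ∈ T, (∀ x, ((h x : Oˣ) : O) - 1 ∈ Ideal.span {(p : O)}) ∧
    (∀ x y, ∃ w : Oˣ, h (x + y) = h x * h y * w ^ p) ∧
    ∀ (σ : D) (x : k), ∃ w : Oˣ,
      h ((ξ σ : k) * x) = Units.map ((act σ : O ≃+* O) : O →* O) (h x) * w ^ p)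
  (hinj : ∀ h ∈ T, ∀ h' ∈ T, (∀ x, ∃ w : Oˣ, h x = h' x * w ^ p) → h = h')

include ι haa' hϖ hpe hτ0 hφ hz hτ0ϖ hT hinj in
/-- The reduction of the relational count to the count on the canonical model: there are
`e`, a Frobenius power and the hypotheses of `cntAbs`, and `T` injects into the equivariant maps
`k → BQuot act p e`. -/
lemma rel_reduction :
    1 ≤ e0 ∧
    (∀ x : ResidueField O, ResidueField.mapAut (act τ0) x = x) ∧
    (∀ x : ResidueField O, ResidueField.mapAut (act (φ ^ (a' / a))) x = x ^ (p ^ a')) ∧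
    theta hϖ (act τ0) = ι' t ∧
    T.card ≤ Nat.card {g : k →+ BQuot act p (e0 * (p - 1)) //
      ∀ (s : D) (x : k), g ((ξ s : k) * x) = s • g x} := by
  classical
  have hp : p.Prime := Fact.out
  have hcF : CharP F p := ι.charP ι.injective p
  have hpκ : ((p : ℕ) : ResidueField O) = 0 := by
    have h1 : ι' ((p : ℕ) : F) = 0 := by rw [CharP.cast_eq_zero F p, map_zero]
    rwa [map_natCast] at h1
  have he0 : 1 ≤ e0 := by
    by_contra h
    have h0 : e0 = 0 := by omega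
    rw [h0, Nat.zero_mul, pow_zero, one_mul] at hpe
    have h1 : residue O (p : O) = 0 := by rw [map_natCast]; exact hpκ
    rw [hpe, residue_eq_zero_iff, mem_maximalIdeal, mem_nonunits_iff] at h1
    exact h1 υ.isUnit
  have hτ0' : ∀ x : ResidueField O, ResidueField.mapAut (act τ0) x = x := by
    intro x
    obtain ⟨y, rfl⟩ := residue_surjective x
    change residue O (act τ0 y) = residue O y
    rw [← sub_eq_zero, ← map_sub, residue_eq_zero_iff]
    exact hτ0 y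
  have hφ1 : ∀ x : ResidueField O, ResidueField.mapAut (act φ) x = x ^ (p ^ a) := by
    intro x
    obtain ⟨y, rfl⟩ := residue_surjective x
    change residue O (act φ y) = residue O y ^ (p ^ a)
    rw [← map_pow, ← sub_eq_zero, ← map_sub, residue_eq_zero_iff]
    exact hφ y
  have hφm : ∀ (j : ℕ) (x : ResidueField O),
      ResidueField.mapAut (act (φ ^ j)) x = x ^ (p ^ (a * j)) := by
    intro j
    induction j with
    | zero =>
      intro x
      rw [pow_zero, map_one, map_one, Nat.mul_zero, pow_zero, pow_one]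
      rfl
    | succ j ih =>
      intro x
      rw [pow_succ, map_mul, map_mul]
      change ResidueField.mapAut (act (φ ^ j)) (ResidueField.mapAut (act φ) x) = _
      rw [hφ1, ih, ← pow_mul, ← pow_add, Nat.mul_succ, Nat.add_comm]
  have hφa' : ∀ x : ResidueField O,
      ResidueField.mapAut (act (φ ^ (a' / a))) x = x ^ (p ^ a') := by
    intro x
    rw [hφm, Nat.mul_div_cancel' haa']
  have ht : theta hϖ (act τ0) = ι' t := by
    rw [theta, ← hz, ← sub_eq_zero, ← map_sub, residue_eq_zero_iff]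
    have h1 := ratio_spec hϖ (act τ0)
    rw [h1, mem_maximalIdeal_pow_iff hϖ] at hτ0ϖ
    obtain ⟨c, hc⟩ := hτ0ϖ
    have h2 : (ratio hϖ (act τ0) : O) - z = ϖ * c :=
      mul_left_cancel₀ hϖ.ne_zero (by linear_combination hc)
    rw [h2]
    exact Ideal.mul_mem_right _ _ (uniformizer_mem_maximalIdeal hϖ)
  refine ⟨he0, hτ0', hφa', ht, ?_⟩
  have hmem : ∀ h ∈ T, ∀ x, h x ∈ principalUnits O (e0 * (p - 1)) := by
    intro h hh x
    rw [mem_principalUnits, mem_maximalIdeal_pow_iff hϖ]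
    obtain ⟨c, hc⟩ := Ideal.mem_span_singleton'.mp ((hT h hh).1 x)
    exact ⟨(υ : O) * c, by rw [← hc, hpe]; ring⟩
  let H : {h // h ∈ T} → {g : k →+ BQuot act p (e0 * (p - 1)) //
      ∀ (s : D) (x : k), g ((ξ s : k) * x) = s • g x} := fun h =>
    ⟨AddMonoidHom.mk' (fun x => cls act p (e0 * (p - 1)) ⟨h.1 x, hmem h.1 h.2 x⟩) (by
        intro x y
        obtain ⟨w, hw⟩ := (hT h.1 h.2).2.1 x y
        rw [← cls_mul, cls_eq_iff]
        exact ⟨w, hw⟩), by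
      intro s x
      obtain ⟨w, hw⟩ := (hT h.1 h.2).2.2 s x
      change cls act p (e0 * (p - 1)) ⟨h.1 ((ξ s : k) * x), hmem h.1 h.2 _⟩ =
        s • cls act p (e0 * (p - 1)) ⟨h.1 x, hmem h.1 h.2 x⟩
      rw [smul_cls, cls_eq_iff]
      exact ⟨w, hw⟩⟩
  have hH : Function.Injective H := by
    intro h h' hh
    apply Subtype.ext
    apply hinj h.1 h.2 h'.1 h'.2
    intro x
    have h1 : (H h).1 x = (H h').1 x := by rw [hh]
    exact (cls_eq_iff act p (e0 * (p - 1)) _ _).mp h1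
  have hfin : Finite (BQuot act p (e0 * (p - 1))) :=
    finite_of_isModel hϖ hpe (isModel_BQuot act p (e0 * (p - 1)))
  have h1 := Nat.card_le_card_of_injective H hH
  have h2 : Nat.card {h // h ∈ T} = T.card :=
    Nat.card_eq_fintype_card.trans (Fintype.card_coe T)
  rwa [h2] at h1

include haa' hF hϖ hpe hτ0 hφ hz hτ0ϖ hT hinj in
/-- **C4b (`CNT-abs`), relational form.** -/
theorem card_le_rel :
    T.card ≤ Nat.card k ^ (1 + Set.ncard {nj : ℕ × ℕ | 1 ≤ nj.1 ∧ nj.1 ≤ e0 ∧ ¬ p ∣ nj.1 ∧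
      nj.2 < a' ∧ ι t ^ ((p * e0 - nj.1) * p ^ nj.2) = (ξ τ0 : k)}) := by
  obtain ⟨he0, hτ0', hφa', ht, hcard⟩ :=
    rel_reduction act a a' haa' ι ι' hϖ hpe ξ τ0 φ t z hτ0 hφ hz hτ0ϖ T hT hinj
  have hcF : CharP F p := ι.charP ι.injective p
  let _ : Algebra F k := ι.toAlgebra
  let _ : Algebra F (ResidueField O) := ι'.toAlgebra
  exact hcard.trans
    (cntAbs (κ0 := F) hϖ hpe rfl he0 ξ a' hF τ0 (φ ^ (a' / a)) hτ0' hφa' t ht)

include haa' hF hϖ hpe hτ0 hφ hz hτ0ϖ hT hinj in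
/-- **C4b (`CNT-abs`), relational form, `ξ` not the cyclotomic character.** -/
theorem card_le_rel_of_ne {ζ : O} (hζ : IsPrimitiveRoot ζ p) {s : D} {w : ℕ}
    (hw : act s ζ = ζ ^ w) (hne : (ξ s : k) ≠ (w : k)) :
    T.card ≤ Nat.card k ^ Set.ncard {nj : ℕ × ℕ | 1 ≤ nj.1 ∧ nj.1 ≤ e0 ∧ ¬ p ∣ nj.1 ∧
      nj.2 < a' ∧ ι t ^ ((p * e0 - nj.1) * p ^ nj.2) = (ξ τ0 : k)} := by
  obtain ⟨he0, hτ0', hφa', ht, hcard⟩ :=
    rel_reduction act a a' haa' ι ι' hϖ hpe ξ τ0 φ t z hτ0 hφ hz hτ0ϖ T hT hinj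
  have hcF : CharP F p := ι.charP ι.injective p
  let _ : Algebra F k := ι.toAlgebra
  let _ : Algebra F (ResidueField O) := ι'.toAlgebra
  exact hcard.trans
    (cntAbs_of_ne (κ0 := F) hϖ hpe rfl he0 ξ a' hF τ0 (φ ^ (a' / a)) hτ0' hφa' t ht hζ hw hne)

open Classical in
include haa' hF hϖ hpe hτ0 hφ hz hτ0ϖ hT hinj in
/-- **C4b (`CNT-abs`), relational form with the exponent of the design**:
`[ξ = cyclotomic character] + #{(n, j) : 1 ≤ n ≤ e0, p ∤ n, j < a', ι t ^ ((p e0 - n) p^j) = ξ τ0}`. -/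
theorem card_le_rel_ite {ζ : O} (hζ : IsPrimitiveRoot ζ p) :
    T.card ≤ Nat.card k ^
      ((if ∀ (σ : D) (n : ℕ), act σ ζ = ζ ^ n → (ξ σ : k) = (n : k) then 1 else 0) +
        Nat.card {nj : ℕ × ℕ // 1 ≤ nj.1 ∧ nj.1 ≤ e0 ∧ ¬ p ∣ nj.1 ∧ nj.2 < a' ∧
          ι t ^ ((p * e0 - nj.1) * p ^ nj.2) = (ξ τ0 : k)}) := by
  have hN : Nat.card {nj : ℕ × ℕ // 1 ≤ nj.1 ∧ nj.1 ≤ e0 ∧ ¬ p ∣ nj.1 ∧ nj.2 < a' ∧
      ι t ^ ((p * e0 - nj.1) * p ^ nj.2) = (ξ τ0 : k)} =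
      Set.ncard {nj : ℕ × ℕ | 1 ≤ nj.1 ∧ nj.1 ≤ e0 ∧ ¬ p ∣ nj.1 ∧ nj.2 < a' ∧
        ι t ^ ((p * e0 - nj.1) * p ^ nj.2) = (ξ τ0 : k)} := Nat.card_coe_set_eq _
  rw [hN]
  by_cases hc : ∀ (σ : D) (n : ℕ), act σ ζ = ζ ^ n → (ξ σ : k) = (n : k)
  · rw [if_pos hc]
    exact card_le_rel act a a' haa' hF ι ι' hϖ hpe ξ τ0 φ t z hτ0 hφ hz hτ0ϖ T hT hinj
  · rw [if_neg hc, zero_add]
    rw [not_forall] at hc
    obtain ⟨σ, hc⟩ := hc
    rw [not_forall] at hc
    obtain ⟨n, hc⟩ := hc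
    rw [Classical.not_imp] at hc
    exact card_le_rel_of_ne act a a' haa' hF ι ι' hϖ hpe ξ τ0 φ t z hτ0 hφ hz hτ0ϖ T hT hinj
      hζ hc.1 hc.2

end Rel

section RelSMul

open Classical in
/-- **C4b (`CNT-abs`), relational form for a `MulSemiringAction`**, equivariance stated on the
values in `O` (no action on units needed): the literal shape of the LF contract. -/
theorem card_le_rel_smul
    {O : Type*} [CommRing O] [IsDomain O] [IsDiscreteValuationRing O]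
    [IsAdicComplete (maximalIdeal O) O] [Finite (ResidueField O)]
    {D : Type*} [Group D] [MulSemiringAction D O]
    {p : ℕ} [Fact p.Prime] {k : Type*} [Field k] [Finite k] [CharP k p]
    {F : Type*} [Field F] (a a' : ℕ) (haa' : a ∣ a') (hF : Nat.card F = p ^ a')
    (ι : F →+* k) (ι' : F →+* ResidueField O) {ϖ : O} (hϖ : Irreducible ϖ)
    {e0 : ℕ} {υ : Oˣ} (hpe : (p : O) = ϖ ^ (e0 * (p - 1)) * (υ : O))
    {ζ : O} (hζ : IsPrimitiveRoot ζ p)
    (ξ : D →* kˣ) (τ0 φ : D) (t : F) (z : O)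
    (hτ0 : ∀ x : O, τ0 • x - x ∈ maximalIdeal O)
    (hφ : ∀ x : O, φ • x - x ^ (p ^ a) ∈ maximalIdeal O)
    (hz : residue O z = ι' t) (hτ0ϖ : τ0 • ϖ - z * ϖ ∈ maximalIdeal O ^ 2)
    (T : Finset (k → Oˣ))
    (hT : ∀ h ∈ T, (∀ x, ((h x : Oˣ) : O) - 1 ∈ Ideal.span {(p : O)}) ∧
      (∀ x y, ∃ w : Oˣ, h (x + y) = h x * h y * w ^ p) ∧
      ∀ (σ : D) (x : k), ∃ w : Oˣ,
        ((h ((ξ σ : k) * x) : Oˣ) : O) = σ • ((h x : Oˣ) : O) * ((w : Oˣ) : O) ^ p)
    (hinj : ∀ h ∈ T, ∀ h' ∈ T, (∀ x, ∃ w : Oˣ, h x = h' x * w ^ p) → h = h') :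
    T.card ≤ Nat.card k ^
      ((if ∀ (σ : D) (n : ℕ), σ • ζ = ζ ^ n → (ξ σ : k) = (n : k) then 1 else 0) +
        Nat.card {nj : ℕ × ℕ // 1 ≤ nj.1 ∧ nj.1 ≤ e0 ∧ ¬ p ∣ nj.1 ∧ nj.2 < a' ∧
          ι t ^ ((p * e0 - nj.1) * p ^ nj.2) = (ξ τ0 : k)}) := by
  have hT' : ∀ h ∈ T, (∀ x, ((h x : Oˣ) : O) - 1 ∈ Ideal.span {(p : O)}) ∧
      (∀ x y, ∃ w : Oˣ, h (x + y) = h x * h y * w ^ p) ∧
      ∀ (σ : D) (x : k), ∃ w : Oˣ, h ((ξ σ : k) * x) =
        Units.map ((MulSemiringAction.toRingAut D O σ : O ≃+* O) : O →* O) (h x) * w ^ p := by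
    intro h hh
    refine ⟨(hT h hh).1, (hT h hh).2.1, fun σ x => ?_⟩
    obtain ⟨w, hw⟩ := (hT h hh).2.2 σ x
    refine ⟨w, Units.ext ?_⟩
    rw [hw, Units.val_mul, Units.val_pow_eq_pow_val]
    rfl
  exact card_le_rel_ite (MulSemiringAction.toRingAut D O) a a' haa' hF ι ι' hϖ hpe ξ τ0 φ t z
    hτ0 hφ hz hτ0ϖ T hT' hinj hζ

end RelSMul

end Fermat.Agent.S56.Flat.CntAbs
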