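import Mathlib
import Fermat.Agent.S56.Flat.AlgBricks
import Fermat.Agent.S56.Flat.SemiCount

/-!
# S56, brick LF: SemiCount with the tame parameter in a larger finite field

`semiCountPlus` is the literal of the stage-2 row `SemiCountPlusStatement`: as
`Flat.SemiCountStatement`, but the parameter `t` lives in a finite field `F` with `p ^ a'`
elements, `a ∣ a'`, while the second relation is still `h (s' x) = c0 (h x) ^ (p ^ a)`.

Proof: iterating the second relation `a' / a` times gives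
`h (s' ^ m x) = c_m (h x) ^ (p ^ a')` with `c_m ≠ 0`, so the maps counted here are among the maps
counted by `SemiCountStatement` for `(a', s' ^ m, c_m)`.
-/

set_option autoImplicit false

namespace Fermat.Agent.S56.Flat.SemiCountPlus

/-- The constants of the iterated relation: `c_0 = 1`, `c_(n+1) = c0 * c_n ^ (p ^ a)`. -/
def iterConst {κ : Type} [Field κ] (p a : ℕ) (c0 : κ) : ℕ → κ
  | 0 => 1
  | n + 1 => c0 * iterConst p a c0 n ^ (p ^ a)

lemma iterConst_ne_zero {κ : Type} [Field κ] (p a : ℕ) {c0 : κ} (hc0 : c0 ≠ 0) (n : ℕ) :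
    iterConst p a c0 n ≠ 0 := by
  induction n with
  | zero => exact one_ne_zero
  | succ n ih => exact mul_ne_zero hc0 (pow_ne_zero _ ih)

lemma iterate_rel {k κ : Type} [Field k] [Field κ] (p a : ℕ) (h : k →+ κ) (s' : k) (c0 : κ)
    (hrel : ∀ x, h (s' * x) = c0 * h x ^ (p ^ a)) (n : ℕ) (x : k) :
    h (s' ^ n * x) = iterConst p a c0 n * h x ^ (p ^ (a * n)) := by
  induction n with
  | zero => simp [iterConst]
  | succ n ih =>
    rw [pow_succ', mul_assoc, hrel, ih, iterConst, mul_pow, ← pow_mul, mul_assoc, Nat.mul_succ,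
      pow_add]

/-- **SemiCount+** (literal of the row `SemiCountPlusStatement`), from `SemiCountStatement`. -/
theorem semiCountPlus_of (hSC : Fermat.Agent.S56.Flat.SemiCountStatement)
    (p : ℕ) [Fact p.Prime] (k κ F : Type) [Field k] [Field κ] [Field F]
    [Finite k] [Finite κ] [Finite F] [CharP k p] [CharP κ p] [CharP F p]
    (a a' : ℕ) (haa' : a ∣ a') (hF : Nat.card F = p ^ a')
    (ι : F →+* k) (ι' : F →+* κ) (s s' : k) (t : F) (c0 : κ) (hs' : s' ≠ 0) (hc0 : c0 ≠ 0) :
    Nat.card {h : k →+ κ // (∀ x, h (s * x) = ι' t * h x) ∧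
        ∀ x, h (s' * x) = c0 * h x ^ (p ^ a)} ≤
      Nat.card k ^ Nat.card {j : Fin a' // ι t ^ (p ^ (j : ℕ)) = s} := by
  obtain ⟨m, rfl⟩ := haa'
  have hfin : Finite (k →+ κ) :=
    Finite.of_injective (fun h : k →+ κ => (h : k → κ)) DFunLike.coe_injective
  refine le_trans ?_ (hSC p k κ F (a * m) hF ι ι' s (s' ^ m) t (iterConst p a c0 m)
    (pow_ne_zero _ hs') (iterConst_ne_zero p a hc0 m))
  refine Nat.card_le_card_of_injective
    (fun h : {h : k →+ κ // (∀ x, h (s * x) = ι' t * h x) ∧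
        ∀ x, h (s' * x) = c0 * h x ^ (p ^ a)} =>
      (⟨h.1, h.2.1, fun x => iterate_rel p a h.1 s' c0 h.2.2 m x⟩ :
        {h : k →+ κ // (∀ x, h (s * x) = ι' t * h x) ∧
          ∀ x, h (s' ^ m * x) = iterConst p a c0 m * h x ^ (p ^ (a * m))})) ?_
  intro h h' hh'
  have h1 := congrArg Subtype.val hh'
  exact Subtype.ext h1

/-- **SemiCount+**, unconditional. -/
theorem semiCountPlus
    (p : ℕ) [Fact p.Prime] (k κ F : Type) [Field k] [Field κ] [Field F]
    [Finite k] [Finite κ] [Finite F] [CharP k p] [CharP κ p] [CharP F p]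
    (a a' : ℕ) (haa' : a ∣ a') (hF : Nat.card F = p ^ a')
    (ι : F →+* k) (ι' : F →+* κ) (s s' : k) (t : F) (c0 : κ) (hs' : s' ≠ 0) (hc0 : c0 ≠ 0) :
    Nat.card {h : k →+ κ // (∀ x, h (s * x) = ι' t * h x) ∧
        ∀ x, h (s' * x) = c0 * h x ^ (p ^ a)} ≤
      Nat.card k ^ Nat.card {j : Fin a' // ι t ^ (p ^ (j : ℕ)) = s} :=
  semiCountPlus_of Fermat.Agent.S56.Flat.SemiCount.semiCountStatement p k κ F a a' haa' hF ι ι'
    s s' t c0 hs' hc0

end Fermat.Agent.S56.Flat.SemiCountPlus
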